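import Mathlib
import Fermat.Prelude.Def_ModularCurve_LaurentCoeff

/-!
# JT3 bridge: from `q`-integrality to the Gauss congruence in the chart

`O` is a local domain whose maximal ideal is generated by `π` (e.g. a DVR), `K ⊇ O` a field,
`ι : O((q)) → K((q))` and `red : O((q)) → k((q))` the coefficientwise maps.
If `x, θ ∈ O((q))` are such that `1, θ̄, …, θ̄^(n-1)` are independent over `k[x̄]` (the output of
the Igusa node S28) and `F0 ⊆ K((q))` is a set of series of the shape
`(Σ_{i<n} P_i(x) θ^i) / D(x)`, then for `q`-integral `y1, y2` with equal nonzero reductions the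
quotient `f = y1 / y2` satisfies `d(x) (f - 1) = π · Σ a_i(x) θ^i` with `d̄ ≠ 0`.
-/

set_option autoImplicit false
set_option linter.style.haveILetI false

open IsLocalRing Polynomial

namespace Fermat.Agent.JT3

section Basic

variable {O : Type*} [CommRing O] [IsDomain O] [IsLocalRing O]

omit [IsDomain O] [IsLocalRing O] in
/-- Constants of the Laurent series ring. -/
theorem gq_algebraMap_eq_single (c : O) :
    algebraMap O (LaurentSeries O) c = HahnSeries.single 0 c := by
  have h1 : algebraMap O (PowerSeries O) c = PowerSeries.C c := by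
    simp
  rw [HahnSeries.algebraMap_apply', h1, HahnSeries.ofPowerSeries_C]
  rfl

omit [IsDomain O] in
/-- Coefficientwise division by a generator of the maximal ideal. -/
theorem gq_exists_smul_of_red_eq_zero (π : O) (hπ : maximalIdeal O = Ideal.span {π})
    (y : LaurentSeries O) (hy : ModularCurve.coeffMap (residue O) y = 0) :
    ∃ y' : LaurentSeries O, y = algebraMap O (LaurentSeries O) π * y' := by
  classical
  have hdvd : ∀ n : ℤ, π ∣ y.coeff n := by
    intro n
    have h1 : residue O (y.coeff n) = 0 := by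
      have := congrArg (fun z : LaurentSeries (ResidueField O) => z.coeff n) hy
      simpa using this
    rw [residue_eq_zero_iff, hπ, Ideal.mem_span_singleton] at h1
    exact h1
  choose c hc using hdvd
  have hsupp : (Function.support fun n : ℤ => if y.coeff n = 0 then 0 else c n) ⊆ y.support := by
    intro n hn
    rw [Function.mem_support] at hn
    rw [HahnSeries.mem_support]
    intro h0
    exact hn (if_pos h0)
  refine ⟨⟨fun n => if y.coeff n = 0 then 0 else c n, y.isPWO_support.mono hsupp⟩, ?_⟩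
  ext n
  rw [gq_algebraMap_eq_single, HahnSeries.coeff_single_zero_mul]
  by_cases h0 : y.coeff n = 0
  · simp [h0]
  · simp only [h0, if_false]
    exact hc n

omit [IsDomain O] in
/-- Reduction commutes with polynomial evaluation. -/
theorem gq_red_aeval (x : LaurentSeries O) (p : O[X]) :
    ModularCurve.coeffMap (residue O) (aeval x p) =
      aeval (ModularCurve.coeffMap (residue O) x) (p.map (residue O)) := by
  induction p using Polynomial.induction_on' with
  | add p q hp hq => rw [map_add, map_add, hp, hq, Polynomial.map_add, map_add]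
  | monomial n a =>
    rw [Polynomial.map_monomial, aeval_monomial, aeval_monomial, map_mul, map_pow]
    congr 1
    rw [gq_algebraMap_eq_single, gq_algebraMap_eq_single, ModularCurve.coeffMap_single]

omit [IsDomain O] in
/-- A polynomial that vanishes modulo the maximal ideal `(π)` is divisible by `π`. -/
theorem gq_C_dvd_of_map_eq_zero (π : O) (hπ : maximalIdeal O = Ideal.span {π}) (p : O[X])
    (h : p.map (residue O) = 0) : C π ∣ p := by
  rw [Polynomial.C_dvd_iff_dvd_coeff]
  intro i
  have h1 : residue O (p.coeff i) = 0 := by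
    rw [← Polynomial.coeff_map, h, Polynomial.coeff_zero]
  rw [residue_eq_zero_iff, hπ, Ideal.mem_span_singleton] at h1
  exact h1

omit [IsLocalRing O] in
/-- Normalisation: divide a denominator and a finite family of numerators by the largest
common power of `π`. -/
theorem gq_normalize [WfDvdMonoid O] (π : O) (hπu : ¬ IsUnit π) {n : ℕ} (D : O[X])
    (hD : D ≠ 0) (P : Fin n → O[X]) :
    ∃ (e : ℕ) (D' : O[X]) (P' : Fin n → O[X]), D' ≠ 0 ∧ D = C π ^ e * D' ∧
      (∀ i, P i = C π ^ e * P' i) ∧ ¬ (C π ∣ D' ∧ ∀ i, C π ∣ P' i) := by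
  classical
  have hCπu : ¬ IsUnit (C π : O[X]) := by
    rw [Polynomial.isUnit_C]
    exact hπu
  have hfin : FiniteMultiplicity (C π) D := FiniteMultiplicity.of_not_isUnit hCπu hD
  obtain ⟨e₀, he₀⟩ := hfin
  have key : ∃ e, (C π ^ e ∣ D ∧ ∀ i, C π ^ e ∣ P i) ∧
      ¬ (C π ^ (e + 1) ∣ D ∧ ∀ i, C π ^ (e + 1) ∣ P i) := by
    have hex : ∃ e, ¬ (C π ^ (e + 1) ∣ D ∧ ∀ i, C π ^ (e + 1) ∣ P i) :=
      ⟨e₀, fun h => he₀ h.1⟩
    refine ⟨Nat.find hex, ?_, Nat.find_spec hex⟩
    rcases Nat.eq_zero_or_pos (Nat.find hex) with h0 | hpos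
    · rw [h0]
      simp
    · have hlt : Nat.find hex - 1 < Nat.find hex := by omega
      have := Nat.find_min hex hlt
      rw [not_not] at this
      have he1 : Nat.find hex - 1 + 1 = Nat.find hex := by omega
      rw [he1] at this
      exact this
  obtain ⟨e, hall, hspec⟩ := key
  obtain ⟨D', hD'⟩ := hall.1
  choose P' hP' using hall.2
  refine ⟨e, D', P', ?_, hD', hP', ?_⟩
  · intro h0
    rw [h0, mul_zero] at hD'
    exact hD hD'
  · rintro ⟨⟨D'', hD''⟩, hP''⟩
    apply hspec
    refine ⟨⟨D'', ?_⟩, fun i => ?_⟩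
    · rw [hD', hD'', pow_succ, mul_assoc]
    · obtain ⟨Q, hQ⟩ := hP'' i
      exact ⟨Q, by rw [hP' i, hQ, pow_succ, mul_assoc]⟩

end Basic

section Main

variable {O : Type*} [CommRing O] [IsDomain O] [IsLocalRing O] [WfDvdMonoid O]
variable {K : Type*} [Field K] [Algebra O K]

omit [IsDomain O] [IsLocalRing O] [WfDvdMonoid O] in
theorem gq_coeffMap_algebraMap (c : O) :
    ModularCurve.coeffMap (algebraMap O K) (algebraMap O (LaurentSeries O) c) =
      algebraMap K (LaurentSeries K) (algebraMap O K c) := by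
  rw [gq_algebraMap_eq_single, gq_algebraMap_eq_single, ModularCurve.coeffMap_single]

omit [IsDomain O] [IsLocalRing O] [WfDvdMonoid O] in
theorem gq_coeffMap_injective (hinj : Function.Injective (algebraMap O K)) :
    Function.Injective (ModularCurve.coeffMap (algebraMap O K)) := by
  intro a b hab
  ext m
  apply hinj
  have := congrArg (fun z : LaurentSeries K => z.coeff m) hab
  simpa using this

/-- **The bridge.** `q`-integral `y1, y2` with equal nonzero reductions, `f = y1 / y2`,
`y = (f - 1) / π` of the shape `(Σ P_i(x) θ^i) / D(x)`; if `1, θ̄, …, θ̄^(n-1)` are independent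
over `k[x̄]` then `d(x) (f - 1) = π · Σ a_i(x) θ^i` with `d̄ ≠ 0`. -/
theorem gq_bridge (π : O) (hπ0 : π ≠ 0) (hπ : maximalIdeal O = Ideal.span {π})
    (hinj : Function.Injective (algebraMap O K))
    (x θ : LaurentSeries O) (n : ℕ)
    (hind : ∀ a : Fin n → (ResidueField O)[X],
      (∑ i, aeval (ModularCurve.coeffMap (residue O) x) (a i) *
        (ModularCurve.coeffMap (residue O) θ) ^ (i : ℕ) = 0) → a = 0)
    (y1 y2 : LaurentSeries O)
    (hred : ModularCurve.coeffMap (residue O) y1 = ModularCurve.coeffMap (residue O) y2)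
    (hy2 : ModularCurve.coeffMap (residue O) y2 ≠ 0)
    (f y : LaurentSeries K)
    (hf : f * ModularCurve.coeffMap (algebraMap O K) y2 = ModularCurve.coeffMap (algebraMap O K) y1)
    (hy : algebraMap K (LaurentSeries K) (algebraMap O K π) * y = f - 1)
    (D : O[X]) (hD : D ≠ 0) (P : Fin n → O[X])
    (hrep : ModularCurve.coeffMap (algebraMap O K) (aeval x D) * y =
      ∑ i, ModularCurve.coeffMap (algebraMap O K) (aeval x (P i)) *
        (ModularCurve.coeffMap (algebraMap O K) θ) ^ (i : ℕ)) :
    ∃ (d : O[X]) (a : Fin n → O[X]), d.map (residue O) ≠ 0 ∧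
      ModularCurve.coeffMap (algebraMap O K) (aeval x d) * (f - 1) =
        algebraMap K (LaurentSeries K) (algebraMap O K π) *
          ∑ i, ModularCurve.coeffMap (algebraMap O K) (aeval x (a i)) *
            (ModularCurve.coeffMap (algebraMap O K) θ) ^ (i : ℕ) := by
  classical
  set ι := ModularCurve.coeffMap (algebraMap O K) with hι
  set red := ModularCurve.coeffMap (residue O) with hredd
  have hπK : algebraMap O K π ≠ 0 := by
    intro h0
    exact hπ0 (hinj (by rw [h0, map_zero]))
  have hπu : ¬ IsUnit π := by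
    intro hu
    have : π ∈ maximalIdeal O := by rw [hπ]; exact Ideal.mem_span_singleton_self π
    exact (mem_maximalIdeal π).mp this hu
  set c : LaurentSeries K := algebraMap K (LaurentSeries K) (algebraMap O K π) with hc
  have hcι : ι (algebraMap O (LaurentSeries O) π) = c := by
    rw [hι, gq_coeffMap_algebraMap]
  have hc0 : c ≠ 0 := by
    rw [hc, gq_algebraMap_eq_single]
    intro h0
    exact hπK (HahnSeries.single_eq_zero_iff.mp h0)
  -- Step 1
  obtain ⟨y', hy'⟩ := gq_exists_smul_of_red_eq_zero π hπ (y1 - y2) (by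
    rw [map_sub, hred, sub_self])
  -- Step 2
  have key1 : y * ι y2 = ι y' := by
    have h1 : c * (y * ι y2) = c * ι y' := by
      rw [← mul_assoc, hy, sub_mul, one_mul, hf, ← map_sub, hy', map_mul, hcι]
    exact mul_left_cancel₀ hc0 h1
  -- Step 3
  obtain ⟨e, D', P', hD'0, hDe, hPe, hnorm⟩ := gq_normalize π hπu D hD P
  -- Step 4
  have haev : ∀ Q : O[X], ι (aeval x (C π ^ e * Q)) = c ^ e * ι (aeval x Q) := by
    intro Q
    rw [map_mul, map_pow, aeval_C, map_mul, map_pow, hcι]
  have hrep' : ι (aeval x D') * y = ∑ i, ι (aeval x (P' i)) * (ι θ) ^ (i : ℕ) := by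
    have h1 : c ^ e * (ι (aeval x D') * y) =
        c ^ e * ∑ i, ι (aeval x (P' i)) * (ι θ) ^ (i : ℕ) := by
      rw [← mul_assoc, ← haev, ← hDe, hrep, Finset.mul_sum]
      refine Finset.sum_congr rfl fun i _ => ?_
      rw [hPe i, haev, mul_assoc]
    exact mul_left_cancel₀ (pow_ne_zero e hc0) h1
  -- Step 5
  have hO : aeval x D' * y' = (∑ i, aeval x (P' i) * θ ^ (i : ℕ)) * y2 := by
    apply gq_coeffMap_injective hinj
    change ι (aeval x D' * y') = ι ((∑ i, aeval x (P' i) * θ ^ (i : ℕ)) * y2)
    rw [map_mul, map_mul, map_sum, ← key1, ← mul_assoc, hrep']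
    congr 1
    refine Finset.sum_congr rfl fun i _ => ?_
    rw [map_mul, map_pow]
  -- Step 6
  have hDbar : D'.map (residue O) ≠ 0 := by
    intro h0
    have h1 := congrArg red hO
    rw [map_mul, map_mul, map_sum, hredd, gq_red_aeval, h0, map_zero, zero_mul] at h1
    have h2 : ∑ i, red (aeval x (P' i) * θ ^ (i : ℕ)) = 0 := by
      rcases mul_eq_zero.mp h1.symm with h | h
      · exact h
      · exact (hy2 h).elim
    have h3 : ∑ i, aeval (red x) ((P' i).map (residue O)) * (red θ) ^ (i : ℕ) = 0 := by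
      rw [← h2]
      refine Finset.sum_congr rfl fun i _ => ?_
      rw [map_mul, map_pow, hredd, gq_red_aeval]
    have h4 := hind (fun i => (P' i).map (residue O)) h3
    apply hnorm
    refine ⟨gq_C_dvd_of_map_eq_zero π hπ D' h0, fun i => ?_⟩
    exact gq_C_dvd_of_map_eq_zero π hπ (P' i) (congrFun h4 i)
  -- Step 7
  refine ⟨D', P', hDbar, ?_⟩
  rw [← hy, mul_left_comm, hrep']

omit [IsDomain O] [WfDvdMonoid O] in
/-- The denominator `d(x)` produced by `gq_bridge` is not divisible by `π` in the integral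
closure of `O[x]`: if `β` is integral over `O[x]` then `d(x) ≠ π β`. -/
theorem gq_not_dvd (π : O) (hπ : maximalIdeal O = Ideal.span {π})
    (hinj : Function.Injective (algebraMap O K)) (x : LaurentSeries O)
    (hx : ∀ p : (ResidueField O)[X],
      aeval (ModularCurve.coeffMap (residue O) x) p = 0 → p = 0)
    (d : O[X]) (hd : d.map (residue O) ≠ 0) (β : LaurentSeries K)
    (p : Polynomial O[X]) (hp : p.Monic)
    (hβ : Polynomial.eval₂ ((ModularCurve.coeffMap (algebraMap O K)).comp
      (aeval x : O[X] →ₐ[O] LaurentSeries O).toRingHom) β p = 0) :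
    ModularCurve.coeffMap (algebraMap O K) (aeval x d) ≠
      algebraMap K (LaurentSeries K) (algebraMap O K π) * β := by
  classical
  intro h
  set f : O[X] →+* LaurentSeries K := (ModularCurve.coeffMap (algebraMap O K)).comp
      (aeval x : O[X] →ₐ[O] LaurentSeries O).toRingHom with hf
  have hfs : f (C π) = algebraMap K (LaurentSeries K) (algebraMap O K π) := by
    rw [hf, RingHom.comp_apply]
    change ModularCurve.coeffMap (algebraMap O K) (aeval x (C π)) = _
    rw [aeval_C, gq_coeffMap_algebraMap]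
  have hfd : f d = f (C π) * β := by
    rw [hfs, ← h]
    rfl
  have h1 := Polynomial.scaleRoots_eval₂_eq_zero f (s := C π) hβ
  rw [← hfd, Polynomial.eval₂_at_apply] at h1
  set E : O[X] := (p.scaleRoots (C π)).eval d with hE
  have h2 : aeval x E = 0 := by
    apply gq_coeffMap_injective hinj
    rw [map_zero]
    exact h1
  have h3 : E.map (residue O) = 0 := by
    apply hx
    rw [← gq_red_aeval, h2, map_zero]
  have hπres : residue O π = 0 := by
    rw [residue_eq_zero_iff, hπ]
    exact Ideal.mem_span_singleton_self π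
  have h4 : (p.scaleRoots (C π)).map (Polynomial.mapRingHom (residue O)) =
      (X : Polynomial (ResidueField O)[X]) ^ p.natDegree := by
    ext i : 1
    rw [Polynomial.coeff_map, Polynomial.coeff_scaleRoots, Polynomial.coeff_X_pow, map_mul,
      map_pow, Polynomial.coe_mapRingHom, Polynomial.map_C, hπres, map_zero]
    by_cases hi : i = p.natDegree
    · rw [if_pos hi, hi, Nat.sub_self, pow_zero, mul_one, hp.coeff_natDegree, Polynomial.map_one]
    · rw [if_neg hi]
      rcases Nat.lt_or_ge i p.natDegree with hlt | hge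
      · have : p.natDegree - i ≠ 0 := by omega
        rw [zero_pow this, mul_zero]
      · have hgt : p.natDegree < i := lt_of_le_of_ne hge (Ne.symm hi)
        rw [Polynomial.coeff_eq_zero_of_natDegree_lt hgt, Polynomial.map_zero, zero_mul]
  have h5 : E.map (residue O) = (d.map (residue O)) ^ p.natDegree := by
    have h6 : E.map (residue O) =
        ((p.scaleRoots (C π)).map (Polynomial.mapRingHom (residue O))).eval
          (d.map (residue O)) := by
      rw [hE, Polynomial.eval_map, ← Polynomial.coe_mapRingHom]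
      exact (Polynomial.eval₂_at_apply (Polynomial.mapRingHom (residue O)) d).symm
    rw [h6, h4, Polynomial.eval_pow, Polynomial.eval_X]
  rw [h5] at h3
  exact hd (eq_zero_of_pow_eq_zero h3)

end Main

section Rep

variable {O : Type*} [CommRing O] [IsDomain O]
variable {K : Type*} [Field K] [Algebra O K] [IsFractionRing O K]

/-- `O((q))` as an algebra over `O[X]` via `X ↦ x`. -/
@[reducible] noncomputable def gq_alg (x : LaurentSeries O) : Algebra O[X] (LaurentSeries O) :=
  (aeval x : O[X] →ₐ[O] LaurentSeries O).toRingHom.toAlgebra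

/-- The set of series of the shape `ι t / ι D(x)`, `t ∈ O[x][θ]`, is a `K`-subalgebra. -/
noncomputable def gq_repAlg (x θ : LaurentSeries O) :
    Subalgebra K (LaurentSeries K) :=
  letI := gq_alg x
  { carrier := {y | ∃ D : O[X], D ≠ 0 ∧ ∃ t ∈ Algebra.adjoin O[X] {θ},
      ModularCurve.coeffMap (algebraMap O K) (aeval x D) * y =
        ModularCurve.coeffMap (algebraMap O K) t}
    mul_mem' := by
      rintro a b ⟨D1, hD1, t1, ht1, h1⟩ ⟨D2, hD2, t2, ht2, h2⟩
      refine ⟨D1 * D2, mul_ne_zero hD1 hD2, t1 * t2, Subalgebra.mul_mem _ ht1 ht2, ?_⟩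
      rw [map_mul, map_mul, map_mul, ← h1, ← h2]
      ring
    add_mem' := by
      rintro a b ⟨D1, hD1, t1, ht1, h1⟩ ⟨D2, hD2, t2, ht2, h2⟩
      refine ⟨D1 * D2, mul_ne_zero hD1 hD2, aeval x D2 * t1 + aeval x D1 * t2, ?_, ?_⟩
      · refine Subalgebra.add_mem _ (Subalgebra.mul_mem _ ?_ ht1) (Subalgebra.mul_mem _ ?_ ht2)
        · exact Subalgebra.algebraMap_mem _ D2
        · exact Subalgebra.algebraMap_mem _ D1
      · rw [map_mul, map_mul, map_add, map_mul, map_mul, ← h1, ← h2]
        ring
    algebraMap_mem' := by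
      intro c
      obtain ⟨a, b, hb, hab⟩ := IsFractionRing.div_surjective (A := O) c
      have hb0 : b ≠ 0 := nonZeroDivisors.ne_zero hb
      refine ⟨C b, by rwa [Ne, C_eq_zero], algebraMap O (LaurentSeries O) a, ?_, ?_⟩
      · have : algebraMap O (LaurentSeries O) a = algebraMap O[X] (LaurentSeries O) (C a) := by
          change _ = aeval x (C a)
          rw [aeval_C]
        rw [this]
        exact Subalgebra.algebraMap_mem _ _
      · rw [aeval_C, gq_coeffMap_algebraMap, gq_coeffMap_algebraMap, ← hab, ← map_mul]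
        congr 1
        have hbK : algebraMap O K b ≠ 0 := by
          intro h0
          exact hb0 ((IsFractionRing.injective O K) (by rw [h0, map_zero]))
        field_simp }

theorem gq_mem_repAlg_iff (x θ : LaurentSeries O) (y : LaurentSeries K) :
    y ∈ (gq_repAlg x θ : Subalgebra K (LaurentSeries K)) ↔
      letI := gq_alg x
      ∃ D : O[X], D ≠ 0 ∧ ∃ t ∈ Algebra.adjoin O[X] {θ},
        ModularCurve.coeffMap (algebraMap O K) (aeval x D) * y =
          ModularCurve.coeffMap (algebraMap O K) t := Iff.rfl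

/-- `θ` is integral over `O[x]`, so the representable series are closed under inversion. -/
theorem gq_repAlg_inv_mem (x θ : LaurentSeries O) (hx : ∀ D : O[X], D ≠ 0 → aeval x D ≠ 0)
    (Φ : Polynomial O[X]) (hΦ : Φ.Monic)
    (hroot : Polynomial.eval₂ (aeval x : O[X] →ₐ[O] LaurentSeries O).toRingHom θ Φ = 0)
    (y : LaurentSeries K) (hy : y ∈ (gq_repAlg x θ : Subalgebra K (LaurentSeries K))) :
    y⁻¹ ∈ (gq_repAlg x θ : Subalgebra K (LaurentSeries K)) := by
  letI := gq_alg x
  by_cases hy0 : y = 0
  · rw [hy0, inv_zero]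
    exact Subalgebra.zero_mem _
  obtain ⟨D, hD, t, ht, h⟩ := hy
  have hinj : Function.Injective (algebraMap O K) := IsFractionRing.injective O K
  have hιinj := gq_coeffMap_injective (K := K) hinj
  have hDx : ModularCurve.coeffMap (algebraMap O K) (aeval x D) ≠ 0 := by
    intro h0
    exact hx D hD (hιinj (by rw [h0, map_zero]))
  have ht0 : t ≠ 0 := by
    intro h0
    rw [h0, map_zero] at h
    rcases mul_eq_zero.mp h with h1 | h1
    · exact hDx h1
    · exact hy0 h1
  have hθint : IsIntegral O[X] θ := ⟨Φ, hΦ, hroot⟩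
  have htint : IsIntegral O[X] t := adjoin_le_integralClosure hθint ht
  obtain ⟨t', ht', r, hr, hrt⟩ := htint.isAlgebraic.exists_nonzero_eq_adjoin_mul
    (mem_nonZeroDivisors_of_ne_zero ht0)
  have ht'mem : t' ∈ Algebra.adjoin O[X] {θ} := by
    have hle : Algebra.adjoin O[X] {t} ≤ Algebra.adjoin O[X] {θ} :=
      Algebra.adjoin_le (Set.singleton_subset_iff.mpr ht)
    exact hle ht'
  refine ⟨r, hr, aeval x D * t', Subalgebra.mul_mem _ (Subalgebra.algebraMap_mem _ D) ht'mem, ?_⟩
  have hrt' : t * t' = aeval x r := hrt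
  have hιt : ModularCurve.coeffMap (algebraMap O K) t ≠ 0 := by
    intro h0
    exact ht0 (hιinj (by rw [h0, map_zero]))
  rw [← hrt', map_mul, map_mul, ← h]
  field_simp


/-- **Representation.** If `θ` is a root of the monic `Φ ∈ O[x][Y]` and `x` is transcendental,
every element of `K(x, θ) ⊆ K((q))` is `(Σ_{i < deg Φ} P_i(x) θ^i) / D(x)` with
`D, P_i ∈ O[X]`, `D ≠ 0`. -/
theorem gq_exists_rep (x θ : LaurentSeries O) (hx : ∀ D : O[X], D ≠ 0 → aeval x D ≠ 0)
    (Φ : Polynomial O[X]) (hΦ : Φ.Monic)
    (hroot : Polynomial.eval₂ (aeval x : O[X] →ₐ[O] LaurentSeries O).toRingHom θ Φ = 0)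
    (y : LaurentSeries K)
    (hy : y ∈ IntermediateField.adjoin K
      {ModularCurve.coeffMap (algebraMap O K) x, ModularCurve.coeffMap (algebraMap O K) θ}) :
    ∃ (D : O[X]) (P : Fin Φ.natDegree → O[X]), D ≠ 0 ∧
      ModularCurve.coeffMap (algebraMap O K) (aeval x D) * y =
        ∑ i, ModularCurve.coeffMap (algebraMap O K) (aeval x (P i)) *
          (ModularCurve.coeffMap (algebraMap O K) θ) ^ (i : ℕ) := by
  letI := gq_alg x
  -- Step 1: y is representable
  have hle : IntermediateField.adjoin K
      {ModularCurve.coeffMap (algebraMap O K) x, ModularCurve.coeffMap (algebraMap O K) θ} ≤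
      (gq_repAlg (K := K) x θ).toIntermediateField
        (fun z hz => gq_repAlg_inv_mem x θ hx Φ hΦ hroot z hz) := by
    rw [IntermediateField.adjoin_le_iff]
    rintro z (rfl | rfl)
    · refine ⟨1, one_ne_zero, x, ?_, ?_⟩
      · have hmem : algebraMap O[X] (LaurentSeries O) X ∈ Algebra.adjoin O[X] {θ} :=
          Subalgebra.algebraMap_mem _ X
        have e : algebraMap O[X] (LaurentSeries O) X = x := by
          change aeval x X = x
          exact aeval_X x
        rw [e] at hmem
        exact hmem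
      · rw [map_one, map_one, one_mul]
    · refine ⟨1, one_ne_zero, θ, Algebra.subset_adjoin rfl, ?_⟩
      rw [map_one, map_one, one_mul]
  obtain ⟨D, hD, t, ht, h⟩ := hle hy
  -- Step 2: t is a polynomial in θ
  rw [Algebra.adjoin_singleton_eq_range_aeval] at ht
  obtain ⟨G, rfl⟩ := ht
  -- Step 3: reduce modulo Φ
  have hΦ0 : aeval θ Φ = 0 := hroot
  have hΦ1 : Φ ≠ 1 := by
    intro h1
    rw [h1, map_one] at hΦ0
    exact one_ne_zero hΦ0
  have hG : aeval θ G = aeval θ (G %ₘ Φ) := by
    conv_lhs => rw [← Polynomial.modByMonic_add_div G Φ]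
    rw [map_add, map_mul, hΦ0, zero_mul, add_zero]
  have hdeg : (G %ₘ Φ).natDegree < Φ.natDegree := Polynomial.natDegree_modByMonic_lt G hΦ hΦ1
  refine ⟨D, fun i => (G %ₘ Φ).coeff i, hD, ?_⟩
  rw [h]
  change ModularCurve.coeffMap (algebraMap O K) (aeval θ G) = _
  rw [hG, aeval_def, Polynomial.eval₂_eq_sum_range' _ hdeg, map_sum, Finset.sum_range]
  refine Finset.sum_congr rfl fun i _ => ?_
  rw [map_mul, map_pow]
  rfl


end Rep

section Combined

variable {O : Type*} [CommRing O] [IsDomain O] [IsLocalRing O] [WfDvdMonoid O]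
variable {K : Type*} [Field K] [Algebra O K] [IsFractionRing O K]

omit [IsDomain O] [WfDvdMonoid O] [IsFractionRing O K] in
/-- Residual transcendence of `x` from the independence hypothesis (`0 < n`). -/
theorem gq_transc_of_indep (x θ : LaurentSeries O) {n : ℕ} (hn : 0 < n)
    (hind : ∀ a : Fin n → (ResidueField O)[X],
      (∑ i, aeval (ModularCurve.coeffMap (residue O) x) (a i) *
        (ModularCurve.coeffMap (residue O) θ) ^ (i : ℕ) = 0) → a = 0)
    (p : (ResidueField O)[X]) (hp : aeval (ModularCurve.coeffMap (residue O) x) p = 0) :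
    p = 0 := by
  classical
  have h := hind (fun i => if (i : ℕ) = 0 then p else 0) (by
    refine Finset.sum_eq_zero fun i _ => ?_
    by_cases hi : (i : ℕ) = 0
    · rw [if_pos hi, hp, zero_mul]
    · rw [if_neg hi, map_zero, zero_mul])
  have := congrFun h ⟨0, hn⟩
  simpa using this

omit [IsFractionRing O K] in
/-- `x` is transcendental over `O` as soon as its reduction is transcendental over `k`. -/
theorem gq_aeval_ne_zero (π : O) (hπ0 : π ≠ 0) (hπ : maximalIdeal O = Ideal.span {π})
    (x : LaurentSeries O)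
    (hx : ∀ p : (ResidueField O)[X],
      aeval (ModularCurve.coeffMap (residue O) x) p = 0 → p = 0)
    (D : O[X]) (hD : D ≠ 0) : aeval x D ≠ 0 := by
  have hπu : ¬ IsUnit π := by
    intro hu
    have : π ∈ maximalIdeal O := by rw [hπ]; exact Ideal.mem_span_singleton_self π
    exact (mem_maximalIdeal π).mp this hu
  obtain ⟨e, D', _P', -, hDe, -, hnorm⟩ := gq_normalize π hπu (n := 0) D hD (fun i => i.elim0)
  have hD'bar : D'.map (residue O) ≠ 0 := by
    intro h0
    exact hnorm ⟨gq_C_dvd_of_map_eq_zero π hπ D' h0, fun i => i.elim0⟩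
  have h1 : aeval x D' ≠ 0 := by
    intro h0
    apply hD'bar
    apply hx
    rw [← gq_red_aeval, h0, map_zero]
  have h2 : algebraMap O (LaurentSeries O) π ≠ 0 := by
    rw [gq_algebraMap_eq_single]
    intro h0
    exact hπ0 (HahnSeries.single_eq_zero_iff.mp h0)
  rw [hDe, map_mul, map_pow, aeval_C]
  exact mul_ne_zero (pow_ne_zero e h2) h1

/-- **Bridge, field form.** `x, θ ∈ O((q))`, `θ` a root of the monic `Φ ∈ O[x][Y]`,
`1, θ̄, …` independent over `k[x̄]` up to `deg Φ`; `y1, y2 ∈ O((q))` with equal nonzero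
reductions and `f = y1 / y2 ∈ K(x, θ)`.  Then `d(x) (f - 1) = π · Σ a_i(x) θ^i` with
`d̄ ≠ 0`. -/
theorem gq_bridge_field (π : O) (hπ0 : π ≠ 0) (hπ : maximalIdeal O = Ideal.span {π})
    (x θ : LaurentSeries O) (Φ : Polynomial O[X]) (hΦ : Φ.Monic)
    (hroot : Polynomial.eval₂ (aeval x : O[X] →ₐ[O] LaurentSeries O).toRingHom θ Φ = 0)
    (hind : ∀ a : Fin Φ.natDegree → (ResidueField O)[X],
      (∑ i, aeval (ModularCurve.coeffMap (residue O) x) (a i) *
        (ModularCurve.coeffMap (residue O) θ) ^ (i : ℕ) = 0) → a = 0)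
    (y1 y2 : LaurentSeries O)
    (hred : ModularCurve.coeffMap (residue O) y1 = ModularCurve.coeffMap (residue O) y2)
    (hy2 : ModularCurve.coeffMap (residue O) y2 ≠ 0)
    (f : LaurentSeries K)
    (hfmem : f ∈ IntermediateField.adjoin K
      {ModularCurve.coeffMap (algebraMap O K) x, ModularCurve.coeffMap (algebraMap O K) θ})
    (hf : f * ModularCurve.coeffMap (algebraMap O K) y2 =
      ModularCurve.coeffMap (algebraMap O K) y1) :
    ∃ (d : O[X]) (a : Fin Φ.natDegree → O[X]), d.map (residue O) ≠ 0 ∧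
      ModularCurve.coeffMap (algebraMap O K) (aeval x d) * (f - 1) =
        algebraMap K (LaurentSeries K) (algebraMap O K π) *
          ∑ i, ModularCurve.coeffMap (algebraMap O K) (aeval x (a i)) *
            (ModularCurve.coeffMap (algebraMap O K) θ) ^ (i : ℕ) := by
  have hinj : Function.Injective (algebraMap O K) := IsFractionRing.injective O K
  have hn : 0 < Φ.natDegree := by
    rcases Nat.eq_zero_or_pos Φ.natDegree with h0 | h
    · exfalso
      have h1 : Φ = 1 := Polynomial.eq_one_of_monic_natDegree_zero hΦ h0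
      rw [h1, Polynomial.eval₂_one] at hroot
      exact one_ne_zero hroot
    · exact h
  have hxk := gq_transc_of_indep x θ hn hind
  have hx := gq_aeval_ne_zero π hπ0 hπ x hxk
  have hπK : algebraMap O K π ≠ 0 := by
    intro h0
    exact hπ0 (hinj (by rw [h0, map_zero]))
  set c : LaurentSeries K := algebraMap K (LaurentSeries K) (algebraMap O K π) with hc
  have hc0 : c ≠ 0 := by
    rw [hc, gq_algebraMap_eq_single]
    intro h0
    exact hπK (HahnSeries.single_eq_zero_iff.mp h0)
  set F0 := IntermediateField.adjoin K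
      {ModularCurve.coeffMap (algebraMap O K) x, ModularCurve.coeffMap (algebraMap O K) θ}
  have hymem : c⁻¹ * (f - 1) ∈ F0 := by
    refine F0.mul_mem (F0.inv_mem (F0.algebraMap_mem _)) (F0.sub_mem hfmem F0.one_mem)
  obtain ⟨D, P, hD, hrep⟩ := gq_exists_rep x θ hx Φ hΦ hroot _ hymem
  exact gq_bridge π hπ0 hπ hinj x θ Φ.natDegree hind y1 y2 hred hy2 f (c⁻¹ * (f - 1)) hf
    (by rw [← mul_assoc, mul_inv_cancel₀ hc0, one_mul]) D hD P hrep

end Combined

end Fermat.Agent.JT3
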