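import Mathlib
import Fermat.Agent.JT3.Bridge.GaussQ

/-!
# JT3 bridge: the `q`-Gauss valuation ring

`O` a local domain with maximal ideal `(π)`, `π ≠ 0`, `WfDvdMonoid O` (e.g. a DVR), `K = Frac O`.
Inside `K((q))`:

* `gq_quotField` : the field of bounded quotients `ι z1 / ι z2`, `z1 z2 ∈ O((q))`;
* `gq_IsBdd z`   : `z = ι z1 / ι z2` with `red z2 ≠ 0`;
* `gq_valSub`    : the valuation subring of `gq_quotField` cut out by `gq_IsBdd`, a DVR with
  uniformiser `π`, with residue homomorphism `gq_res` to `k((q))`.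
-/

set_option autoImplicit false
set_option linter.style.haveILetI false

open IsLocalRing Polynomial

namespace Fermat.Agent.JT3

section Bdd

variable (O : Type*) [CommRing O] [IsDomain O] [IsLocalRing O]
variable (K : Type*) [Field K] [Algebra O K]

/-- `z ∈ K((q))` is a quotient of two series with coefficients in `O`. -/
def gq_IsQuot (z : LaurentSeries K) : Prop :=
  ∃ z1 z2 : LaurentSeries O, z2 ≠ 0 ∧
    z * ModularCurve.coeffMap (algebraMap O K) z2 = ModularCurve.coeffMap (algebraMap O K) z1

/-- `z ∈ K((q))` is a quotient `ι z1 / ι z2` with `red z2 ≠ 0`. -/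
def gq_IsBdd (z : LaurentSeries K) : Prop :=
  ∃ z1 z2 : LaurentSeries O, ModularCurve.coeffMap (residue O) z2 ≠ 0 ∧
    z * ModularCurve.coeffMap (algebraMap O K) z2 = ModularCurve.coeffMap (algebraMap O K) z1

variable {O K}

omit [IsDomain O] in
theorem gq_isQuot_of_isBdd {z : LaurentSeries K} (h : gq_IsBdd O K z) : gq_IsQuot O K z := by
  obtain ⟨z1, z2, h2, h⟩ := h
  refine ⟨z1, z2, ?_, h⟩
  intro h0
  rw [h0, map_zero] at h2
  exact h2 rfl

omit [IsDomain O] in
theorem gq_isBdd_iota (y : LaurentSeries O) :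
    gq_IsBdd O K (ModularCurve.coeffMap (algebraMap O K) y) := by
  refine ⟨y, 1, ?_, ?_⟩
  · rw [map_one]
    exact one_ne_zero
  · rw [map_one, mul_one]

/-- The ring of bounded quotients. -/
def gq_bddSubring (O : Type*) [CommRing O] [IsDomain O] [IsLocalRing O] (K : Type*) [Field K]
    [Algebra O K] : Subring (LaurentSeries K) where
  carrier := {z | gq_IsBdd O K z}
  zero_mem' := ⟨0, 1, by rw [map_one]; exact one_ne_zero, by rw [zero_mul, map_zero]⟩
  one_mem' := ⟨1, 1, by rw [map_one]; exact one_ne_zero, by rw [one_mul]⟩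
  add_mem' := by
    rintro a b ⟨a1, a2, ha2, ha⟩ ⟨b1, b2, hb2, hb⟩
    refine ⟨a1 * b2 + b1 * a2, a2 * b2, ?_, ?_⟩
    · rw [map_mul]
      exact mul_ne_zero ha2 hb2
    · rw [map_mul, map_add, map_mul, map_mul, ← ha, ← hb]
      ring
  mul_mem' := by
    rintro a b ⟨a1, a2, ha2, ha⟩ ⟨b1, b2, hb2, hb⟩
    refine ⟨a1 * b1, a2 * b2, ?_, ?_⟩
    · rw [map_mul]
      exact mul_ne_zero ha2 hb2
    · rw [map_mul, map_mul, ← ha, ← hb]
      ring
  neg_mem' := by
    rintro a ⟨a1, a2, ha2, ha⟩
    exact ⟨-a1, a2, ha2, by rw [map_neg, ← ha, neg_mul]⟩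

theorem gq_mem_bddSubring {z : LaurentSeries K} :
    z ∈ gq_bddSubring O K ↔ gq_IsBdd O K z := Iff.rfl

end Bdd

section Val

variable {O : Type*} [CommRing O] [IsDomain O] [IsLocalRing O] [WfDvdMonoid O]
variable {K : Type*} [Field K] [Algebra O K]

omit [IsDomain O] [IsLocalRing O] [WfDvdMonoid O] in
/-- Coefficientwise division by `π ^ e`. -/
theorem gq_exists_pow_mul_of_dvd (π : O) (e : ℕ) (y : LaurentSeries O)
    (h : ∀ n : ℤ, π ^ e ∣ y.coeff n) :
    ∃ y' : LaurentSeries O, y = algebraMap O (LaurentSeries O) (π ^ e) * y' := by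
  classical
  choose c hc using h
  have hsupp : (Function.support fun n : ℤ => if y.coeff n = 0 then 0 else c n) ⊆ y.support := by
    intro n hn
    rw [Function.mem_support] at hn
    rw [HahnSeries.mem_support]
    intro h0
    exact hn (if_pos h0)
  refine ⟨⟨fun n => if y.coeff n = 0 then 0 else c n, y.isPWO_support.mono hsupp⟩, ?_⟩
  ext n
  rw [gq_algebraMap_eq_single, HahnSeries.coeff_single_zero_mul]
  by_cases h0 : y.coeff n = 0
  · simp [h0]
  · simp only [h0, if_false]
    exact hc n

/-- A nonzero series over `O` is a power of `π` times a series with nonzero reduction. -/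
theorem gq_exists_pow_mul (π : O) (hπ : maximalIdeal O = Ideal.span {π}) (y : LaurentSeries O)
    (hy : y ≠ 0) :
    ∃ (e : ℕ) (y' : LaurentSeries O), y = algebraMap O (LaurentSeries O) (π ^ e) * y' ∧
      ModularCurve.coeffMap (residue O) y' ≠ 0 := by
  classical
  have hπu : ¬ IsUnit π := by
    intro hu
    have : π ∈ maximalIdeal O := by rw [hπ]; exact Ideal.mem_span_singleton_self π
    exact (mem_maximalIdeal π).mp this hu
  obtain ⟨n₀, hn₀⟩ : ∃ n₀ : ℤ, y.coeff n₀ ≠ 0 := by
    by_contra h
    apply hy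
    ext n
    by_contra hn
    exact h ⟨n, hn⟩
  obtain ⟨e₀, he₀⟩ : FiniteMultiplicity π (y.coeff n₀) :=
    FiniteMultiplicity.of_not_isUnit hπu hn₀
  have key : ∃ e, (∀ n : ℤ, π ^ e ∣ y.coeff n) ∧ ¬ (∀ n : ℤ, π ^ (e + 1) ∣ y.coeff n) := by
    have hex : ∃ e, ¬ (∀ n : ℤ, π ^ (e + 1) ∣ y.coeff n) := ⟨e₀, fun h => he₀ (h n₀)⟩
    refine ⟨Nat.find hex, ?_, Nat.find_spec hex⟩
    rcases Nat.eq_zero_or_pos (Nat.find hex) with h0 | hpos
    · rw [h0]
      simp
    · have hlt : Nat.find hex - 1 < Nat.find hex := by omega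
      have := Nat.find_min hex hlt
      rw [not_not] at this
      have he1 : Nat.find hex - 1 + 1 = Nat.find hex := by omega
      rw [he1] at this
      exact this
  obtain ⟨e, hall, hspec⟩ := key
  obtain ⟨y', hy'⟩ := gq_exists_pow_mul_of_dvd π e y hall
  refine ⟨e, y', hy', ?_⟩
  intro h0
  apply hspec
  intro n
  have h1 : residue O (y'.coeff n) = 0 := by
    have := congrArg (fun z : LaurentSeries (ResidueField O) => z.coeff n) h0
    simpa using this
  rw [residue_eq_zero_iff, hπ, Ideal.mem_span_singleton] at h1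
  obtain ⟨c, hc⟩ := h1
  refine ⟨c, ?_⟩
  have h2 := congrArg (fun z : LaurentSeries O => z.coeff n) hy'
  simp only [gq_algebraMap_eq_single, HahnSeries.coeff_single_zero_mul] at h2
  rw [h2, hc, pow_succ, mul_assoc]

end Val

section ValSub

variable {O : Type*} [CommRing O] [IsDomain O] [IsLocalRing O] [WfDvdMonoid O]
variable {K : Type*} [Field K] [Algebra O K] [IsFractionRing O K]

/-- The field of bounded quotients `ι z1 / ι z2` inside `K((q))`. -/
def gq_quotField (O : Type*) [CommRing O] [IsDomain O] [IsLocalRing O] (K : Type*) [Field K]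
    [Algebra O K] [IsFractionRing O K] : IntermediateField K (LaurentSeries K) where
  carrier := {z | gq_IsQuot O K z}
  mul_mem' := by
    rintro a b ⟨a1, a2, ha2, ha⟩ ⟨b1, b2, hb2, hb⟩
    refine ⟨a1 * b1, a2 * b2, mul_ne_zero ha2 hb2, ?_⟩
    rw [map_mul, map_mul, ← ha, ← hb]
    ring
  add_mem' := by
    rintro a b ⟨a1, a2, ha2, ha⟩ ⟨b1, b2, hb2, hb⟩
    refine ⟨a1 * b2 + b1 * a2, a2 * b2, mul_ne_zero ha2 hb2, ?_⟩
    rw [map_mul, map_add, map_mul, map_mul, ← ha, ← hb]
    ring
  algebraMap_mem' := by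
    intro c
    obtain ⟨a, b, hb, hab⟩ := IsFractionRing.div_surjective (A := O) c
    have hb0 : b ≠ 0 := nonZeroDivisors.ne_zero hb
    have hbK : algebraMap O K b ≠ 0 := by
      intro h0
      exact hb0 ((IsFractionRing.injective O K) (by rw [h0, map_zero]))
    refine ⟨algebraMap O (LaurentSeries O) a, algebraMap O (LaurentSeries O) b, ?_, ?_⟩
    · rw [gq_algebraMap_eq_single]
      intro h0
      exact hb0 (HahnSeries.single_eq_zero_iff.mp h0)
    · rw [gq_coeffMap_algebraMap, gq_coeffMap_algebraMap, ← hab, ← map_mul]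
      congr 1
      field_simp
  inv_mem' := by
    rintro a ⟨a1, a2, ha2, ha⟩
    by_cases ha0 : a = 0
    · rw [ha0, inv_zero]
      exact ⟨0, 1, one_ne_zero, by rw [zero_mul, map_zero]⟩
    have hinj := gq_coeffMap_injective (K := K) (IsFractionRing.injective O K)
    have ha2' : ModularCurve.coeffMap (algebraMap O K) a2 ≠ 0 := by
      intro h0
      exact ha2 (hinj (by rw [h0, map_zero]))
    have ha1 : a1 ≠ 0 := by
      intro h0
      rw [h0, map_zero] at ha
      rcases mul_eq_zero.mp ha with h | h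
      · exact ha0 h
      · exact ha2' h
    refine ⟨a2, a1, ha1, ?_⟩
    rw [← ha]
    field_simp

omit [WfDvdMonoid O] in
theorem gq_mem_quotField {z : LaurentSeries K} :
    z ∈ gq_quotField O K ↔ gq_IsQuot O K z := Iff.rfl

omit [WfDvdMonoid O] in
theorem gq_iota_mem_quotField (y : LaurentSeries O) :
    ModularCurve.coeffMap (algebraMap O K) y ∈ gq_quotField O K :=
  gq_isQuot_of_isBdd (gq_isBdd_iota y)

omit [WfDvdMonoid O] in
/-- Fields generated over `K` by series with coefficients in `O` consist of bounded quotients. -/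
theorem gq_adjoin_le_quotField (S : Set (LaurentSeries O)) :
    IntermediateField.adjoin K (ModularCurve.coeffMap (algebraMap O K) '' S) ≤ gq_quotField O K := by
  rw [IntermediateField.adjoin_le_iff]
  rintro _ ⟨y, -, rfl⟩
  exact gq_iota_mem_quotField y

/-- A bounded quotient or its inverse has a denominator with nonzero reduction. -/
theorem gq_isBdd_or_inv (π : O) (hπ0 : π ≠ 0) (hπ : maximalIdeal O = Ideal.span {π})
    {z : LaurentSeries K} (hz : gq_IsQuot O K z) : gq_IsBdd O K z ∨ gq_IsBdd O K z⁻¹ := by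
  obtain ⟨z1, z2, hz2, h⟩ := hz
  have hinjK : Function.Injective (algebraMap O K) := IsFractionRing.injective O K
  have hinj := gq_coeffMap_injective (K := K) hinjK
  by_cases hz0 : z = 0
  · left
    rw [hz0]
    exact (gq_bddSubring O K).zero_mem
  have hz2' : ModularCurve.coeffMap (algebraMap O K) z2 ≠ 0 := by
    intro h0
    exact hz2 (hinj (by rw [h0, map_zero]))
  have hz1 : z1 ≠ 0 := by
    intro h0
    rw [h0, map_zero] at h
    rcases mul_eq_zero.mp h with h | h
    · exact hz0 h
    · exact hz2' h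
  obtain ⟨e1, w1, hw1, hr1⟩ := gq_exists_pow_mul π hπ z1 hz1
  obtain ⟨e2, w2, hw2, hr2⟩ := gq_exists_pow_mul π hπ z2 hz2
  set c : LaurentSeries K := algebraMap K (LaurentSeries K) (algebraMap O K π) with hc
  have hc0 : c ≠ 0 := by
    rw [hc, gq_algebraMap_eq_single]
    intro h0
    exact hπ0 (hinjK (by rw [HahnSeries.single_eq_zero_iff.mp h0, map_zero]))
  have hpow : ∀ e : ℕ, ModularCurve.coeffMap (algebraMap O K)
      (algebraMap O (LaurentSeries O) (π ^ e)) = c ^ e := by
    intro e
    rw [gq_coeffMap_algebraMap, map_pow, map_pow]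
  rw [hw1, hw2, map_mul, map_mul, hpow, hpow] at h
  rcases le_total e2 e1 with hle | hle
  · left
    refine ⟨algebraMap O (LaurentSeries O) (π ^ (e1 - e2)) * w1, w2, hr2, ?_⟩
    rw [map_mul, hpow]
    have h3 : c ^ e2 * (z * ModularCurve.coeffMap (algebraMap O K) w2) =
        c ^ e2 * (c ^ (e1 - e2) * ModularCurve.coeffMap (algebraMap O K) w1) := by
      rw [← mul_assoc (c ^ e2) (c ^ (e1 - e2)), ← pow_add, Nat.add_sub_cancel' hle, ← h]
      ring
    exact mul_left_cancel₀ (pow_ne_zero e2 hc0) h3
  · right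
    refine ⟨algebraMap O (LaurentSeries O) (π ^ (e2 - e1)) * w2, w1, hr1, ?_⟩
    rw [map_mul, hpow]
    have hw1' : ModularCurve.coeffMap (algebraMap O K) w1 ≠ 0 := by
      intro h0
      have : w1 = 0 := hinj (by rw [h0, map_zero])
      rw [this, map_zero] at hr1
      exact hr1 rfl
    have h3 : c ^ e1 * (z⁻¹ * ModularCurve.coeffMap (algebraMap O K) w1) =
        c ^ e1 * (c ^ (e2 - e1) * ModularCurve.coeffMap (algebraMap O K) w2) := by
      rw [← mul_assoc (c ^ e1) (c ^ (e2 - e1)), ← pow_add, Nat.add_sub_cancel' hle]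
      have h4 : c ^ e1 * ModularCurve.coeffMap (algebraMap O K) w1 =
          z * (c ^ e2 * ModularCurve.coeffMap (algebraMap O K) w2) := h.symm
      calc c ^ e1 * (z⁻¹ * ModularCurve.coeffMap (algebraMap O K) w1)
          = z⁻¹ * (c ^ e1 * ModularCurve.coeffMap (algebraMap O K) w1) := by ring
        _ = z⁻¹ * (z * (c ^ e2 * ModularCurve.coeffMap (algebraMap O K) w2)) := by rw [h4]
        _ = c ^ e2 * ModularCurve.coeffMap (algebraMap O K) w2 := by
            rw [← mul_assoc, inv_mul_cancel₀ hz0, one_mul]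
    exact mul_left_cancel₀ (pow_ne_zero e1 hc0) h3

end ValSub

section ValSubDef

variable {O : Type*} [CommRing O] [IsDomain O] [IsLocalRing O] [WfDvdMonoid O]
variable {K : Type*} [Field K] [Algebra O K] [IsFractionRing O K]

/-- The `q`-Gauss valuation subring of the field of bounded quotients. -/
noncomputable def gq_valSub (π : O) (hπ0 : π ≠ 0) (hπ : maximalIdeal O = Ideal.span {π}) :
    ValuationSubring ↥(gq_quotField O K) where
  toSubring := (gq_bddSubring O K).comap (gq_quotField O K).val.toRingHom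
  mem_or_inv_mem' := by
    intro z
    rcases gq_isBdd_or_inv π hπ0 hπ z.2 with h | h
    · exact Or.inl h
    · refine Or.inr ?_
      change gq_IsBdd O K ((z⁻¹ : ↥(gq_quotField O K)) : LaurentSeries K)
      rwa [IntermediateField.coe_inv]

theorem gq_mem_valSub (π : O) (hπ0 : π ≠ 0) (hπ : maximalIdeal O = Ideal.span {π})
    (z : ↥(gq_quotField O K)) :
    z ∈ gq_valSub (K := K) π hπ0 hπ ↔ gq_IsBdd O K (z : LaurentSeries K) := Iff.rfl

/-- The `q`-Gauss valuation subring of a subfield `E` of the field of bounded quotients. -/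
noncomputable def gq_valSubOf (π : O) (hπ0 : π ≠ 0) (hπ : maximalIdeal O = Ideal.span {π})
    (E : IntermediateField K (LaurentSeries K)) (hE : E ≤ gq_quotField O K) :
    ValuationSubring ↥E :=
  (gq_valSub (K := K) π hπ0 hπ).comap (IntermediateField.inclusion hE).toRingHom

theorem gq_mem_valSubOf (π : O) (hπ0 : π ≠ 0) (hπ : maximalIdeal O = Ideal.span {π})
    (E : IntermediateField K (LaurentSeries K)) (hE : E ≤ gq_quotField O K) (z : ↥E) :
    z ∈ gq_valSubOf π hπ0 hπ E hE ↔ gq_IsBdd O K (z : LaurentSeries K) := Iff.rfl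

end ValSubDef

section Res

variable {O : Type*} [CommRing O] [IsDomain O] [IsLocalRing O]
variable {K : Type*} [Field K] [Algebra O K] [IsFractionRing O K]

omit [IsDomain O] in
/-- Independence of the presentation: the reduction `red z1 / red z2` of a bounded quotient. -/
theorem gq_red_div_eq {z : LaurentSeries K} {z1 z2 w1 w2 : LaurentSeries O}
    (hz2 : ModularCurve.coeffMap (residue O) z2 ≠ 0)
    (hz : z * ModularCurve.coeffMap (algebraMap O K) z2 = ModularCurve.coeffMap (algebraMap O K) z1)
    (hw2 : ModularCurve.coeffMap (residue O) w2 ≠ 0)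
    (hw : z * ModularCurve.coeffMap (algebraMap O K) w2 = ModularCurve.coeffMap (algebraMap O K) w1) :
    ModularCurve.coeffMap (residue O) z1 / ModularCurve.coeffMap (residue O) z2 =
      ModularCurve.coeffMap (residue O) w1 / ModularCurve.coeffMap (residue O) w2 := by
  have hinj := gq_coeffMap_injective (K := K) (IsFractionRing.injective O K)
  have h1 : z1 * w2 = w1 * z2 := by
    apply hinj
    rw [map_mul, map_mul, ← hz, ← hw]
    ring
  rw [div_eq_div_iff hz2 hw2, ← map_mul, ← map_mul, h1]

/-- The residue homomorphism of the ring of bounded quotients. -/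
noncomputable def gq_res (O : Type*) [CommRing O] [IsDomain O] [IsLocalRing O] (K : Type*)
    [Field K] [Algebra O K] [IsFractionRing O K] :
    ↥(gq_bddSubring O K) →+* LaurentSeries (ResidueField O) where
  toFun z := ModularCurve.coeffMap (residue O) z.2.choose /
    ModularCurve.coeffMap (residue O) z.2.choose_spec.choose
  map_one' := by
    have h := (1 : ↥(gq_bddSubring O K)).2.choose_spec.choose_spec
    rw [gq_red_div_eq h.1 h.2 (w1 := 1) (w2 := 1) (by rw [map_one]; exact one_ne_zero)
      (by rw [map_one, mul_one]; rfl), map_one, div_one]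
  map_zero' := by
    have h := (0 : ↥(gq_bddSubring O K)).2.choose_spec.choose_spec
    rw [gq_red_div_eq h.1 h.2 (w1 := 0) (w2 := 1) (by rw [map_one]; exact one_ne_zero)
      (by rw [map_one, mul_one, map_zero]; rfl), map_zero, zero_div]
  map_add' a b := by
    have ha := a.2.choose_spec.choose_spec
    have hb := b.2.choose_spec.choose_spec
    have hab := (a + b).2.choose_spec.choose_spec
    set a1 := a.2.choose
    set a2 := a.2.choose_spec.choose
    set b1 := b.2.choose
    set b2 := b.2.choose_spec.choose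
    rw [gq_red_div_eq hab.1 hab.2 (w1 := a1 * b2 + b1 * a2) (w2 := a2 * b2)
      (by rw [map_mul]; exact mul_ne_zero ha.1 hb.1)
      (by
        rw [map_mul, map_add, map_mul, map_mul, ← ha.2, ← hb.2]
        push_cast
        ring)]
    rw [map_add, map_mul, map_mul, map_mul, div_add_div _ _ ha.1 hb.1]
    ring
  map_mul' a b := by
    have ha := a.2.choose_spec.choose_spec
    have hb := b.2.choose_spec.choose_spec
    have hab := (a * b).2.choose_spec.choose_spec
    set a1 := a.2.choose
    set a2 := a.2.choose_spec.choose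
    set b1 := b.2.choose
    set b2 := b.2.choose_spec.choose
    rw [gq_red_div_eq hab.1 hab.2 (w1 := a1 * b1) (w2 := a2 * b2)
      (by rw [map_mul]; exact mul_ne_zero ha.1 hb.1)
      (by
        rw [map_mul, map_mul, ← ha.2, ← hb.2]
        push_cast
        ring)]
    rw [map_mul, map_mul, mul_div_mul_comm]

theorem gq_res_eq (z : ↥(gq_bddSubring O K)) {z1 z2 : LaurentSeries O}
    (hz2 : ModularCurve.coeffMap (residue O) z2 ≠ 0)
    (hz : (z : LaurentSeries K) * ModularCurve.coeffMap (algebraMap O K) z2 =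
      ModularCurve.coeffMap (algebraMap O K) z1) :
    gq_res O K z =
      ModularCurve.coeffMap (residue O) z1 / ModularCurve.coeffMap (residue O) z2 := by
  have h := z.2.choose_spec.choose_spec
  exact gq_red_div_eq h.1 h.2 hz2 hz

theorem gq_res_iota (y : LaurentSeries O) :
    gq_res O K ⟨ModularCurve.coeffMap (algebraMap O K) y, gq_isBdd_iota y⟩ =
      ModularCurve.coeffMap (residue O) y := by
  rw [gq_res_eq _ (z1 := y) (z2 := 1) (by rw [map_one]; exact one_ne_zero)
    (by rw [map_one, mul_one]), map_one, div_one]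

end Res

section Kernel

variable {O : Type*} [CommRing O] [IsDomain O] [IsLocalRing O]
variable {K : Type*} [Field K] [Algebra O K] [IsFractionRing O K]

omit [IsDomain O] [IsLocalRing O] [IsFractionRing O K] in
theorem gq_const_ne_zero (π : O) (hπ0 : π ≠ 0) (hinj : Function.Injective (algebraMap O K)) :
    algebraMap K (LaurentSeries K) (algebraMap O K π) ≠ 0 := by
  rw [gq_algebraMap_eq_single]
  intro h0
  exact hπ0 (hinj (by rw [HahnSeries.single_eq_zero_iff.mp h0, map_zero]))

omit [IsDomain O] in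
theorem gq_red_const (π : O) (hπ : maximalIdeal O = Ideal.span {π}) :
    ModularCurve.coeffMap (residue O) (algebraMap O (LaurentSeries O) π) = 0 := by
  have hπres : residue O π = 0 := by
    rw [residue_eq_zero_iff, hπ]
    exact Ideal.mem_span_singleton_self π
  rw [gq_algebraMap_eq_single, ModularCurve.coeffMap_single, hπres, HahnSeries.single_eq_zero]

/-- The kernel of the residue homomorphism is generated by `π`. -/
theorem gq_res_eq_zero_iff (π : O) (hπ0 : π ≠ 0) (hπ : maximalIdeal O = Ideal.span {π})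
    (z : ↥(gq_bddSubring O K)) :
    gq_res O K z = 0 ↔ ∃ w : ↥(gq_bddSubring O K),
      (z : LaurentSeries K) = algebraMap K (LaurentSeries K) (algebraMap O K π) * w := by
  have hinjK : Function.Injective (algebraMap O K) := IsFractionRing.injective O K
  have hc0 := gq_const_ne_zero (K := K) π hπ0 hinjK
  constructor
  · intro h
    obtain ⟨z1, z2, hz2, hz⟩ := z.2
    rw [gq_res_eq z hz2 hz, div_eq_zero_iff] at h
    have hz1 : ModularCurve.coeffMap (residue O) z1 = 0 := h.resolve_right hz2
    obtain ⟨z1', hz1'⟩ := gq_exists_smul_of_red_eq_zero π hπ z1 hz1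
    refine ⟨⟨(algebraMap K (LaurentSeries K) (algebraMap O K π))⁻¹ * z, z1', z2, hz2, ?_⟩, ?_⟩
    · rw [mul_assoc, hz, hz1', map_mul, gq_coeffMap_algebraMap, ← mul_assoc,
        inv_mul_cancel₀ hc0, one_mul]
    · change (z : LaurentSeries K) = _ * (_ * _)
      rw [← mul_assoc, mul_inv_cancel₀ hc0, one_mul]
  · rintro ⟨w, hw⟩
    obtain ⟨w1, w2, hw2, hww⟩ := w.2
    rw [gq_res_eq z (z1 := algebraMap O (LaurentSeries O) π * w1) hw2 (by
      rw [hw, mul_assoc, hww, map_mul, gq_coeffMap_algebraMap]),
      map_mul, gq_red_const π hπ, zero_mul, zero_div]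

/-- A bounded quotient with nonzero residue has a bounded inverse. -/
theorem gq_isBdd_inv_of_res_ne_zero (z : ↥(gq_bddSubring O K)) (h : gq_res O K z ≠ 0) :
    gq_IsBdd O K (z : LaurentSeries K)⁻¹ := by
  obtain ⟨z1, z2, hz2, hz⟩ := z.2
  rw [gq_res_eq z hz2 hz] at h
  have hz1 : ModularCurve.coeffMap (residue O) z1 ≠ 0 := by
    intro h0
    rw [h0, zero_div] at h
    exact h rfl
  have hinj := gq_coeffMap_injective (K := K) (IsFractionRing.injective O K)
  have hz2' : ModularCurve.coeffMap (algebraMap O K) z2 ≠ 0 := by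
    intro h0
    have : z2 = 0 := hinj (by rw [h0, map_zero])
    rw [this, map_zero] at hz2
    exact hz2 rfl
  have hz1' : ModularCurve.coeffMap (algebraMap O K) z1 ≠ 0 := by
    intro h0
    have : z1 = 0 := hinj (by rw [h0, map_zero])
    rw [this, map_zero] at hz1
    exact hz1 rfl
  have hz0 : (z : LaurentSeries K) ≠ 0 := by
    intro h0
    rw [h0, zero_mul] at hz
    exact hz1' hz.symm
  refine ⟨z2, z1, hz1, ?_⟩
  rw [← hz]
  field_simp

/-- Conversely, if `z` and `z⁻¹` are bounded then the residue of `z` is nonzero. -/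
theorem gq_res_ne_zero_of_inv (z : ↥(gq_bddSubring O K))
    (h : gq_IsBdd O K (z : LaurentSeries K)⁻¹) (hz0 : (z : LaurentSeries K) ≠ 0) :
    gq_res O K z ≠ 0 := by
  intro h0
  have h1 : z * ⟨(z : LaurentSeries K)⁻¹, h⟩ = 1 := by
    apply Subtype.ext
    change (z : LaurentSeries K) * (z : LaurentSeries K)⁻¹ = 1
    exact mul_inv_cancel₀ hz0
  have h2 := congrArg (gq_res O K) h1
  rw [map_mul, h0, zero_mul, map_one] at h2
  exact zero_ne_one h2

end Kernel

section Structure

variable {O : Type*} [CommRing O] [IsDomain O] [IsLocalRing O] [WfDvdMonoid O]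
variable {K : Type*} [Field K] [Algebra O K] [IsFractionRing O K]

/-- **Structure of the `q`-Gauss ring in the S28 setting.** For `z ∈ K(x, θ)`:
`z` is bounded iff `d(x) z = Σ a_i(x) θ^i` with `d̄ ≠ 0`. -/
theorem gq_isBdd_iff_of_indep (π : O) (hπ0 : π ≠ 0) (hπ : maximalIdeal O = Ideal.span {π})
    (x θ : LaurentSeries O) (Φ : Polynomial O[X]) (hΦ : Φ.Monic)
    (hroot : Polynomial.eval₂ (aeval x : O[X] →ₐ[O] LaurentSeries O).toRingHom θ Φ = 0)
    (hind : ∀ a : Fin Φ.natDegree → (ResidueField O)[X],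
      (∑ i, aeval (ModularCurve.coeffMap (residue O) x) (a i) *
        (ModularCurve.coeffMap (residue O) θ) ^ (i : ℕ) = 0) → a = 0)
    (z : LaurentSeries K)
    (hz : z ∈ IntermediateField.adjoin K
      {ModularCurve.coeffMap (algebraMap O K) x, ModularCurve.coeffMap (algebraMap O K) θ}) :
    gq_IsBdd O K z ↔ ∃ (d : O[X]) (a : Fin Φ.natDegree → O[X]), d.map (residue O) ≠ 0 ∧
      ModularCurve.coeffMap (algebraMap O K) (aeval x d) * z =
        ∑ i, ModularCurve.coeffMap (algebraMap O K) (aeval x (a i)) *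
          (ModularCurve.coeffMap (algebraMap O K) θ) ^ (i : ℕ) := by
  have hinjK : Function.Injective (algebraMap O K) := IsFractionRing.injective O K
  have hc0 := gq_const_ne_zero (K := K) π hπ0 hinjK
  set c : LaurentSeries K := algebraMap K (LaurentSeries K) (algebraMap O K π) with hc
  have hn : 0 < Φ.natDegree := by
    rcases Nat.eq_zero_or_pos Φ.natDegree with h0 | h
    · exfalso
      have h1 : Φ = 1 := Polynomial.eq_one_of_monic_natDegree_zero hΦ h0
      rw [h1, Polynomial.eval₂_one] at hroot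
      exact one_ne_zero hroot
    · exact h
  have hxk := gq_transc_of_indep x θ hn hind
  constructor
  · rintro ⟨z1, z2, hz2, hzz⟩
    -- apply the bridge to f := 1 + π z
    have hfmem : 1 + c * z ∈ IntermediateField.adjoin K
        {ModularCurve.coeffMap (algebraMap O K) x, ModularCurve.coeffMap (algebraMap O K) θ} :=
      add_mem (one_mem _) (mul_mem (IntermediateField.algebraMap_mem _ _) hz)
    obtain ⟨d, a, hd, h⟩ := gq_bridge_field π hπ0 hπ x θ Φ hΦ hroot hind
      (z2 + algebraMap O (LaurentSeries O) π * z1) z2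
      (by rw [map_add, map_mul, gq_red_const π hπ, zero_mul, add_zero]) hz2 (1 + c * z) hfmem
      (by rw [map_add, map_mul, gq_coeffMap_algebraMap, add_mul, one_mul, mul_assoc, hzz])
    refine ⟨d, a, hd, ?_⟩
    rw [add_sub_cancel_left, mul_left_comm] at h
    exact mul_left_cancel₀ hc0 h
  · rintro ⟨d, a, hd, h⟩
    refine ⟨∑ i, aeval x (a i) * θ ^ (i : ℕ), aeval x d, ?_, ?_⟩
    · rw [gq_red_aeval]
      intro h0
      exact hd (hxk _ h0)
    · rw [mul_comm, h, map_sum]
      refine Finset.sum_congr rfl fun i _ => ?_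
      rw [map_mul, map_pow]

/-- **The `q`-Gauss ring on `K(λ)`.** For `λ ∈ O((q))` with residually transcendental
reduction and `z ∈ K(λ)`: `z` is bounded iff `z = a(λ) / b(λ)` with `b̄ ≠ 0`. -/
theorem gq_isBdd_adjoin_simple_iff (π : O) (hπ0 : π ≠ 0) (hπ : maximalIdeal O = Ideal.span {π})
    (lam : LaurentSeries O)
    (hlam : ∀ p : (ResidueField O)[X],
      aeval (ModularCurve.coeffMap (residue O) lam) p = 0 → p = 0)
    (z : LaurentSeries K)
    (hz : z ∈ IntermediateField.adjoin K {ModularCurve.coeffMap (algebraMap O K) lam}) :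
    gq_IsBdd O K z ↔ ∃ a b : O[X], b.map (residue O) ≠ 0 ∧
      z * ModularCurve.coeffMap (algebraMap O K) (aeval lam b) =
        ModularCurve.coeffMap (algebraMap O K) (aeval lam a) := by
  classical
  -- use the structure theorem with θ = 1, Φ = Y - 1
  have hΦ : (X - C (1 : O[X]) : Polynomial O[X]).Monic := Polynomial.monic_X_sub_C 1
  have hdeg : (X - C (1 : O[X]) : Polynomial O[X]).natDegree = 1 := Polynomial.natDegree_X_sub_C 1
  have hroot : Polynomial.eval₂ (aeval lam : O[X] →ₐ[O] LaurentSeries O).toRingHom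
      (1 : LaurentSeries O) (X - C (1 : O[X])) = 0 := by
    rw [Polynomial.eval₂_sub, Polynomial.eval₂_X, Polynomial.eval₂_C, map_one, sub_self]
  have hz' : z ∈ IntermediateField.adjoin K
      {ModularCurve.coeffMap (algebraMap O K) lam,
        ModularCurve.coeffMap (algebraMap O K) (1 : LaurentSeries O)} :=
    IntermediateField.adjoin.mono K _ _ (by
      intro t ht
      rw [Set.mem_singleton_iff] at ht
      rw [ht]
      exact Set.mem_insert _ _) hz
  have hind : ∀ a : Fin (X - C (1 : O[X]) : Polynomial O[X]).natDegree → (ResidueField O)[X],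
      (∑ i, aeval (ModularCurve.coeffMap (residue O) lam) (a i) *
        (ModularCurve.coeffMap (residue O) (1 : LaurentSeries O)) ^ (i : ℕ) = 0) → a = 0 := by
    intro a ha
    funext i
    have hi : (i : ℕ) = 0 := by
      have := i.2
      omega
    have hsum : ∑ j, aeval (ModularCurve.coeffMap (residue O) lam) (a j) *
        (ModularCurve.coeffMap (residue O) (1 : LaurentSeries O)) ^ (j : ℕ) =
        aeval (ModularCurve.coeffMap (residue O) lam) (a i) := by
      rw [Finset.sum_eq_single i]
      · rw [map_one, one_pow, mul_one]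
      · intro j _ hj
        exfalso
        apply hj
        apply Fin.ext
        have := j.2
        omega
      · intro h
        exact (h (Finset.mem_univ i)).elim
    rw [hsum] at ha
    exact hlam _ ha
  rw [gq_isBdd_iff_of_indep π hπ0 hπ lam 1 _ hΦ hroot hind z hz']
  constructor
  · rintro ⟨d, a, hd, h⟩
    refine ⟨a ⟨0, by omega⟩, d, hd, ?_⟩
    rw [mul_comm, h, Finset.sum_eq_single (⟨0, by omega⟩ : Fin _)]
    · simp
    · intro j _ hj
      exfalso
      apply hj
      apply Fin.ext
      have := j.2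
      simp only
      omega
    · intro h
      exact (h (Finset.mem_univ _)).elim
  · rintro ⟨a, b, hb, h⟩
    refine ⟨b, fun _ => a, hb, ?_⟩
    rw [mul_comm, h, Finset.sum_eq_single (⟨0, by omega⟩ : Fin _)]
    · simp
    · intro j _ hj
      exfalso
      apply hj
      apply Fin.ext
      have := j.2
      simp only
      omega
    · intro h
      exact (h (Finset.mem_univ _)).elim

end Structure

section MaxIdeal

variable {O : Type*} [CommRing O] [IsDomain O] [IsLocalRing O] [WfDvdMonoid O]
variable {K : Type*} [Field K] [Algebra O K] [IsFractionRing O K]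

/-- In the `q`-Gauss ring of `E`, an element is a non-unit iff it is `π` times a bounded
element of `E`. -/
theorem gq_mem_maximalIdeal_iff (π : O) (hπ0 : π ≠ 0) (hπ : maximalIdeal O = Ideal.span {π})
    (E : IntermediateField K (LaurentSeries K)) (hE : E ≤ gq_quotField O K)
    (a : ↥(gq_valSubOf π hπ0 hπ E hE)) :
    a ∈ maximalIdeal ↥(gq_valSubOf π hπ0 hπ E hE) ↔
      ∃ w : ↥E, w ∈ gq_valSubOf π hπ0 hπ E hE ∧
        (a : ↥E) = algebraMap K ↥E (algebraMap O K π) * w := by
  have hinjK : Function.Injective (algebraMap O K) := IsFractionRing.injective O K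
  have hc0 := gq_const_ne_zero (K := K) π hπ0 hinjK
  have habdd : gq_IsBdd O K ((a : ↥E) : LaurentSeries K) := a.2
  rw [← ValuationSubring.coe_mem_nonunits_iff, ValuationSubring.mem_nonunits_iff_or]
  constructor
  · intro h
    have hres : gq_res O K ⟨((a : ↥E) : LaurentSeries K), habdd⟩ = 0 := by
      by_contra hne
      rcases h with h | h
      · apply hne
        have : (⟨((a : ↥E) : LaurentSeries K), habdd⟩ : ↥(gq_bddSubring O K)) = 0 := by
          apply Subtype.ext
          change ((a : ↥E) : LaurentSeries K) = 0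
          rw [h]
          rfl
        rw [this, map_zero]
      · apply h
        have := gq_isBdd_inv_of_res_ne_zero _ hne
        change gq_IsBdd O K (((a : ↥E)⁻¹ : ↥E) : LaurentSeries K)
        rwa [IntermediateField.coe_inv]
    obtain ⟨w, hw⟩ := (gq_res_eq_zero_iff π hπ0 hπ _).mp hres
    have hwE : (w : LaurentSeries K) ∈ E := by
      have h1 : (w : LaurentSeries K) =
          (algebraMap K (LaurentSeries K) (algebraMap O K π))⁻¹ * ((a : ↥E) : LaurentSeries K) := by
        change ((a : ↥E) : LaurentSeries K) = _ at hw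
        rw [hw, ← mul_assoc, inv_mul_cancel₀ hc0, one_mul]
      rw [h1]
      exact E.mul_mem (E.inv_mem (E.algebraMap_mem _)) (a : ↥E).2
    refine ⟨⟨w, hwE⟩, w.2, ?_⟩
    apply Subtype.ext
    exact hw
  · rintro ⟨w, hw, haw⟩
    by_cases ha0 : (a : ↥E) = 0
    · exact Or.inl ha0
    · refine Or.inr fun hinv => ?_
      have hinv' : gq_IsBdd O K (((a : ↥E) : LaurentSeries K))⁻¹ := by
        have : gq_IsBdd O K (((a : ↥E)⁻¹ : ↥E) : LaurentSeries K) := hinv
        rwa [IntermediateField.coe_inv] at this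
      have ha0' : ((a : ↥E) : LaurentSeries K) ≠ 0 := fun h => ha0 (Subtype.ext h)
      apply gq_res_ne_zero_of_inv ⟨((a : ↥E) : LaurentSeries K), habdd⟩ hinv' ha0'
      rw [gq_res_eq_zero_iff π hπ0 hπ]
      refine ⟨⟨(w : LaurentSeries K), hw⟩, ?_⟩
      change ((a : ↥E) : LaurentSeries K) = _
      rw [haw]
      rfl

/-- `π` is not a unit of the `q`-Gauss ring. -/
theorem gq_const_inv_not_mem (π : O) (hπ0 : π ≠ 0) (hπ : maximalIdeal O = Ideal.span {π})
    (E : IntermediateField K (LaurentSeries K)) (hE : E ≤ gq_quotField O K) :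
    (algebraMap K ↥E (algebraMap O K π))⁻¹ ∉ gq_valSubOf π hπ0 hπ E hE := by
  intro hinv
  have hinjK : Function.Injective (algebraMap O K) := IsFractionRing.injective O K
  have hc0 := gq_const_ne_zero (K := K) π hπ0 hinjK
  have hbdd : gq_IsBdd O K (algebraMap K (LaurentSeries K) (algebraMap O K π)) := by
    rw [← gq_coeffMap_algebraMap]
    exact gq_isBdd_iota _
  have hinv' : gq_IsBdd O K (algebraMap K (LaurentSeries K) (algebraMap O K π))⁻¹ := by
    have : gq_IsBdd O K (((algebraMap K ↥E (algebraMap O K π))⁻¹ : ↥E) : LaurentSeries K) := hinv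
    rwa [IntermediateField.coe_inv] at this
  apply gq_res_ne_zero_of_inv ⟨_, hbdd⟩ hinv' hc0
  rw [gq_res_eq_zero_iff π hπ0 hπ]
  exact ⟨1, by rw [OneMemClass.coe_one, mul_one]⟩

/-- The constant `π` as an element of the `q`-Gauss ring of `E`. -/
noncomputable def gq_unif (π : O) (hπ0 : π ≠ 0) (hπ : maximalIdeal O = Ideal.span {π})
    (E : IntermediateField K (LaurentSeries K)) (hE : E ≤ gq_quotField O K) :
    ↥(gq_valSubOf π hπ0 hπ E hE) :=
  ⟨algebraMap K ↥E (algebraMap O K π), by
    change gq_IsBdd O K (algebraMap K (LaurentSeries K) (algebraMap O K π))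
    rw [← gq_coeffMap_algebraMap]
    exact gq_isBdd_iota _⟩

/-- The maximal ideal of the `q`-Gauss ring of `E` is generated by `π`. -/
theorem gq_maximalIdeal_eq (π : O) (hπ0 : π ≠ 0) (hπ : maximalIdeal O = Ideal.span {π})
    (E : IntermediateField K (LaurentSeries K)) (hE : E ≤ gq_quotField O K) :
    maximalIdeal ↥(gq_valSubOf π hπ0 hπ E hE) = Ideal.span {gq_unif π hπ0 hπ E hE} := by
  ext a
  rw [gq_mem_maximalIdeal_iff, Ideal.mem_span_singleton]
  constructor
  · rintro ⟨w, hw, haw⟩
    exact ⟨⟨w, hw⟩, Subtype.ext haw⟩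
  · rintro ⟨b, hb⟩
    exact ⟨b, b.2, congrArg Subtype.val hb⟩

end MaxIdeal

section Unique

variable {O : Type*} [CommRing O] [IsDomain O] [IsLocalRing O] [WfDvdMonoid O]
variable {K : Type*} [Field K] [Algebra O K] [IsFractionRing O K]

omit [IsDomain O] [IsLocalRing O] [WfDvdMonoid O] [IsFractionRing O K] in
/-- Polynomials in `ι x` with coefficients from `O` lie in any intermediate field containing
`ι x`. -/
theorem gq_iota_aeval_mem (E : IntermediateField K (LaurentSeries K)) (x : LaurentSeries O)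
    (hx : ModularCurve.coeffMap (algebraMap O K) x ∈ E) (d : O[X]) :
    ModularCurve.coeffMap (algebraMap O K) (aeval x d) ∈ E := by
  induction d using Polynomial.induction_on' with
  | add p q hp hq => rw [map_add, map_add]; exact E.add_mem hp hq
  | monomial n a =>
    rw [aeval_monomial, map_mul, map_pow, gq_coeffMap_algebraMap]
    exact E.mul_mem (E.algebraMap_mem _) (E.pow_mem hx n)

omit [IsDomain O] [IsLocalRing O] [WfDvdMonoid O] [IsFractionRing O K] in
/-- A valuation subring containing `ι x` and the constants of `O` contains `O[ι x]`. -/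
theorem gq_iota_aeval_mem_valuationSubring (E : IntermediateField K (LaurentSeries K))
    (V : ValuationSubring ↥E) (x : LaurentSeries O)
    (hVx : ∀ t : ↥E, (t : LaurentSeries K) = ModularCurve.coeffMap (algebraMap O K) x → t ∈ V)
    (hVO : ∀ c : O, algebraMap K ↥E (algebraMap O K c) ∈ V)
    (hx : ModularCurve.coeffMap (algebraMap O K) x ∈ E) (d : O[X]) (t : ↥E)
    (ht : (t : LaurentSeries K) = ModularCurve.coeffMap (algebraMap O K) (aeval x d)) :
    t ∈ V := by
  induction d using Polynomial.induction_on' generalizing t with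
  | add p q hp hq =>
    have h1 := hp ⟨_, gq_iota_aeval_mem E x hx p⟩ rfl
    have h2 := hq ⟨_, gq_iota_aeval_mem E x hx q⟩ rfl
    have : t = ⟨_, gq_iota_aeval_mem E x hx p⟩ + ⟨_, gq_iota_aeval_mem E x hx q⟩ := by
      apply Subtype.ext
      rw [ht, map_add, map_add]
      rfl
    rw [this]
    exact V.add_mem _ _ h1 h2
  | monomial n a =>
    have h1 := hVx ⟨_, hx⟩ rfl
    have : t = algebraMap K ↥E (algebraMap O K a) * ⟨_, hx⟩ ^ n := by
      apply Subtype.ext
      rw [ht, aeval_monomial, map_mul, map_pow, gq_coeffMap_algebraMap]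
      rfl
    rw [this]
    exact V.mul_mem _ _ (hVO a) (pow_mem h1 n)

/-- **Uniqueness of the Gauss extension in the S28 setting.** On `E = K(x, θ)` every valuation
subring containing `ι x`, `ι θ`, the constants of `O` and the inverses of the `d(x)` with
`d̄ ≠ 0`, in which `π` is not invertible, is the `q`-Gauss ring. -/
theorem gq_valSubOf_unique (π : O) (hπ0 : π ≠ 0) (hπ : maximalIdeal O = Ideal.span {π})
    (x θ : LaurentSeries O) (Φ : Polynomial O[X]) (hΦ : Φ.Monic)
    (hroot : Polynomial.eval₂ (aeval x : O[X] →ₐ[O] LaurentSeries O).toRingHom θ Φ = 0)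
    (hind : ∀ a : Fin Φ.natDegree → (ResidueField O)[X],
      (∑ i, aeval (ModularCurve.coeffMap (residue O) x) (a i) *
        (ModularCurve.coeffMap (residue O) θ) ^ (i : ℕ) = 0) → a = 0)
    (E : IntermediateField K (LaurentSeries K))
    (hEdef : E = IntermediateField.adjoin K
      {ModularCurve.coeffMap (algebraMap O K) x, ModularCurve.coeffMap (algebraMap O K) θ})
    (hE : E ≤ gq_quotField O K)
    (V : ValuationSubring ↥E)
    (hVx : ∀ t : ↥E, (t : LaurentSeries K) = ModularCurve.coeffMap (algebraMap O K) x → t ∈ V)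
    (hVθ : ∀ t : ↥E, (t : LaurentSeries K) = ModularCurve.coeffMap (algebraMap O K) θ → t ∈ V)
    (hVO : ∀ c : O, algebraMap K ↥E (algebraMap O K c) ∈ V)
    (hVG : ∀ (d : O[X]) (t : ↥E), d.map (residue O) ≠ 0 →
      (t : LaurentSeries K) = ModularCurve.coeffMap (algebraMap O K) (aeval x d) → t⁻¹ ∈ V)
    (hVπ : (algebraMap K ↥E (algebraMap O K π))⁻¹ ∉ V) :
    V = gq_valSubOf π hπ0 hπ E hE := by
  have hinjK : Function.Injective (algebraMap O K) := IsFractionRing.injective O K
  have hc0 := gq_const_ne_zero (K := K) π hπ0 hinjK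
  have hxE : ModularCurve.coeffMap (algebraMap O K) x ∈ E := by
    rw [hEdef]
    exact IntermediateField.subset_adjoin K _ (Set.mem_insert _ _)
  have hθE : ModularCurve.coeffMap (algebraMap O K) θ ∈ E := by
    rw [hEdef]
    exact IntermediateField.subset_adjoin K _ (Set.mem_insert_of_mem _ rfl)
  -- (i) the Gauss ring is contained in V
  have hWV : gq_valSubOf π hπ0 hπ E hE ≤ V := by
    intro z hz
    have hzbdd : gq_IsBdd O K (z : LaurentSeries K) := hz
    have hzmem : (z : LaurentSeries K) ∈ IntermediateField.adjoin K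
        {ModularCurve.coeffMap (algebraMap O K) x, ModularCurve.coeffMap (algebraMap O K) θ} := by
      rw [← hEdef]
      exact z.2
    obtain ⟨d, a, hd, h⟩ := (gq_isBdd_iff_of_indep π hπ0 hπ x θ Φ hΦ hroot hind _ hzmem).mp hzbdd
    set tD : ↥E := ⟨_, gq_iota_aeval_mem E x hxE d⟩ with htD
    have htD0 : tD ≠ 0 := by
      intro h0
      have h1 : ModularCurve.coeffMap (algebraMap O K) (aeval x d) = 0 := congrArg Subtype.val h0
      have hn : 0 < Φ.natDegree := by
        rcases Nat.eq_zero_or_pos Φ.natDegree with h0 | h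
        · exfalso
          have h1 : Φ = 1 := Polynomial.eq_one_of_monic_natDegree_zero hΦ h0
          rw [h1, Polynomial.eval₂_one] at hroot
          exact one_ne_zero hroot
        · exact h
      have h2 : aeval x d = 0 := gq_coeffMap_injective hinjK (by rw [h1, map_zero])
      apply hd
      apply gq_transc_of_indep x θ hn hind
      rw [← gq_red_aeval, h2, map_zero]
    have hzeq : z = tD⁻¹ * ∑ i, (⟨_, gq_iota_aeval_mem E x hxE (a i)⟩ : ↥E) *
        (⟨_, hθE⟩ : ↥E) ^ (i : ℕ) := by
      rw [eq_inv_mul_iff_mul_eq₀ htD0]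
      apply Subtype.ext
      rw [MulMemClass.coe_mul]
      change ModularCurve.coeffMap (algebraMap O K) (aeval x d) * (z : LaurentSeries K) = _
      rw [h, AddSubmonoidClass.coe_finsetSum]
      refine Finset.sum_congr rfl fun i _ => ?_
      rw [MulMemClass.coe_mul, SubmonoidClass.coe_pow]
    rw [hzeq]
    refine V.mul_mem _ _ (hVG d tD hd rfl) (Subring.sum_mem V.toSubring fun i _ => ?_)
    exact V.mul_mem _ _ (gq_iota_aeval_mem_valuationSubring E V x hVx hVO hxE (a i) _ rfl)
      (pow_mem (hVθ _ rfl) _)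
  -- (ii) V is contained in the Gauss ring
  apply le_antisymm _ hWV
  intro v hv
  by_contra hvW
  have hvinv : v⁻¹ ∈ gq_valSubOf π hπ0 hπ E hE :=
    ((gq_valSubOf π hπ0 hπ E hE).mem_or_inv_mem v).resolve_left hvW
  have hv0 : v ≠ 0 := by
    intro h0
    rw [h0] at hvW
    exact hvW (gq_valSubOf π hπ0 hπ E hE).zero_mem
  have hmax : (⟨v⁻¹, hvinv⟩ : ↥(gq_valSubOf π hπ0 hπ E hE)) ∈
      maximalIdeal ↥(gq_valSubOf π hπ0 hπ E hE) := by
    rw [← ValuationSubring.coe_mem_nonunits_iff, ValuationSubring.mem_nonunits_iff_or]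
    right
    change (v⁻¹)⁻¹ ∉ _
    rwa [inv_inv]
  obtain ⟨w, hw, hvw⟩ := (gq_mem_maximalIdeal_iff π hπ0 hπ E hE _).mp hmax
  apply hVπ
  have hcE : algebraMap K ↥E (algebraMap O K π) ≠ 0 := by
    intro h0
    apply hc0
    have := congrArg Subtype.val h0
    exact this
  have h1 : (algebraMap K ↥E (algebraMap O K π))⁻¹ = v * w := by
    have h2 : v⁻¹ = algebraMap K ↥E (algebraMap O K π) * w := hvw
    have hw0 : w ≠ 0 := by
      intro h0
      rw [h0, mul_zero] at h2
      exact (inv_ne_zero hv0) h2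
    have h3 : algebraMap K ↥E (algebraMap O K π) = v⁻¹ * w⁻¹ := by
      rw [h2, mul_assoc, mul_inv_cancel₀ hw0, mul_one]
    rw [h3, mul_inv, inv_inv, inv_inv]
  rw [h1]
  exact V.mul_mem _ _ hv (hWV hw)

end Unique

end Fermat.Agent.JT3
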