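import Mathlib
import Fermat.Agent.JT3.Bridge.GaussVal
import Fermat.Agent.JT3.FCore.Gauss
import Fermat.Agent.JT3.FCore.Charts

/-!
# JT3 bridge: the centre of the `q`-Gauss valuation ring on a chart

`V = gq_valSubOf π hπ0 hπ E hE` is the `q`-Gauss valuation ring of a field `E ⊆ K((q))` of bounded
quotients (`GaussVal.lean`).

* (T1) `gq_frac_of_center`, `gq_frac_of_center_gauss`: if the centre of `V` on a subring `B ∋ π` is
  `π B`, then `V ∩ Frac B = B_(π)`; `gq_h4a_of_center`: the congruence `f ≡ 1 mod π B_(π)` for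
  `f = ι y1 / ι y2`, `red y1 = red y2 ≠ 0`.
* (T2) `gq_center_of_integral`: going up for the centre along an integral extension `R ≤ B` with
  `π B` prime.
* (T3) `gq_center_eval₂`, `gq_center_adjoin_singleton`, `gq_center_adjoin_pair`: the centre of `V`
  on `O[u]` and on `O[u, u⁻¹]` is generated by `π`, for `u` with residually transcendental reduction.
* `gq_h4a_fc`: the hypothesis (h4a) of `fc_final` for the chart `fc_chart O {u, u⁻¹}`.
-/

set_option autoImplicit false
set_option linter.style.haveILetI false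

open IsLocalRing Polynomial

namespace Fermat.Agent.JT3

section Generic

variable {E : Type*} [Field E]

/-- The largest power of `ϖ` dividing `b` inside a subring `B`, given an a-priori bound. -/
theorem gq_exists_max_pow (ϖ : E) (B : Subring E) (b : E) (hb : b ∈ B) (e : ℕ)
    (hbound : ∀ k : ℕ, ∀ w ∈ B, b = ϖ ^ k * w → k ≤ e) :
    ∃ (m : ℕ) (b' : E), b' ∈ B ∧ b = ϖ ^ m * b' ∧ ¬ ∃ b'' ∈ B, b' = ϖ * b'' := by
  classical
  let P : ℕ → Prop := fun k => ∃ w ∈ B, b = ϖ ^ k * w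
  have h0 : P 0 := ⟨b, hb, by rw [pow_zero, one_mul]⟩
  have hm : P (Nat.findGreatest P e) := Nat.findGreatest_spec (Nat.zero_le e) h0
  obtain ⟨w, hw, hbw⟩ := hm
  refine ⟨Nat.findGreatest P e, w, hw, hbw, ?_⟩
  rintro ⟨b'', hb'', hwb⟩
  have hbw' : b = ϖ ^ (Nat.findGreatest P e + 1) * b'' := by
    rw [hbw, hwb, pow_succ, mul_assoc]
  have h2 : Nat.findGreatest P e + 1 ≤ e := hbound _ b'' hb'' hbw'
  have h3 : Nat.findGreatest P e + 1 ≤ Nat.findGreatest P e :=
    Nat.le_findGreatest (P := P) h2 ⟨b'', hb'', hbw'⟩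
  omega

/-- **(T1) `V ∩ Frac B = B_(ϖ)`.** If the centre of the valuation ring `V` on the subring `B` is
`ϖ B`, `ϖ` is not a unit of `V`, and elements of `B` have finite `ϖ`-multiplicity, then every
element of `V` that is a quotient of elements of `B` has a denominator outside `ϖ B`. -/
theorem gq_frac_of_center (V : ValuationSubring E) (ϖ : E) (hϖinv : ϖ⁻¹ ∉ V)
    (B : Subring E) (hϖB : ϖ ∈ B) (hBV : ∀ b ∈ B, b ∈ V)
    (hcen : ∀ b ∈ B, b ∈ V.nonunits → ∃ b' ∈ B, b = ϖ * b')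
    (hfin : ∀ b ∈ B, b ≠ 0 →
      ∃ (m : ℕ) (b' : E), b' ∈ B ∧ b = ϖ ^ m * b' ∧ ¬ ∃ b'' ∈ B, b' = ϖ * b'')
    (z : E) (hz : z ∈ V) (hfrac : ∃ a ∈ B, ∃ b ∈ B, b ≠ 0 ∧ z * b = a) :
    ∃ a ∈ B, ∃ b ∈ B, (¬ ∃ b'' ∈ B, b = ϖ * b'') ∧ z * b = a := by
  have hϖ0 : ϖ ≠ 0 := by
    rintro rfl
    rw [inv_zero] at hϖinv
    exact hϖinv V.zero_mem
  have hone : ¬ ∃ b'' ∈ B, (1 : E) = ϖ * b'' := by
    rintro ⟨b'', hb'', h⟩
    apply hϖinv
    have : ϖ⁻¹ = b'' := by
      rw [inv_eq_iff_eq_inv]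
      exact eq_inv_of_mul_eq_one_left h.symm
    rw [this]
    exact hBV _ hb''
  obtain ⟨a, ha, b, hb, hb0, hab⟩ := hfrac
  by_cases ha0 : a = 0
  · refine ⟨0, B.zero_mem, 1, B.one_mem, hone, ?_⟩
    rw [ha0] at hab
    rcases mul_eq_zero.mp hab with h | h
    · rw [h, zero_mul]
    · exact (hb0 h).elim
  obtain ⟨n, a', ha', haa', hna⟩ := hfin a ha ha0
  obtain ⟨m, b', hb', hbb', hnb⟩ := hfin b hb hb0
  have hunit : ∀ c ∈ B, (¬ ∃ c'' ∈ B, c = ϖ * c'') → c ≠ 0 ∧ c⁻¹ ∈ V := by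
    intro c hc hnc
    have h1 : c ∉ V.nonunits := fun h => hnc (hcen c hc h)
    rw [ValuationSubring.mem_nonunits_iff_or, not_or, not_not] at h1
    exact h1
  obtain ⟨ha'0, ha'inv⟩ := hunit a' ha' hna
  obtain ⟨hb'0, hb'inv⟩ := hunit b' hb' hnb
  have hrel : z * (ϖ ^ m * b') = ϖ ^ n * a' := by rw [← hbb', ← haa', hab]
  rcases le_or_gt m n with hmn | hmn
  · refine ⟨ϖ ^ (n - m) * a', B.mul_mem (B.pow_mem hϖB _) ha', b', hb', hnb, ?_⟩
    have h1 : ϖ ^ m * (z * b') = ϖ ^ m * (ϖ ^ (n - m) * a') := by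
      calc ϖ ^ m * (z * b') = z * (ϖ ^ m * b') := by ring
        _ = ϖ ^ n * a' := hrel
        _ = ϖ ^ (m + (n - m)) * a' := by rw [Nat.add_sub_cancel' hmn]
        _ = ϖ ^ m * (ϖ ^ (n - m) * a') := by rw [pow_add, mul_assoc]
    exact mul_left_cancel₀ (pow_ne_zero m hϖ0) h1
  · exfalso
    -- `ϖ ^ (m - n) * (z * b' * a'⁻¹) = 1`
    have h1 : ϖ ^ n * (ϖ ^ (m - n) * (z * b')) = ϖ ^ n * a' := by
      calc ϖ ^ n * (ϖ ^ (m - n) * (z * b')) = z * (ϖ ^ (n + (m - n)) * b') := by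
            rw [pow_add]
            ring
        _ = z * (ϖ ^ m * b') := by rw [Nat.add_sub_cancel' hmn.le]
        _ = ϖ ^ n * a' := hrel
    have h2 : ϖ ^ (m - n) * (z * b') = a' := mul_left_cancel₀ (pow_ne_zero n hϖ0) h1
    obtain ⟨k, hk⟩ : ∃ k, m - n = k + 1 := ⟨m - n - 1, by omega⟩
    rw [hk] at h2
    have h3 : ϖ * (ϖ ^ k * (z * b' * a'⁻¹)) = 1 := by
      have : ϖ * (ϖ ^ k * (z * b' * a'⁻¹)) = (ϖ ^ (k + 1) * (z * b')) * a'⁻¹ := by
        rw [pow_succ]
        ring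
      rw [this, h2, mul_inv_cancel₀ ha'0]
    apply hϖinv
    have h4 : ϖ⁻¹ = ϖ ^ k * (z * b' * a'⁻¹) := by
      rw [inv_eq_iff_eq_inv]
      exact eq_inv_of_mul_eq_one_left h3
    rw [h4]
    exact V.mul_mem _ _ (V.pow_mem (hBV _ hϖB) _)
      (V.mul_mem _ _ (V.mul_mem _ _ hz (hBV _ hb')) ha'inv)

theorem gq_nonunits_add (V : ValuationSubring E) {a b : E} (ha : a ∈ V.nonunits)
    (hb : b ∈ V.nonunits) : a + b ∈ V.nonunits := by
  rw [ValuationSubring.mem_nonunits_iff] at ha hb ⊢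
  exact Valuation.map_add_lt _ ha hb

theorem gq_nonunits_neg (V : ValuationSubring E) {a : E} (ha : a ∈ V.nonunits) :
    -a ∈ V.nonunits := by
  rw [ValuationSubring.mem_nonunits_iff] at ha ⊢
  rwa [Valuation.map_neg]

theorem gq_nonunits_mul (V : ValuationSubring E) {a b : E} (ha : a ∈ V.nonunits)
    (hb : b ∈ V) : a * b ∈ V.nonunits := by
  rw [ValuationSubring.mem_nonunits_iff] at ha ⊢
  rw [map_mul]
  have hb' : V.valuation b ≤ 1 := (V.valuation_le_one_iff b).mpr hb
  calc V.valuation a * V.valuation b ≤ V.valuation a * 1 := mul_le_mul_right hb' _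
    _ = V.valuation a := mul_one _
    _ < 1 := ha

theorem gq_one_not_mem_nonunits (V : ValuationSubring E) : (1 : E) ∉ V.nonunits := by
  rw [ValuationSubring.mem_nonunits_iff, map_one]
  exact lt_irrefl 1

/-- Polynomial expressions in `b ∈ B` with coefficients in `R ≤ B` lie in `B`. -/
theorem gq_eval₂_mem (R B : Subring E) (hRB : R ≤ B) (b : E) (hb : b ∈ B)
    (p : Polynomial ↥R) : Polynomial.eval₂ R.subtype b p ∈ B := by
  induction p using Polynomial.induction_on' with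
  | add p q hp hq => rw [Polynomial.eval₂_add]; exact B.add_mem hp hq
  | monomial n a =>
    rw [Polynomial.eval₂_monomial]
    exact B.mul_mem (hRB a.2) (B.pow_mem hb n)

/-- **(T2) Going up for the centre.** `R ≤ B` subrings of a field, `B` integral over `R`,
`ϖ ∈ R` with `ϖ B` prime; `V` a valuation ring containing `B` in which `ϖ` is a non-unit and
whose centre on `R` is `ϖ R`. Then the centre of `V` on `B` is `ϖ B`. -/
theorem gq_center_of_integral (V : ValuationSubring E) (ϖ : E) (R B : Subring E) (hRB : R ≤ B)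
    (hint : ∀ b ∈ B, ∃ p : Polynomial ↥R, p.Monic ∧ Polynomial.eval₂ R.subtype b p = 0)
    (hprime : ∀ x ∈ B, ∀ y ∈ B, (∃ w ∈ B, x * y = ϖ * w) →
      (∃ w ∈ B, x = ϖ * w) ∨ (∃ w ∈ B, y = ϖ * w))
    (hϖV : ϖ ∈ V.nonunits) (hBV : ∀ b ∈ B, b ∈ V)
    (hcR : ∀ r ∈ R, r ∈ V.nonunits → ∃ r' ∈ R, r = ϖ * r') :
    ∀ b ∈ B, b ∈ V.nonunits → ∃ b' ∈ B, b = ϖ * b' := by
  intro b hb hbV
  have key : ∀ n : ℕ, ∀ p : Polynomial ↥R, p.Monic → p.natDegree = n →
      (∃ w ∈ B, Polynomial.eval₂ R.subtype b p = ϖ * w) → ∃ b' ∈ B, b = ϖ * b' := by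
    intro n
    induction n with
    | zero =>
      rintro p hp hdeg ⟨w, hw, h⟩
      exfalso
      have hp1 : p = 1 := Polynomial.eq_one_of_monic_natDegree_zero hp hdeg
      rw [hp1, Polynomial.eval₂_one] at h
      apply gq_one_not_mem_nonunits V
      rw [h]
      exact gq_nonunits_mul V hϖV (hBV _ hw)
    | succ n ih =>
      rintro p hp hdeg ⟨w, hw, h⟩
      have hpq : p.divX * X + C (p.coeff 0) = p := Polynomial.divX_mul_X_add p
      have hqdeg : p.divX.natDegree = n := by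
        rw [Polynomial.natDegree_divX_eq_natDegree_tsub_one, hdeg]
        rfl
      have hq : p.divX.Monic := by
        rw [Polynomial.Monic, Polynomial.leadingCoeff, hqdeg, Polynomial.coeff_divX, ← hdeg]
        exact hp
      have heval : Polynomial.eval₂ R.subtype b p =
          Polynomial.eval₂ R.subtype b p.divX * b + ((p.coeff 0 : ↥R) : E) := by
        conv_lhs => rw [← hpq]
        rw [Polynomial.eval₂_add, Polynomial.eval₂_mul, Polynomial.eval₂_X, Polynomial.eval₂_C]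
        rfl
      have hqB : Polynomial.eval₂ R.subtype b p.divX ∈ B := gq_eval₂_mem R B hRB b hb _
      have hr0 : ((p.coeff 0 : ↥R) : E) ∈ V.nonunits := by
        have : ((p.coeff 0 : ↥R) : E) = ϖ * w + -(b * Polynomial.eval₂ R.subtype b p.divX) := by
          rw [← h, heval]
          ring
        rw [this]
        exact gq_nonunits_add V (gq_nonunits_mul V hϖV (hBV _ hw))
          (gq_nonunits_neg V (gq_nonunits_mul V hbV (hBV _ hqB)))
      obtain ⟨r', hr', hr0'⟩ := hcR _ (p.coeff 0).2 hr0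
      have hprod : Polynomial.eval₂ R.subtype b p.divX * b = ϖ * (w - r') := by
        rw [mul_sub, ← h, ← hr0', heval]
        ring
      rcases hprime _ hqB _ hb ⟨w - r', B.sub_mem hw (hRB hr'), hprod⟩ with h1 | h1
      · exact ih p.divX hq hqdeg h1
      · exact h1
  obtain ⟨p, hp, hpb⟩ := hint b hb
  exact key p.natDegree p hp rfl ⟨0, B.zero_mem, by rw [hpb, mul_zero]⟩

end Generic

section QGauss

variable {O : Type*} [CommRing O] [IsDomain O] [IsLocalRing O] [WfDvdMonoid O]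
variable {K : Type*} [Field K] [Algebra O K] [IsFractionRing O K]

/-- Finite `π`-multiplicity in the ring of bounded quotients. -/
theorem gq_pow_bound (π : O) (hπ0 : π ≠ 0) (hπ : maximalIdeal O = Ideal.span {π})
    (z : LaurentSeries K) (hz : gq_IsBdd O K z) (hz0 : z ≠ 0) :
    ∃ e : ℕ, ∀ k : ℕ, ∀ w : LaurentSeries K, gq_IsBdd O K w →
      z = (algebraMap K (LaurentSeries K) (algebraMap O K π)) ^ k * w → k ≤ e := by
  have hinjK : Function.Injective (algebraMap O K) := IsFractionRing.injective O K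
  have hc0 := gq_const_ne_zero (K := K) π hπ0 hinjK
  set c : LaurentSeries K := algebraMap K (LaurentSeries K) (algebraMap O K π) with hc
  have hcbdd : gq_IsBdd O K c := by
    rw [hc, ← gq_coeffMap_algebraMap]
    exact gq_isBdd_iota _
  obtain ⟨z1, z2, hz2, hzz⟩ := hz
  have hz1 : z1 ≠ 0 := by
    rintro rfl
    rw [map_zero] at hzz
    rcases mul_eq_zero.mp hzz with h | h
    · exact hz0 h
    · have hinj := gq_coeffMap_injective (K := K) hinjK
      have : z2 = 0 := hinj (by rw [h, map_zero])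
      rw [this, map_zero] at hz2
      exact hz2 rfl
  obtain ⟨e, z1', hz1', hr1⟩ := gq_exists_pow_mul π hπ z1 hz1
  refine ⟨e, fun k w hw hzw => ?_⟩
  by_contra hlt
  have hlt : e < k := by omega
  obtain ⟨j, hj⟩ : ∃ j, k = e + (j + 1) := ⟨k - e - 1, by omega⟩
  have hU : gq_IsBdd O K (c ^ (j + 1) * w) :=
    (gq_bddSubring O K).mul_mem ((gq_bddSubring O K).pow_mem hcbdd _) hw
  have hUeq : (c ^ (j + 1) * w) * ModularCurve.coeffMap (algebraMap O K) z2 =
      ModularCurve.coeffMap (algebraMap O K) z1' := by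
    have h1 : c ^ e * ((c ^ (j + 1) * w) * ModularCurve.coeffMap (algebraMap O K) z2) =
        c ^ e * ModularCurve.coeffMap (algebraMap O K) z1' := by
      calc c ^ e * ((c ^ (j + 1) * w) * ModularCurve.coeffMap (algebraMap O K) z2)
          = (c ^ (e + (j + 1)) * w) * ModularCurve.coeffMap (algebraMap O K) z2 := by
            rw [pow_add]
            ring
        _ = z * ModularCurve.coeffMap (algebraMap O K) z2 := by rw [← hj, ← hzw]
        _ = ModularCurve.coeffMap (algebraMap O K) z1 := hzz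
        _ = c ^ e * ModularCurve.coeffMap (algebraMap O K) z1' := by
            rw [hz1', map_mul, gq_coeffMap_algebraMap, map_pow, map_pow]
    exact mul_left_cancel₀ (pow_ne_zero e hc0) h1
  have hres : gq_res O K ⟨_, hU⟩ =
      ModularCurve.coeffMap (residue O) z1' / ModularCurve.coeffMap (residue O) z2 :=
    gq_res_eq ⟨_, hU⟩ hz2 hUeq
  have hres0 : gq_res O K ⟨_, hU⟩ = 0 := by
    rw [gq_res_eq_zero_iff π hπ0 hπ]
    refine ⟨⟨c ^ j * w, (gq_bddSubring O K).mul_mem ((gq_bddSubring O K).pow_mem hcbdd _) hw⟩, ?_⟩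
    change c ^ (j + 1) * w = c * (c ^ j * w)
    rw [pow_succ']
    ring
  rw [hres0] at hres
  exact div_ne_zero hr1 hz2 hres.symm

variable (π : O) (hπ0 : π ≠ 0) (hπ : maximalIdeal O = Ideal.span {π})
  (E : IntermediateField K (LaurentSeries K)) (hE : E ≤ gq_quotField O K)

/-- Finite `π`-multiplicity in the `q`-Gauss ring of `E`. -/
theorem gq_pow_bound_valSubOf (z : ↥E) (hz : z ∈ gq_valSubOf π hπ0 hπ E hE) (hz0 : z ≠ 0) :
    ∃ e : ℕ, ∀ k : ℕ, ∀ w : ↥E, w ∈ gq_valSubOf π hπ0 hπ E hE →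
      z = (algebraMap K ↥E (algebraMap O K π)) ^ k * w → k ≤ e := by
  have hz0' : (z : LaurentSeries K) ≠ 0 := fun h => hz0 (Subtype.ext h)
  obtain ⟨e, he⟩ := gq_pow_bound π hπ0 hπ (z : LaurentSeries K) hz hz0'
  refine ⟨e, fun k w hw hzw => he k (w : LaurentSeries K) hw ?_⟩
  rw [hzw]
  rfl

/-- **(T1) for the `q`-Gauss ring**: `O_q ∩ Frac B = B_(π)` whenever the centre of `O_q` on the
subring `B ∋ π` is `π B`. The finiteness of multiplicities is automatic. -/
theorem gq_frac_of_center_gauss (B : Subring ↥E)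
    (hϖB : algebraMap K ↥E (algebraMap O K π) ∈ B)
    (hBV : ∀ b ∈ B, b ∈ gq_valSubOf π hπ0 hπ E hE)
    (hcen : ∀ b ∈ B, b ∈ (gq_valSubOf π hπ0 hπ E hE).nonunits →
      ∃ b' ∈ B, b = algebraMap K ↥E (algebraMap O K π) * b')
    (z : ↥E) (hz : z ∈ gq_valSubOf π hπ0 hπ E hE)
    (hfrac : ∃ a ∈ B, ∃ b ∈ B, b ≠ 0 ∧ z * b = a) :
    ∃ a ∈ B, ∃ b ∈ B,
      (¬ ∃ b'' ∈ B, b = algebraMap K ↥E (algebraMap O K π) * b'') ∧ z * b = a := by
  refine gq_frac_of_center (gq_valSubOf π hπ0 hπ E hE) _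
    (gq_const_inv_not_mem π hπ0 hπ E hE) B hϖB hBV hcen ?_ z hz hfrac
  intro b hb hb0
  obtain ⟨e, he⟩ := gq_pow_bound_valSubOf π hπ0 hπ E hE b (hBV b hb) hb0
  exact gq_exists_max_pow _ B b hb e fun k w hw hbw => he k w (hBV w hw) hbw

/-- **(h4a)**: `f = ι y1 / ι y2 ∈ E` with `red y1 = red y2 ≠ 0`. If the centre of `O_q` on
`B ∋ π` is `π B` and `E = Frac B`, then `f - 1 = π y` with `y b = a`, `a, b ∈ B`, `b ∉ π B`. -/
theorem gq_h4a_of_center (B : Subring ↥E)
    (hϖB : algebraMap K ↥E (algebraMap O K π) ∈ B)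
    (hBV : ∀ b ∈ B, b ∈ gq_valSubOf π hπ0 hπ E hE)
    (hcen : ∀ b ∈ B, b ∈ (gq_valSubOf π hπ0 hπ E hE).nonunits →
      ∃ b' ∈ B, b = algebraMap K ↥E (algebraMap O K π) * b')
    (hfrac : ∀ z : ↥E, ∃ a ∈ B, ∃ b ∈ B, b ≠ 0 ∧ z * b = a)
    (y1 y2 : LaurentSeries O)
    (hred : ModularCurve.coeffMap (residue O) y1 = ModularCurve.coeffMap (residue O) y2)
    (hy2 : ModularCurve.coeffMap (residue O) y2 ≠ 0) (f : ↥E)
    (hf : (f : LaurentSeries K) * ModularCurve.coeffMap (algebraMap O K) y2 =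
      ModularCurve.coeffMap (algebraMap O K) y1) :
    ∃ y : ↥E, f - 1 = algebraMap K ↥E (algebraMap O K π) * y ∧
      y ∈ gq_valSubOf π hπ0 hπ E hE ∧
      ∃ a ∈ B, ∃ b ∈ B,
        (¬ ∃ b'' ∈ B, b = algebraMap K ↥E (algebraMap O K π) * b'') ∧ y * b = a := by
  have hinjK : Function.Injective (algebraMap O K) := IsFractionRing.injective O K
  have hc0 := gq_const_ne_zero (K := K) π hπ0 hinjK
  have hcE0 : algebraMap K ↥E (algebraMap O K π) ≠ 0 := by
    intro h
    apply hc0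
    have := congrArg (fun t : ↥E => (t : LaurentSeries K)) h
    exact this
  obtain ⟨y', hy'⟩ := gq_exists_smul_of_red_eq_zero π hπ (y1 - y2)
    (by rw [map_sub, hred, sub_self])
  set y : ↥E := (algebraMap K ↥E (algebraMap O K π))⁻¹ * (f - 1) with hy
  have hyV : y ∈ gq_valSubOf π hπ0 hπ E hE := by
    refine ⟨y', y2, hy2, ?_⟩
    have h1 : algebraMap K (LaurentSeries K) (algebraMap O K π) *
        ((y : LaurentSeries K) * ModularCurve.coeffMap (algebraMap O K) y2) =
        algebraMap K (LaurentSeries K) (algebraMap O K π) *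
          ModularCurve.coeffMap (algebraMap O K) y' := by
      have h2 : (y : LaurentSeries K) =
          (algebraMap K (LaurentSeries K) (algebraMap O K π))⁻¹ * ((f : LaurentSeries K) - 1) := by
        rw [hy]
        push_cast
        rfl
      rw [h2, ← gq_coeffMap_algebraMap, ← map_mul, ← hy', map_sub, ← hf,
        gq_coeffMap_algebraMap]
      field_simp
    exact mul_left_cancel₀ hc0 h1
  refine ⟨y, ?_, hyV, gq_frac_of_center_gauss π hπ0 hπ E hE B hϖB hBV hcen y hyV (hfrac y)⟩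
  rw [hy, ← mul_assoc, mul_inv_cancel₀ hcE0, one_mul]

end QGauss

section Centre

variable {O : Type*} [CommRing O] [IsDomain O] [IsLocalRing O]
variable {K : Type*} [Field K] [Algebra O K] [IsFractionRing O K]

/-- The constants of `O` as bounded quotients. -/
noncomputable def gq_constHom (O : Type*) [CommRing O] [IsDomain O] [IsLocalRing O] (K : Type*)
    [Field K] [Algebra O K] : O →+* ↥(gq_bddSubring O K) :=
  ((algebraMap K (LaurentSeries K)).comp (algebraMap O K)).codRestrict (gq_bddSubring O K)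
    (fun c => by
      change gq_IsBdd O K (algebraMap K (LaurentSeries K) (algebraMap O K c))
      rw [← gq_coeffMap_algebraMap]
      exact gq_isBdd_iota _)

omit [IsFractionRing O K] in
theorem gq_coe_constHom (c : O) :
    ((gq_constHom O K c : ↥(gq_bddSubring O K)) : LaurentSeries K) =
      algebraMap K (LaurentSeries K) (algebraMap O K c) := rfl

theorem gq_res_constHom (c : O) :
    gq_res O K (gq_constHom O K c) =
      algebraMap (ResidueField O) (LaurentSeries (ResidueField O)) (residue O c) := by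
  have h1 : gq_constHom O K c =
      ⟨ModularCurve.coeffMap (algebraMap O K) (algebraMap O (LaurentSeries O) c),
        gq_isBdd_iota _⟩ := by
    apply Subtype.ext
    change algebraMap K (LaurentSeries K) (algebraMap O K c) =
      ModularCurve.coeffMap (algebraMap O K) (algebraMap O (LaurentSeries O) c)
    rw [gq_coeffMap_algebraMap]
  rw [h1, gq_res_iota, gq_algebraMap_eq_single, gq_algebraMap_eq_single,
    ModularCurve.coeffMap_single]

/-- The residue of a polynomial expression with coefficients in `O`. -/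
theorem gq_res_eval₂ (u : ↥(gq_bddSubring O K)) (d : O[X]) :
    gq_res O K (Polynomial.eval₂ (gq_constHom O K) u d) =
      aeval (gq_res O K u) (d.map (residue O)) := by
  rw [Polynomial.hom_eval₂, aeval_def, Polynomial.eval₂_map]
  congr 1
  refine RingHom.ext fun c => ?_
  exact gq_res_constHom (K := K) c

end Centre

section CentreE

variable {O : Type*} [CommRing O] [IsDomain O] [IsLocalRing O] [WfDvdMonoid O]
variable {K : Type*} [Field K] [Algebra O K] [IsFractionRing O K]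
variable (π : O) (hπ0 : π ≠ 0) (hπ : maximalIdeal O = Ideal.span {π})
  (E : IntermediateField K (LaurentSeries K)) (hE : E ≤ gq_quotField O K)

/-- The non-units of the `q`-Gauss ring are the kernel of the residue map. -/
theorem gq_mem_nonunits_iff_res (t : ↥E) (hb : gq_IsBdd O K (t : LaurentSeries K)) :
    t ∈ (gq_valSubOf π hπ0 hπ E hE).nonunits ↔ gq_res O K ⟨(t : LaurentSeries K), hb⟩ = 0 := by
  have ht : t ∈ gq_valSubOf π hπ0 hπ E hE := hb
  have h1 : t ∈ (gq_valSubOf π hπ0 hπ E hE).nonunits ↔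
      (⟨t, ht⟩ : ↥(gq_valSubOf π hπ0 hπ E hE)) ∈
        maximalIdeal ↥(gq_valSubOf π hπ0 hπ E hE) :=
    (ValuationSubring.coe_mem_nonunits_iff (A := gq_valSubOf π hπ0 hπ E hE) (a := ⟨t, ht⟩))
  rw [h1, gq_mem_maximalIdeal_iff, gq_res_eq_zero_iff π hπ0 hπ]
  constructor
  · rintro ⟨w, hw, htw⟩
    refine ⟨⟨(w : LaurentSeries K), hw⟩, ?_⟩
    change (t : LaurentSeries K) = _
    have : t = algebraMap K ↥E (algebraMap O K π) * w := htw
    rw [this]
    rfl
  · rintro ⟨w, hw⟩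
    have hinjK : Function.Injective (algebraMap O K) := IsFractionRing.injective O K
    have hc0 := gq_const_ne_zero (K := K) π hπ0 hinjK
    have hwE : (w : LaurentSeries K) ∈ E := by
      have h2 : (w : LaurentSeries K) =
          (algebraMap K (LaurentSeries K) (algebraMap O K π))⁻¹ * (t : LaurentSeries K) := by
        change (t : LaurentSeries K) = _ at hw
        rw [hw, ← mul_assoc, inv_mul_cancel₀ hc0, one_mul]
      rw [h2]
      exact E.mul_mem (E.inv_mem (E.algebraMap_mem _)) t.2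
    refine ⟨⟨w, hwE⟩, w.2, ?_⟩
    apply Subtype.ext
    exact hw

/-- **(T3) core.** If `u ∈ E` is bounded with residually transcendental reduction, then a
polynomial expression `d(u)`, `d ∈ O[X]`, is a non-unit of the `q`-Gauss ring only if `π ∣ d`. -/
theorem gq_center_eval₂ (u : ↥E) (hu : gq_IsBdd O K (u : LaurentSeries K))
    (htr : ∀ p : (ResidueField O)[X],
      aeval (gq_res O K ⟨(u : LaurentSeries K), hu⟩) p = 0 → p = 0)
    (d : O[X])
    (h : Polynomial.eval₂ ((algebraMap K ↥E).comp (algebraMap O K)) u d ∈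
      (gq_valSubOf π hπ0 hπ E hE).nonunits) :
    ∃ d' : O[X], d = C π * d' := by
  have hcoe : ((Polynomial.eval₂ ((algebraMap K ↥E).comp (algebraMap O K)) u d : ↥E) :
      LaurentSeries K) =
      ((Polynomial.eval₂ (gq_constHom O K) ⟨(u : LaurentSeries K), hu⟩ d :
        ↥(gq_bddSubring O K)) : LaurentSeries K) := by
    have h1 := Polynomial.hom_eval₂ d ((algebraMap K ↥E).comp (algebraMap O K))
      (E.val : ↥E →+* LaurentSeries K) u
    have h2 := Polynomial.hom_eval₂ d (gq_constHom O K)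
      ((gq_bddSubring O K).subtype) ⟨(u : LaurentSeries K), hu⟩
    change ((gq_bddSubring O K).subtype) _ = _ at h2
    change (E.val : ↥E →+* LaurentSeries K) _ = _ at h1
    change (E.val : ↥E →+* LaurentSeries K) _ = ((gq_bddSubring O K).subtype) _
    rw [h1, h2]
    rfl
  have hb : gq_IsBdd O K
      ((Polynomial.eval₂ ((algebraMap K ↥E).comp (algebraMap O K)) u d : ↥E) :
        LaurentSeries K) := by
    rw [hcoe]
    exact (Polynomial.eval₂ (gq_constHom O K) ⟨(u : LaurentSeries K), hu⟩ d).2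
  rw [gq_mem_nonunits_iff_res π hπ0 hπ E hE _ hb] at h
  have h3 : (⟨_, hb⟩ : ↥(gq_bddSubring O K)) =
      Polynomial.eval₂ (gq_constHom O K) ⟨(u : LaurentSeries K), hu⟩ d := Subtype.ext hcoe
  rw [h3, gq_res_eval₂] at h
  obtain ⟨d', hd'⟩ := gq_C_dvd_of_map_eq_zero π hπ d (htr _ h)
  exact ⟨d', hd'⟩

end CentreE

section Adjoin

/-- Elements of `O[u, u⁻¹]` have the form `d(u) / u ^ m`. -/
theorem gq_adjoin_pair_form {O A : Type*} [CommRing O] [Field A] [Algebra O A] (u : A)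
    (hu0 : u ≠ 0) (r : A) (hr : r ∈ Algebra.adjoin O {u, u⁻¹}) :
    ∃ (m : ℕ) (d : O[X]), r * u ^ m = aeval u d := by
  induction hr using Algebra.adjoin_induction with
  | mem x hx =>
    rcases hx with rfl | hx
    · exact ⟨0, X, by rw [pow_zero, mul_one, aeval_X]⟩
    · rw [Set.mem_singleton_iff] at hx
      subst hx
      exact ⟨1, 1, by rw [pow_one, inv_mul_cancel₀ hu0, map_one]⟩
  | algebraMap c => exact ⟨0, C c, by rw [pow_zero, mul_one, aeval_C]⟩
  | add x y _ _ hx hy =>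
    obtain ⟨m1, d1, h1⟩ := hx
    obtain ⟨m2, d2, h2⟩ := hy
    refine ⟨m1 + m2, d1 * X ^ m2 + d2 * X ^ m1, ?_⟩
    rw [map_add, map_mul, map_mul, map_pow, map_pow, aeval_X, ← h1, ← h2, pow_add]
    ring
  | mul x y _ _ hx hy =>
    obtain ⟨m1, d1, h1⟩ := hx
    obtain ⟨m2, d2, h2⟩ := hy
    refine ⟨m1 + m2, d1 * d2, ?_⟩
    rw [map_mul, ← h1, ← h2, pow_add]
    ring

variable {O : Type*} [CommRing O] [IsDomain O] [IsLocalRing O] [WfDvdMonoid O]
variable {K : Type*} [Field K] [Algebra O K] [IsFractionRing O K]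
variable (π : O) (hπ0 : π ≠ 0) (hπ : maximalIdeal O = Ideal.span {π})
  (E : IntermediateField K (LaurentSeries K)) (hE : E ≤ gq_quotField O K)
  [Algebra O ↥E] [IsScalarTower O K ↥E]

omit [IsDomain O] [IsLocalRing O] [WfDvdMonoid O] [IsFractionRing O K] in
theorem gq_aeval_eq_eval₂ (u : ↥E) (d : O[X]) :
    aeval u d = Polynomial.eval₂ ((algebraMap K ↥E).comp (algebraMap O K)) u d := by
  rw [aeval_def, IsScalarTower.algebraMap_eq O K ↥E]

/-- **(T3) for `O[u]`.** The centre of the `q`-Gauss ring on `O[u]` is `π O[u]`, for `u ∈ E`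
bounded with residually transcendental reduction. -/
theorem gq_center_adjoin_singleton (u : ↥E) (hu : gq_IsBdd O K (u : LaurentSeries K))
    (htr : ∀ p : (ResidueField O)[X],
      aeval (gq_res O K ⟨(u : LaurentSeries K), hu⟩) p = 0 → p = 0) :
    ∀ r ∈ Algebra.adjoin O {u}, r ∈ (gq_valSubOf π hπ0 hπ E hE).nonunits →
      ∃ r' ∈ Algebra.adjoin O {u}, r = algebraMap K ↥E (algebraMap O K π) * r' := by
  intro r hr hrV
  rw [Algebra.adjoin_singleton_eq_range_aeval] at hr
  obtain ⟨d, rfl⟩ := hr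
  have hrV' : Polynomial.eval₂ ((algebraMap K ↥E).comp (algebraMap O K)) u d ∈
      (gq_valSubOf π hπ0 hπ E hE).nonunits := by
    rw [← gq_aeval_eq_eval₂]
    exact hrV
  obtain ⟨d', rfl⟩ := gq_center_eval₂ π hπ0 hπ E hE u hu htr d hrV'
  refine ⟨aeval u d', ?_, ?_⟩
  · rw [Algebra.adjoin_singleton_eq_range_aeval]
    exact ⟨d', rfl⟩
  · change aeval u (C π * d') = _
    rw [map_mul, aeval_C, IsScalarTower.algebraMap_apply O K ↥E]

/-- **(T3) for `O[u, u⁻¹]`.** -/
theorem gq_center_adjoin_pair (u : ↥E) (hu : gq_IsBdd O K (u : LaurentSeries K))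
    (htr : ∀ p : (ResidueField O)[X],
      aeval (gq_res O K ⟨(u : LaurentSeries K), hu⟩) p = 0 → p = 0) :
    ∀ r ∈ Algebra.adjoin O {u, u⁻¹}, r ∈ (gq_valSubOf π hπ0 hπ E hE).nonunits →
      ∃ r' ∈ Algebra.adjoin O {u, u⁻¹}, r = algebraMap K ↥E (algebraMap O K π) * r' := by
  intro r hr hrV
  have hu0 : u ≠ 0 := by
    rintro rfl
    have h1 : (⟨((0 : ↥E) : LaurentSeries K), hu⟩ : ↥(gq_bddSubring O K)) = 0 := rfl
    have h2 := htr X (by rw [aeval_X, h1, map_zero])
    exact Polynomial.X_ne_zero h2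
  obtain ⟨m, d, hmd⟩ := gq_adjoin_pair_form (O := O) u hu0 r hr
  have huV : u ∈ gq_valSubOf π hπ0 hπ E hE := hu
  have hrV' : Polynomial.eval₂ ((algebraMap K ↥E).comp (algebraMap O K)) u d ∈
      (gq_valSubOf π hπ0 hπ E hE).nonunits := by
    rw [← gq_aeval_eq_eval₂, ← hmd]
    exact gq_nonunits_mul _ hrV ((gq_valSubOf π hπ0 hπ E hE).pow_mem huV m)
  obtain ⟨d', rfl⟩ := gq_center_eval₂ π hπ0 hπ E hE u hu htr d hrV'
  have hsub : ({u} : Set ↥E) ⊆ {u, u⁻¹} := by
    intro x hx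
    rw [Set.mem_singleton_iff] at hx
    rw [hx]
    exact Set.mem_insert _ _
  refine ⟨aeval u d' * (u⁻¹) ^ m, ?_, ?_⟩
  · refine Subalgebra.mul_mem _ ?_ (Subalgebra.pow_mem _ (Algebra.subset_adjoin (by simp)) m)
    apply Algebra.adjoin_mono hsub
    rw [Algebra.adjoin_singleton_eq_range_aeval]
    exact ⟨d', rfl⟩
  · rw [map_mul, aeval_C, IsScalarTower.algebraMap_apply O K ↥E] at hmd
    rw [← mul_assoc, ← hmd, mul_assoc, inv_pow, mul_inv_cancel₀ (pow_ne_zero m hu0), mul_one]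

end Adjoin

section FC

theorem gq_integral_mem_valuationSubring {F : Type*} [Field F] (V : ValuationSubring F)
    {A : Type*} [CommRing A] [Algebra A F] (R : Subalgebra A F) (hRV : ∀ r ∈ R, r ∈ V) (z : F)
    (hz : IsIntegral ↥R z) : z ∈ V := by
  obtain ⟨p, hp, hpz⟩ := hz
  let g : ↥R →+* ↥V :=
    { toFun := fun r => ⟨(r : F), hRV _ r.2⟩
      map_one' := rfl
      map_mul' := fun _ _ => rfl
      map_zero' := rfl
      map_add' := fun _ _ => rfl }
  have hint : IsIntegral ↥V z := by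
    refine ⟨p.map g, hp.map g, ?_⟩
    rw [Polynomial.eval₂_map]
    exact hpz
  obtain ⟨y, hy⟩ := IsIntegrallyClosed.isIntegral_iff.mp hint
  rw [← hy]
  exact y.2


variable {O : Type*} [CommRing O] [IsDomain O] [IsLocalRing O] [WfDvdMonoid O]
variable {K : Type*} [Field K] [Algebra O K] [IsFractionRing O K]
variable (π : O) (hπ0 : π ≠ 0) (hπ : maximalIdeal O = Ideal.span {π})
  (E : IntermediateField K (LaurentSeries K)) (hE : E ≤ gq_quotField O K)
  [Algebra O ↥E] [IsScalarTower O K ↥E]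

omit [Algebra O ↥E] [IsScalarTower O K ↥E] in
/-- `π` is a non-unit of the `q`-Gauss ring. -/
theorem gq_const_mem_nonunits :
    algebraMap K ↥E (algebraMap O K π) ∈ (gq_valSubOf π hπ0 hπ E hE).nonunits := by
  rw [ValuationSubring.mem_nonunits_iff_or]
  exact Or.inr (gq_const_inv_not_mem π hπ0 hπ E hE)

/-- The constants of `O` lie in the `q`-Gauss ring. -/
theorem gq_algebraMap_mem_valSubOf (c : O) :
    algebraMap O ↥E c ∈ gq_valSubOf π hπ0 hπ E hE := by
  rw [IsScalarTower.algebraMap_apply O K ↥E]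
  change gq_IsBdd O K (algebraMap K (LaurentSeries K) (algebraMap O K c))
  rw [← gq_coeffMap_algebraMap]
  exact gq_isBdd_iota _

/-- **(h4a) for a subalgebra chart** `B` with `Frac B = E`, `π B` prime, `B ⊆ O_q` and centre
`π B`: `f - 1 ∈ π B_(π)` for `f = ι y1 / ι y2`, `red y1 = red y2 ≠ 0`. -/
theorem gq_sub_one_mem_piO (B : Subalgebra O ↥E) [IsFractionRing ↥B ↥E]
    (hprime : Prime (algebraMap O ↥B π))
    (hBV : ∀ b ∈ B, b ∈ gq_valSubOf π hπ0 hπ E hE)
    (hcen : ∀ b ∈ B, b ∈ (gq_valSubOf π hπ0 hπ E hE).nonunits →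
      ∃ b' ∈ B, b = algebraMap K ↥E (algebraMap O K π) * b')
    (y1 y2 : LaurentSeries O)
    (hred : ModularCurve.coeffMap (residue O) y1 = ModularCurve.coeffMap (residue O) y2)
    (hy2 : ModularCurve.coeffMap (residue O) y2 ≠ 0) (f : ↥E)
    (hf : (f : LaurentSeries K) * ModularCurve.coeffMap (algebraMap O K) y2 =
      ModularCurve.coeffMap (algebraMap O K) y1) :
    f - 1 ∈ fc_piO (F := ↥E) hprime := by
  have hϖ : algebraMap ↥B ↥E (algebraMap O ↥B π) = algebraMap K ↥E (algebraMap O K π) := by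
    rw [← IsScalarTower.algebraMap_apply O K ↥E]
    rfl
  have hϖB : algebraMap K ↥E (algebraMap O K π) ∈ B.toSubring := by
    rw [← hϖ]
    exact (algebraMap O ↥B π).2
  have hfrac : ∀ z : ↥E, ∃ a ∈ B.toSubring, ∃ b ∈ B.toSubring, b ≠ 0 ∧ z * b = a := by
    intro z
    obtain ⟨a, b, hb, hab⟩ := IsFractionRing.div_surjective (A := ↥B) z
    have hb0 : algebraMap ↥B ↥E b ≠ 0 := by
      intro h0
      have : b = 0 := (IsFractionRing.injective ↥B ↥E) (by rw [h0, map_zero])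
      exact nonZeroDivisors.ne_zero hb this
    refine ⟨algebraMap ↥B ↥E a, a.2, algebraMap ↥B ↥E b, b.2, hb0, ?_⟩
    rw [← hab, div_mul_cancel₀ _ hb0]
  obtain ⟨y, hfy, -, a, ha, b, hb, hnb, hab⟩ := gq_h4a_of_center π hπ0 hπ E hE B.toSubring hϖB
    hBV hcen hfrac y1 y2 hred hy2 f hf
  refine ⟨y, ⟨⟨a, ha⟩, ⟨b, hb⟩, ?_, hab⟩, ?_⟩
  · rintro ⟨c, hc⟩
    apply hnb
    refine ⟨(c : ↥E), c.2, ?_⟩
    have := congrArg (fun t : ↥B => (t : ↥E)) hc
    simp only at this
    rw [this, ← hϖ]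
    rfl
  · rw [hϖ]
    exact hfy

/-- The chart `B₁₂ = fc_chart O {u, u⁻¹}` lies in the `q`-Gauss ring, for `u` a unit of it. -/
theorem gq_fc_chart_pair_le (u : ↥E) (hu : gq_IsBdd O K (u : LaurentSeries K))
    (hu' : gq_IsBdd O K ((u⁻¹ : ↥E) : LaurentSeries K)) :
    ∀ b ∈ fc_chart O ({u, u⁻¹} : Set ↥E), b ∈ gq_valSubOf π hπ0 hπ E hE := by
  set V := gq_valSubOf π hπ0 hπ E hE with hV
  have hRV : ∀ r ∈ Algebra.adjoin O ({u, u⁻¹} : Set ↥E), r ∈ V := by
    intro r hr
    induction hr using Algebra.adjoin_induction with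
    | mem x hx =>
      rcases hx with rfl | hx
      · exact hu
      · rw [Set.mem_singleton_iff] at hx
        rw [hx]
        exact hu'
    | algebraMap c => exact gq_algebraMap_mem_valSubOf π hπ0 hπ E hE c
    | add x y _ _ hx hy => exact V.add_mem _ _ hx hy
    | mul x y _ _ hx hy => exact V.mul_mem _ _ hx hy
  exact fun b hb => gq_integral_mem_valuationSubring V _ hRV b hb

/-- **The centre of the `q`-Gauss ring on the chart `B₁₂ = fc_chart O {u, u⁻¹}` is `π B₁₂`**, for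
`u` a unit with residually transcendental reduction and `π B₁₂` prime. -/
theorem gq_center_fc_chart_pair (u : ↥E) (hu : gq_IsBdd O K (u : LaurentSeries K))
    (hu' : gq_IsBdd O K ((u⁻¹ : ↥E) : LaurentSeries K))
    (htr : ∀ p : (ResidueField O)[X],
      aeval (gq_res O K ⟨(u : LaurentSeries K), hu⟩) p = 0 → p = 0)
    (hπ12 : Prime (algebraMap O (fc_chart O ({u, u⁻¹} : Set ↥E)) π)) :
    ∀ b ∈ fc_chart O ({u, u⁻¹} : Set ↥E), b ∈ (gq_valSubOf π hπ0 hπ E hE).nonunits →
      ∃ b' ∈ fc_chart O ({u, u⁻¹} : Set ↥E), b = algebraMap K ↥E (algebraMap O K π) * b' := by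
  set V := gq_valSubOf π hπ0 hπ E hE with hV
  set R : Subalgebra O ↥E := Algebra.adjoin O ({u, u⁻¹} : Set ↥E) with hR
  set B : Subalgebra O ↥E := fc_chart O ({u, u⁻¹} : Set ↥E) with hB
  have hBV : ∀ b ∈ B, b ∈ V := gq_fc_chart_pair_le π hπ0 hπ E hE u hu hu'
  have hRB : R.toSubring ≤ B.toSubring := fun r hr => fc_adjoin_le_chart _ hr
  have hϖ : algebraMap ↥B ↥E (algebraMap O ↥B π) = algebraMap K ↥E (algebraMap O K π) := by
    rw [← IsScalarTower.algebraMap_apply O K ↥E]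
    rfl
  refine gq_center_of_integral V _ R.toSubring B.toSubring hRB ?_ ?_
    (gq_const_mem_nonunits π hπ0 hπ E hE) hBV
    (gq_center_adjoin_pair π hπ0 hπ E hE u hu htr)
  · intro b hb
    exact hb
  · intro x hx y hy ⟨w, hw, hxy⟩
    have hdvd : algebraMap O ↥B π ∣ (⟨x, hx⟩ : ↥B) * ⟨y, hy⟩ := by
      refine ⟨⟨w, hw⟩, ?_⟩
      apply Subtype.ext
      change x * y = algebraMap ↥B ↥E (algebraMap O ↥B π) * w
      rw [hϖ, hxy]
    rcases hπ12.dvd_or_dvd hdvd with ⟨c, hc⟩ | ⟨c, hc⟩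
    · left
      refine ⟨(c : ↥E), c.2, ?_⟩
      have := congrArg (fun t : ↥B => (t : ↥E)) hc
      simp only at this
      rw [← hϖ]
      exact this
    · right
      refine ⟨(c : ↥E), c.2, ?_⟩
      have := congrArg (fun t : ↥B => (t : ↥E)) hc
      simp only at this
      rw [← hϖ]
      exact this

include hπ0 hπ hE in
/-- **(h4a) of `fc_final` for the chart `B₁₂ = fc_chart O {u, u⁻¹}`**, `u` a unit of the
`q`-Gauss ring with residually transcendental reduction, `π B₁₂` prime. -/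
theorem gq_h4a_fc (u : ↥E) [Algebra.IsAlgebraic (Algebra.adjoin O ({u, u⁻¹} : Set ↥E)) ↥E]
    (hu : gq_IsBdd O K (u : LaurentSeries K))
    (hu' : gq_IsBdd O K ((u⁻¹ : ↥E) : LaurentSeries K))
    (htr : ∀ p : (ResidueField O)[X],
      aeval (gq_res O K ⟨(u : LaurentSeries K), hu⟩) p = 0 → p = 0)
    (hπ12 : Prime (algebraMap O (fc_chart O ({u, u⁻¹} : Set ↥E)) π))
    (y1 y2 : LaurentSeries O)
    (hred : ModularCurve.coeffMap (residue O) y1 = ModularCurve.coeffMap (residue O) y2)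
    (hy2 : ModularCurve.coeffMap (residue O) y2 ≠ 0) (f : ↥E)
    (hf : (f : LaurentSeries K) * ModularCurve.coeffMap (algebraMap O K) y2 =
      ModularCurve.coeffMap (algebraMap O K) y1) :
    f - 1 ∈ fc_piO (F := ↥E) hπ12 :=
  gq_sub_one_mem_piO π hπ0 hπ E hE _ hπ12 (gq_fc_chart_pair_le π hπ0 hπ E hE u hu hu')
    (gq_center_fc_chart_pair π hπ0 hπ E hE u hu hu' htr hπ12) y1 y2 hred hy2 f hf

omit [WfDvdMonoid O] in
/-- The residue of a bounded quotient that is the image of a series over `O`. -/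
theorem gq_res_of_eq_iota (z : ↥(gq_bddSubring O K)) (x : LaurentSeries O)
    (h : (z : LaurentSeries K) = ModularCurve.coeffMap (algebraMap O K) x) :
    gq_res O K z = ModularCurve.coeffMap (residue O) x := by
  rw [gq_res_eq z (z1 := x) (z2 := 1) (by rw [map_one]; exact one_ne_zero)
    (by rw [map_one, mul_one, h]), map_one, div_one]

include hπ0 hπ hE in
/-- **(h4a) of `fc_final` for the chart `B₁₂ = fc_chart O {u, u⁻¹}`, `u = ι x`** with `x ∈ O((q))`
of residually transcendental reduction, `π B₁₂` prime. -/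
theorem gq_h4a_fc_of_iota (u : ↥E)
    [Algebra.IsAlgebraic (Algebra.adjoin O ({u, u⁻¹} : Set ↥E)) ↥E]
    (x : LaurentSeries O)
    (hux : (u : LaurentSeries K) = ModularCurve.coeffMap (algebraMap O K) x)
    (hx : ∀ p : (ResidueField O)[X],
      aeval (ModularCurve.coeffMap (residue O) x) p = 0 → p = 0)
    (hπ12 : Prime (algebraMap O (fc_chart O ({u, u⁻¹} : Set ↥E)) π))
    (y1 y2 : LaurentSeries O)
    (hred : ModularCurve.coeffMap (residue O) y1 = ModularCurve.coeffMap (residue O) y2)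
    (hy2 : ModularCurve.coeffMap (residue O) y2 ≠ 0) (f : ↥E)
    (hf : (f : LaurentSeries K) * ModularCurve.coeffMap (algebraMap O K) y2 =
      ModularCurve.coeffMap (algebraMap O K) y1) :
    f - 1 ∈ fc_piO (F := ↥E) hπ12 := by
  have hu : gq_IsBdd O K (u : LaurentSeries K) := by
    rw [hux]
    exact gq_isBdd_iota x
  have hres : gq_res O K ⟨(u : LaurentSeries K), hu⟩ = ModularCurve.coeffMap (residue O) x :=
    gq_res_of_eq_iota _ x hux
  have hx0 : ModularCurve.coeffMap (residue O) x ≠ 0 := by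
    intro h0
    have h2 := hx X (by rw [aeval_X, h0])
    exact Polynomial.X_ne_zero h2
  have hu' : gq_IsBdd O K ((u⁻¹ : ↥E) : LaurentSeries K) := by
    rw [IntermediateField.coe_inv]
    exact gq_isBdd_inv_of_res_ne_zero ⟨(u : LaurentSeries K), hu⟩ (by rw [hres]; exact hx0)
  exact gq_h4a_fc π hπ0 hπ E hE u hu hu' (by rw [hres]; exact hx) hπ12 y1 y2 hred hy2 f hf

end FC

end Fermat.Agent.JT3
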