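import Mathlib
import Fermat.Agent.JT3.Bridge.GaussCenter

/-!
# JT3 bridge: the centre of the `q`-Gauss ring on the one-coordinate charts

Addendum to `GaussCenter.lean`: the statements of `gq_fc_chart_pair_le` /
`gq_center_fc_chart_pair` for the chart `fc_chart O {u}` (normalisation of `O[u]`), and for an
arbitrary subalgebra `B` integral over `O[u]`:
if `π B` is prime then `{b ∈ B | red b = 0} = π B` ("the kernel of the reduction is `π B`").
-/

set_option autoImplicit false
set_option linter.style.haveILetI false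

open IsLocalRing Polynomial

namespace Fermat.Agent.JT3

section One

variable {O : Type*} [CommRing O] [IsDomain O] [IsLocalRing O] [WfDvdMonoid O]
variable {K : Type*} [Field K] [Algebra O K] [IsFractionRing O K]
variable (π : O) (hπ0 : π ≠ 0) (hπ : maximalIdeal O = Ideal.span {π})
  (E : IntermediateField K (LaurentSeries K)) (hE : E ≤ gq_quotField O K)
  [Algebra O ↥E] [IsScalarTower O K ↥E]

/-- `O[u]` lies in the `q`-Gauss ring when `u` does. -/
theorem gq_adjoin_singleton_le (u : ↥E) (hu : gq_IsBdd O K (u : LaurentSeries K)) :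
    ∀ r ∈ Algebra.adjoin O ({u} : Set ↥E), r ∈ gq_valSubOf π hπ0 hπ E hE := by
  intro r hr
  induction hr using Algebra.adjoin_induction with
  | mem x hx =>
    rw [Set.mem_singleton_iff] at hx
    rw [hx]
    exact hu
  | algebraMap c => exact gq_algebraMap_mem_valSubOf π hπ0 hπ E hE c
  | add x y _ _ hx hy => exact (gq_valSubOf π hπ0 hπ E hE).add_mem _ _ hx hy
  | mul x y _ _ hx hy => exact (gq_valSubOf π hπ0 hπ E hE).mul_mem _ _ hx hy

/-- A subalgebra integral over `O[u]` lies in the `q`-Gauss ring when `u` does. -/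
theorem gq_integral_over_adjoin_singleton_le (u : ↥E)
    (hu : gq_IsBdd O K (u : LaurentSeries K)) (B : Subalgebra O ↥E)
    (hint : ∀ b ∈ B, IsIntegral ↥(Algebra.adjoin O ({u} : Set ↥E)) b) :
    ∀ b ∈ B, b ∈ gq_valSubOf π hπ0 hπ E hE := fun b hb =>
  gq_integral_mem_valuationSubring _ _ (gq_adjoin_singleton_le π hπ0 hπ E hE u hu) b (hint b hb)

/-- **The kernel of the reduction on a chart integral over `O[u]` is `π B`**, when `π B` is
prime and the reduction of `u` is transcendental. -/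
theorem gq_center_of_integral_over_adjoin_singleton (u : ↥E)
    (hu : gq_IsBdd O K (u : LaurentSeries K))
    (htr : ∀ p : (ResidueField O)[X],
      aeval (gq_res O K ⟨(u : LaurentSeries K), hu⟩) p = 0 → p = 0)
    (B : Subalgebra O ↥E) (hRB : Algebra.adjoin O ({u} : Set ↥E) ≤ B)
    (hint : ∀ b ∈ B, IsIntegral ↥(Algebra.adjoin O ({u} : Set ↥E)) b)
    (hprime : Prime (algebraMap O ↥B π)) :
    ∀ b ∈ B, b ∈ (gq_valSubOf π hπ0 hπ E hE).nonunits →
      ∃ b' ∈ B, b = algebraMap K ↥E (algebraMap O K π) * b' := by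
  set V := gq_valSubOf π hπ0 hπ E hE with hV
  have hBV : ∀ b ∈ B, b ∈ V := gq_integral_over_adjoin_singleton_le π hπ0 hπ E hE u hu B hint
  have hϖ : algebraMap ↥B ↥E (algebraMap O ↥B π) = algebraMap K ↥E (algebraMap O K π) := by
    rw [← IsScalarTower.algebraMap_apply O K ↥E]
    rfl
  refine gq_center_of_integral V _ (Algebra.adjoin O ({u} : Set ↥E)).toSubring B.toSubring
    (fun r hr => hRB hr) ?_ ?_ (gq_const_mem_nonunits π hπ0 hπ E hE) hBV
    (gq_center_adjoin_singleton π hπ0 hπ E hE u hu htr)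
  · intro b hb
    exact hint b hb
  · intro x hx y hy ⟨w, hw, hxy⟩
    have hdvd : algebraMap O ↥B π ∣ (⟨x, hx⟩ : ↥B) * ⟨y, hy⟩ := by
      refine ⟨⟨w, hw⟩, ?_⟩
      apply Subtype.ext
      change x * y = algebraMap ↥B ↥E (algebraMap O ↥B π) * w
      rw [hϖ, hxy]
    rcases hprime.dvd_or_dvd hdvd with ⟨c, hc⟩ | ⟨c, hc⟩
    · left
      refine ⟨(c : ↥E), c.2, ?_⟩
      have := congrArg (fun t : ↥B => (t : ↥E)) hc
      simp only at this
      rw [← hϖ]
      exact this
    · right
      refine ⟨(c : ↥E), c.2, ?_⟩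
      have := congrArg (fun t : ↥B => (t : ↥E)) hc
      simp only at this
      rw [← hϖ]
      exact this

/-- The chart `B₁ = fc_chart O {u}` lies in the `q`-Gauss ring. -/
theorem gq_fc_chart_singleton_le (u : ↥E) (hu : gq_IsBdd O K (u : LaurentSeries K)) :
    ∀ b ∈ fc_chart O ({u} : Set ↥E), b ∈ gq_valSubOf π hπ0 hπ E hE :=
  gq_integral_over_adjoin_singleton_le π hπ0 hπ E hE u hu _ fun _ hb => hb

/-- **The centre of the `q`-Gauss ring on the chart `B₁ = fc_chart O {u}` is `π B₁`.** -/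
theorem gq_center_fc_chart_singleton (u : ↥E) (hu : gq_IsBdd O K (u : LaurentSeries K))
    (htr : ∀ p : (ResidueField O)[X],
      aeval (gq_res O K ⟨(u : LaurentSeries K), hu⟩) p = 0 → p = 0)
    (hπ1 : Prime (algebraMap O (fc_chart O ({u} : Set ↥E)) π)) :
    ∀ b ∈ fc_chart O ({u} : Set ↥E), b ∈ (gq_valSubOf π hπ0 hπ E hE).nonunits →
      ∃ b' ∈ fc_chart O ({u} : Set ↥E), b = algebraMap K ↥E (algebraMap O K π) * b' :=
  gq_center_of_integral_over_adjoin_singleton π hπ0 hπ E hE u hu htr _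
    (fc_adjoin_le_chart _) (fun _ hb => hb) hπ1

/-- Elementwise form: `b ∈ B₁` with `red b = 0` (as a bounded quotient) is divisible by `π`
in `B₁`. -/
theorem gq_red_ker_fc_chart_singleton (u : ↥E) (hu : gq_IsBdd O K (u : LaurentSeries K))
    (htr : ∀ p : (ResidueField O)[X],
      aeval (gq_res O K ⟨(u : LaurentSeries K), hu⟩) p = 0 → p = 0)
    (hπ1 : Prime (algebraMap O (fc_chart O ({u} : Set ↥E)) π))
    (b : ↥E) (hb : b ∈ fc_chart O ({u} : Set ↥E))
    (hres : gq_res O K ⟨(b : LaurentSeries K),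
      gq_fc_chart_singleton_le π hπ0 hπ E hE u hu b hb⟩ = 0) :
    ∃ b' ∈ fc_chart O ({u} : Set ↥E), b = algebraMap K ↥E (algebraMap O K π) * b' :=
  gq_center_fc_chart_singleton π hπ0 hπ E hE u hu htr hπ1 b hb
    ((gq_mem_nonunits_iff_res π hπ0 hπ E hE b _).mpr hres)

end One

end Fermat.Agent.JT3
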