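import Mathlib
import Fermat.Agent.JT3.Bridge.GaussVal

/-!
# JT3 bridge: base change of the `q`-Gauss residue

`O → O'` a local homomorphism of local domains, `K → K'` a compatible homomorphism of their
fraction fields.  A bounded quotient `z ∈ K((q))` stays bounded in `K'((q))` and its Gauss residue
is the image of the Gauss residue of `z` under `k((q)) → k'((q))`.  In particular (the residue
map `k → k'` is injective) the residue vanishes upstairs iff it vanishes downstairs.

Instance: `O = A.comap (algebraMap L Kb)` for a valuation subring `A` of an extension `Kb / L`.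
-/

set_option autoImplicit false
set_option linter.style.haveILetI false
set_option linter.unusedSectionVars false

open IsLocalRing ModularCurve

namespace Fermat.Agent.JT3

section Generic

variable {O O' : Type*} [CommRing O] [IsDomain O] [IsLocalRing O]
  [CommRing O'] [IsDomain O'] [IsLocalRing O']
variable {K K' : Type*} [Field K] [Field K'] [Algebra O K] [Algebra O' K']
variable (φ : O →+* O') [IsLocalHom φ] (ψ : K →+* K')
variable (hc : ∀ a : O, ψ (algebraMap O K a) = algebraMap O' K' (φ a))

include hc in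
/-- `ι` commutes with base change. -/
theorem gq_bc_iota (y : LaurentSeries O) :
    coeffMap ψ (coeffMap (algebraMap O K) y) = coeffMap (algebraMap O' K') (coeffMap φ y) := by
  rw [coeffMap_coeffMap, coeffMap_coeffMap]
  exact coeffMap_congr (RingHom.ext hc) y

/-- `red` commutes with base change. -/
theorem gq_bc_red (y : LaurentSeries O) :
    coeffMap (residue O') (coeffMap φ y) =
      coeffMap (ResidueField.map φ) (coeffMap (residue O) y) := by
  rw [coeffMap_coeffMap, coeffMap_coeffMap]
  apply coeffMap_congr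
  ext a
  rfl

omit [IsDomain O] [IsLocalRing O] [IsDomain O'] [IsLocalRing O'] in
/-- `coeffMap` of an injective homomorphism is injective. -/
theorem gq_bc_coeffMap_injective {R S : Type*} [CommRing R] [CommRing S] (f : R →+* S)
    (hf : Function.Injective f) : Function.Injective (coeffMap f) := by
  intro x y hxy
  ext k
  apply hf
  rw [← coeffMap_coeff, ← coeffMap_coeff, hxy]

/-- `k((q)) → k'((q))` is injective. -/
theorem gq_bc_residue_injective :
    Function.Injective (coeffMap (ResidueField.map φ)) :=
  gq_bc_coeffMap_injective _ (ResidueField.map φ).injective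

include hc in
/-- A bounded quotient stays bounded after base change. -/
theorem gq_bc_isBdd {z : LaurentSeries K} (h : gq_IsBdd O K z) :
    gq_IsBdd O' K' (coeffMap ψ z) := by
  obtain ⟨z1, z2, h2, hz⟩ := h
  refine ⟨coeffMap φ z1, coeffMap φ z2, ?_, ?_⟩
  · rw [gq_bc_red]
    intro h0
    apply h2
    apply gq_bc_residue_injective φ
    rw [h0, map_zero]
  · rw [← gq_bc_iota φ ψ hc, ← gq_bc_iota φ ψ hc, ← map_mul, hz]

variable [IsFractionRing O K] [IsFractionRing O' K']

include hc in
/-- **Base change of the Gauss residue.** -/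
theorem gq_bc_res (z : ↥(gq_bddSubring O K)) :
    gq_res O' K' ⟨coeffMap ψ (z : LaurentSeries K), gq_bc_isBdd φ ψ hc z.2⟩ =
      coeffMap (ResidueField.map φ) (gq_res O K z) := by
  obtain ⟨z1, z2, h2, hz⟩ := z.2
  have h2' : coeffMap (residue O') (coeffMap φ z2) ≠ 0 := by
    rw [gq_bc_red]
    intro h0
    apply h2
    apply gq_bc_residue_injective φ
    rw [h0, map_zero]
  rw [gq_res_eq z h2 hz, gq_res_eq _ (z1 := coeffMap φ z1) (z2 := coeffMap φ z2) h2'
    (by
      change coeffMap ψ (z : LaurentSeries K) * _ = _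
      rw [← gq_bc_iota φ ψ hc, ← gq_bc_iota φ ψ hc, ← map_mul, hz]),
    gq_bc_red, gq_bc_red, map_div₀]

include hc in
/-- The Gauss residue vanishes upstairs iff it vanishes downstairs. -/
theorem gq_bc_res_eq_zero_iff (z : ↥(gq_bddSubring O K)) :
    gq_res O' K' ⟨coeffMap ψ (z : LaurentSeries K), gq_bc_isBdd φ ψ hc z.2⟩ = 0 ↔
      gq_res O K z = 0 := by
  rw [gq_bc_res φ ψ hc z]
  constructor
  · intro h
    apply gq_bc_residue_injective φ
    rw [h, map_zero]
  · intro h
    rw [h, map_zero]

end Generic

/-! ### the instance `O = A.comap (algebraMap L Kb)` -/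

section Comap

variable {L Kb : Type*} [Field L] [Field Kb] [Algebra L Kb] (A : ValuationSubring Kb)

/-- the inclusion `A ∩ L → A`. -/
def gq_bc_comapHom : ↥(A.comap (algebraMap L Kb)) →+* ↥A where
  toFun x := ⟨algebraMap L Kb (x : L), x.2⟩
  map_one' := Subtype.ext (map_one _)
  map_mul' _ _ := Subtype.ext (map_mul _ _ _)
  map_zero' := Subtype.ext (map_zero _)
  map_add' _ _ := Subtype.ext (map_add _ _ _)

theorem gq_bc_comapHom_coe (x : ↥(A.comap (algebraMap L Kb))) :
    ((gq_bc_comapHom A x : ↥A) : Kb) = algebraMap L Kb (x : L) := rfl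

instance gq_bc_comapHom_isLocalHom : IsLocalHom (gq_bc_comapHom (L := L) A) where
  map_nonunit x hx := by
    by_cases h0 : x = 0
    · rw [h0, map_zero] at hx
      exact absurd hx not_isUnit_zero
    have hx0 : (x : L) ≠ 0 := fun h => h0 (Subtype.ext h)
    obtain ⟨y, hy⟩ := hx.exists_right_inv
    have hy' : algebraMap L Kb (x : L) * (y : Kb) = 1 := by
      have := congrArg (fun t : ↥A => (t : Kb)) hy
      exact this
    have hinv : (y : Kb) = algebraMap L Kb ((x : L)⁻¹) := by
      rw [map_inv₀]
      exact eq_inv_of_mul_eq_one_right hy'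
    have hmem : (x : L)⁻¹ ∈ A.comap (algebraMap L Kb) := by
      rw [ValuationSubring.mem_comap, ← hinv]
      exact y.2
    exact IsUnit.of_mul_eq_one (⟨(x : L)⁻¹, hmem⟩ : ↥(A.comap (algebraMap L Kb)))
      (Subtype.ext (mul_inv_cancel₀ hx0))

theorem gq_bc_comap_compat (a : ↥(A.comap (algebraMap L Kb))) :
    algebraMap L Kb (algebraMap ↥(A.comap (algebraMap L Kb)) L a) =
      algebraMap ↥A Kb (gq_bc_comapHom A a) := rfl

/-- bounded over `A ∩ L` ⟹ bounded over `A`. -/
theorem gq_bc_isBdd_comap {z : LaurentSeries L}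
    (h : gq_IsBdd ↥(A.comap (algebraMap L Kb)) L z) :
    gq_IsBdd ↥A Kb (coeffMap (algebraMap L Kb) z) :=
  gq_bc_isBdd (gq_bc_comapHom A) (algebraMap L Kb) (gq_bc_comap_compat A) h

/-- **the Gauss residue over `A` of a function defined over `L`** is the image of its Gauss
residue over `A ∩ L`. -/
theorem gq_bc_res_comap (z : ↥(gq_bddSubring ↥(A.comap (algebraMap L Kb)) L)) :
    gq_res ↥A Kb ⟨coeffMap (algebraMap L Kb) (z : LaurentSeries L), gq_bc_isBdd_comap A z.2⟩ =
      coeffMap (ResidueField.map (gq_bc_comapHom A))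
        (gq_res ↥(A.comap (algebraMap L Kb)) L z) :=
  gq_bc_res (gq_bc_comapHom A) (algebraMap L Kb) (gq_bc_comap_compat A) z

theorem gq_bc_res_comap_eq_zero_iff (z : ↥(gq_bddSubring ↥(A.comap (algebraMap L Kb)) L)) :
    gq_res ↥A Kb ⟨coeffMap (algebraMap L Kb) (z : LaurentSeries L), gq_bc_isBdd_comap A z.2⟩
      = 0 ↔ gq_res ↥(A.comap (algebraMap L Kb)) L z = 0 :=
  gq_bc_res_eq_zero_iff (gq_bc_comapHom A) (algebraMap L Kb) (gq_bc_comap_compat A) z

end Comap

end Fermat.Agent.JT3
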