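import Mathlib
import Fermat.Agent.JT3.Bridge.GaussBaseChange
import Fermat.Agent.JT3.PlaceMap.ModularGauss
import Fermat.Agent.JT3.Inst.Defs

/-!
# JT3 bridge: the Gauss residue of `F̄_N` on functions defined over a subfield

`L` a field with `L → Q̄`, `A` a valuation subring of `Q̄`, `O = A ∩ L`.  The coefficientwise
extension of constants maps `lg_F L N = L(j(q^d) : d ∣ N)` into `F̄_N`; a function which is
Gauss-bounded over `O` is Gauss-bounded over `A` (`rpm_gInt`), and its reduction `rpm_gRed` is
the image of its Gauss residue over `O` under `k_O((q)) → k_A((q))`.  In particular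
`rpm_gRed (f) = 0 ↔ gq_res O L f = 0`: the kernel of the reduction of node E on functions of a
base level is computed at the base level.
-/

set_option autoImplicit false
set_option linter.style.haveILetI false
set_option linter.unusedSectionVars false

open IsLocalRing ModularCurve Fermat.Agent.S24

namespace Fermat.Agent.JT3

section FullC

variable {K K' : Type*} [Field K] [Field K'] (ψ : K →+* K') (N : ℕ) [NeZero N]

/-- extension of constants preserves the level-`N` function fields. -/
theorem gq_bc_mem_fullC {x : LaurentSeries K} (hx : x ∈ modularFunctionFieldFullC K N) :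
    coeffMap ψ x ∈ modularFunctionFieldFullC K' N := by
  rw [modularFunctionFieldFullC] at hx
  induction hx using IntermediateField.adjoin_induction with
  | mem y hy =>
    obtain ⟨d, hd, hdN, rfl⟩ := hy
    haveI := hd
    rw [coeffMap_qExpand, coeffMap_jqModC]
    exact jqModCd_mem_full K' N hdN
  | algebraMap a =>
    rw [algebraMap_laurentSeries_eq_single, coeffMap_single, ← algebraMap_laurentSeries_eq_single]
    exact (modularFunctionFieldFullC K' N).algebraMap_mem _
  | add x y _ _ hx hy => rw [map_add]; exact add_mem hx hy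
  | inv x _ hx => rw [map_inv₀]; exact inv_mem hx
  | mul x y _ _ hx hy => rw [map_mul]; exact mul_mem hx hy

end FullC

section Bar

variable (L : Type*) [Field L] [Algebra L Kbar] (N : ℕ) [NeZero N]

theorem gq_bc_mem_bar {x : LaurentSeries L} (hx : x ∈ lg_F L N) :
    coeffMap (algebraMap L Kbar) x ∈ modularFunctionFieldBar N := by
  rw [← lg_F_eq_bar]
  exact gq_bc_mem_fullC (algebraMap L Kbar) N hx

/-- the extension of constants `L(j(q^d)) → F̄_N`. -/
noncomputable def gq_bc_toBar : ↥(lg_F L N) →+* Fbar N where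
  toFun x := ⟨coeffMap (algebraMap L Kbar) (x : LaurentSeries L), gq_bc_mem_bar L N x.2⟩
  map_one' := Subtype.ext (map_one _)
  map_mul' _ _ := Subtype.ext (map_mul _ _ _)
  map_zero' := Subtype.ext (map_zero _)
  map_add' _ _ := Subtype.ext (map_add _ _ _)

theorem gq_bc_toBar_coe (x : ↥(lg_F L N)) :
    ((gq_bc_toBar L N x : Fbar N) : LaurentSeries Kbar) =
      coeffMap (algebraMap L Kbar) (x : LaurentSeries L) := rfl

theorem gq_bc_toBar_injective : Function.Injective (gq_bc_toBar L N) :=
  (gq_bc_toBar L N).injective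

theorem gq_bc_toBar_algebraMap (c : L) :
    gq_bc_toBar L N (algebraMap L ↥(lg_F L N) c) = algebraMap Kbar (Fbar N) (algebraMap L Kbar c) := by
  apply Subtype.ext
  change coeffMap (algebraMap L Kbar) (algebraMap L (LaurentSeries L) c) =
    algebraMap Kbar (LaurentSeries Kbar) (algebraMap L Kbar c)
  rw [algebraMap_laurentSeries_eq_single, coeffMap_single, ← algebraMap_laurentSeries_eq_single]

variable (A : ValuationSubring Kbar) {ℓ : ℕ} [Fact ℓ.Prime]

/-- Gauss-bounded over `A ∩ L` ⟹ in `rpm_gInt A N`. -/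
theorem gq_bc_toBar_mem_gInt (x : ↥(lg_F L N))
    (hb : gq_IsBdd ↥(A.comap (algebraMap L Kbar)) L (x : LaurentSeries L)) :
    gq_bc_toBar L N x ∈ rpm_gInt A N :=
  gq_bc_isBdd_comap A hb

/-- **the reduction of node E on a function of the level `L`** is the image of its Gauss residue
over `A ∩ L`. -/
theorem gq_bc_gRed (hℓN : ¬ ℓ ∣ N) (hA : A.LiesOverPrime ℓ) (x : ↥(lg_F L N))
    (hb : gq_IsBdd ↥(A.comap (algebraMap L Kbar)) L (x : LaurentSeries L)) :
    ((rpm_gRed A N hℓN hA ⟨gq_bc_toBar L N x, gq_bc_toBar_mem_gInt L N A x hb⟩ :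
        ↥(modularFunctionFieldFullC (ResidueField A) N)) : LaurentSeries (ResidueField A)) =
      coeffMap (ResidueField.map (gq_bc_comapHom (L := L) A))
        (gq_res ↥(A.comap (algebraMap L Kbar)) L ⟨(x : LaurentSeries L), hb⟩) := by
  rw [rpm_gRed_coe]
  exact gq_bc_res_comap A ⟨(x : LaurentSeries L), hb⟩

/-- the kernel of the reduction of node E on functions of the level `L` is computed at the
level `L`. -/
theorem gq_bc_gRed_eq_zero_iff (hℓN : ¬ ℓ ∣ N) (hA : A.LiesOverPrime ℓ) (x : ↥(lg_F L N))
    (hb : gq_IsBdd ↥(A.comap (algebraMap L Kbar)) L (x : LaurentSeries L)) :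
    rpm_gRed A N hℓN hA ⟨gq_bc_toBar L N x, gq_bc_toBar_mem_gInt L N A x hb⟩ = 0 ↔
      gq_res ↥(A.comap (algebraMap L Kbar)) L ⟨(x : LaurentSeries L), hb⟩ = 0 := by
  have h1 := gq_bc_gRed L N A hℓN hA x hb
  have h2 := gq_bc_res_comap_eq_zero_iff A
    (⟨(x : LaurentSeries L), hb⟩ : ↥(gq_bddSubring ↥(A.comap (algebraMap L Kbar)) L))
  have h3 := gq_bc_res_comap A
    (⟨(x : LaurentSeries L), hb⟩ : ↥(gq_bddSubring ↥(A.comap (algebraMap L Kbar)) L))
  rw [← h2, h3, ← h1]
  constructor
  · intro h
    rw [h]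
    rfl
  · intro h
    exact Subtype.ext h

end Bar

end Fermat.Agent.JT3
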