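import Mathlib
import Fermat.Agent.JT3.Bridge.GaussVal
import Fermat.Agent.JT3.Reduction.LatticeCore

/-!
# JT3 bridge: the `q`-Gauss ring over an arbitrary valuation ring, on `K(x, θ)`

`O` any valuation ring (not necessarily noetherian), `K = Frac O`, `x θ ∈ O((q))` with `θ` a root
of a monic `Φ ∈ O[x][Y]` and `1, θ̄, …, θ̄^(deg Φ - 1)` independent over `k[x̄]`.
On the field `K(ι x, ι θ) ⊆ K((q))` the Gauss-bounded quotients form a valuation ring, described by
normalised representations `z = (Σ a_i(x) θ^i) / d(x)`, and the residue of a bounded element lies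
in `k(x̄, θ̄)`.
-/

set_option autoImplicit false
set_option linter.style.haveILetI false
set_option linter.unusedSectionVars false

open IsLocalRing Polynomial

namespace Fermat.Agent.JT3

section Normalize

variable {O : Type*} [CommRing O] [IsDomain O] [ValuationRing O]

/-- Normalisation in a valuation ring: divide a nonzero denominator and a finite family of
numerators by a coefficient dividing all the coefficients. -/
theorem gqa_normalize {n : ℕ} (D : O[X]) (hD : D ≠ 0) (P : Fin n → O[X]) :
    ∃ (c : O) (D' : O[X]) (P' : Fin n → O[X]), c ≠ 0 ∧ D' ≠ 0 ∧ D = C c * D' ∧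
      (∀ i, P i = C c * P' i) ∧
      (D'.map (residue O) ≠ 0 ∨ ∃ i, (P' i).map (residue O) ≠ 0) := by
  classical
  set m : ℕ := D.natDegree + ∑ i, (P i).natDegree with hm
  have hmD : D.natDegree ≤ m := Nat.le_add_right _ _
  have hmP : ∀ i, (P i).natDegree ≤ m := fun i =>
    le_trans (Finset.single_le_sum (f := fun i => (P i).natDegree) (fun _ _ => Nat.zero_le _)
      (Finset.mem_univ i)) (Nat.le_add_left _ _)
  let u : Option (Fin n) × Fin (m + 1) → O := fun a =>
    match a.1 with
    | none => D.coeff a.2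
    | some i => (P i).coeff a.2
  obtain ⟨a₀, ha₀⟩ := jl_exists_dvd_all u
  set c : O := u a₀ with hc
  have hcD : ∀ j, c ∣ D.coeff j := by
    intro j
    by_cases hj : j ≤ m
    · exact ha₀ (none, ⟨j, Nat.lt_succ_of_le hj⟩)
    · rw [Polynomial.coeff_eq_zero_of_natDegree_lt (lt_of_le_of_lt hmD (not_le.mp hj))]
      exact dvd_zero c
  have hcP : ∀ i j, c ∣ (P i).coeff j := by
    intro i j
    by_cases hj : j ≤ m
    · exact ha₀ (some i, ⟨j, Nat.lt_succ_of_le hj⟩)
    · rw [Polynomial.coeff_eq_zero_of_natDegree_lt (lt_of_le_of_lt (hmP i) (not_le.mp hj))]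
      exact dvd_zero c
  have hc0 : c ≠ 0 := by
    intro h0
    apply hD
    ext j
    have := hcD j
    rw [h0, zero_dvd_iff] at this
    rw [this, Polynomial.coeff_zero]
  obtain ⟨D', hD'⟩ : C c ∣ D := (Polynomial.C_dvd_iff_dvd_coeff c D).mpr hcD
  have hP' : ∀ i, C c ∣ P i := fun i => (Polynomial.C_dvd_iff_dvd_coeff c (P i)).mpr (hcP i)
  choose P' hP' using hP'
  refine ⟨c, D', P', hc0, ?_, hD', hP', ?_⟩
  · intro h0
    rw [h0, mul_zero] at hD'
    exact hD hD'
  · -- the coefficient at `a₀` becomes `1`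
    obtain ⟨o, j⟩ := a₀
    cases o with
    | none =>
      left
      have h1 : D.coeff j = c := rfl
      rw [hD', Polynomial.coeff_C_mul] at h1
      have h2 : D'.coeff j = 1 := by
        have : c * D'.coeff j = c * 1 := by rw [h1, mul_one]
        exact mul_left_cancel₀ hc0 this
      intro h0
      have h3 := congrArg (fun p : (ResidueField O)[X] => p.coeff j) h0
      simp only [Polynomial.coeff_map, h2, map_one, Polynomial.coeff_zero] at h3
      exact one_ne_zero h3
    | some i =>
      right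
      refine ⟨i, ?_⟩
      have h1 : (P i).coeff j = c := rfl
      rw [hP' i, Polynomial.coeff_C_mul] at h1
      have h2 : (P' i).coeff j = 1 := by
        have : c * (P' i).coeff j = c * 1 := by rw [h1, mul_one]
        exact mul_left_cancel₀ hc0 this
      intro h0
      have h3 := congrArg (fun p : (ResidueField O)[X] => p.coeff j) h0
      simp only [Polynomial.coeff_map, h2, map_one, Polynomial.coeff_zero] at h3
      exact one_ne_zero h3

/-- `x` is transcendental over `O` as soon as its reduction is transcendental over `k`. -/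
theorem gqa_aeval_ne_zero (x : LaurentSeries O)
    (hx : ∀ p : (ResidueField O)[X],
      aeval (ModularCurve.coeffMap (residue O) x) p = 0 → p = 0)
    (D : O[X]) (hD : D ≠ 0) : aeval x D ≠ 0 := by
  obtain ⟨c, D', _P', hc0, -, hDc, -, hnorm⟩ := gqa_normalize (n := 0) D hD (fun i => i.elim0)
  have hD'bar : D'.map (residue O) ≠ 0 := by
    rcases hnorm with h | ⟨i, -⟩
    · exact h
    · exact i.elim0
  have h1 : aeval x D' ≠ 0 := by
    intro h0
    apply hD'bar
    apply hx
    rw [← gq_red_aeval, h0, map_zero]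
  have h2 : algebraMap O (LaurentSeries O) c ≠ 0 := by
    rw [gq_algebraMap_eq_single]
    intro h0
    exact hc0 (HahnSeries.single_eq_zero_iff.mp h0)
  rw [hDc, map_mul, aeval_C]
  exact mul_ne_zero h2 h1

end Normalize

section Structure

variable {O : Type*} [CommRing O] [IsDomain O] [ValuationRing O]
variable {K : Type*} [Field K] [Algebra O K] [IsFractionRing O K]

/-- The image in `K((q))` of a polynomial expression `Σ a_i(x) θ^i`. -/
theorem gqa_iota_sum {n : ℕ} (x θ : LaurentSeries O) (a : Fin n → O[X]) :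
    ModularCurve.coeffMap (algebraMap O K) (∑ i, aeval x (a i) * θ ^ (i : ℕ)) =
      ∑ i, ModularCurve.coeffMap (algebraMap O K) (aeval x (a i)) *
        (ModularCurve.coeffMap (algebraMap O K) θ) ^ (i : ℕ) := by
  rw [map_sum]
  refine Finset.sum_congr rfl fun i _ => ?_
  rw [map_mul, map_pow]

/-- The reduction of a polynomial expression `Σ a_i(x) θ^i`. -/
theorem gqa_red_sum {n : ℕ} (x θ : LaurentSeries O) (a : Fin n → O[X]) :
    ModularCurve.coeffMap (residue O) (∑ i, aeval x (a i) * θ ^ (i : ℕ)) =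
      ∑ i, aeval (ModularCurve.coeffMap (residue O) x) ((a i).map (residue O)) *
        (ModularCurve.coeffMap (residue O) θ) ^ (i : ℕ) := by
  rw [map_sum]
  refine Finset.sum_congr rfl fun i _ => ?_
  rw [map_mul, map_pow, gq_red_aeval]

/-- By independence, `Σ a_i(x) θ^i` has nonzero reduction as soon as some `ā_i ≠ 0`. -/
theorem gqa_red_sum_ne_zero {n : ℕ} (x θ : LaurentSeries O)
    (hind : ∀ a : Fin n → (ResidueField O)[X],
      (∑ i, aeval (ModularCurve.coeffMap (residue O) x) (a i) *
        (ModularCurve.coeffMap (residue O) θ) ^ (i : ℕ) = 0) → a = 0)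
    (a : Fin n → O[X]) (ha : ∃ i, (a i).map (residue O) ≠ 0) :
    ModularCurve.coeffMap (residue O) (∑ i, aeval x (a i) * θ ^ (i : ℕ)) ≠ 0 := by
  intro h0
  rw [gqa_red_sum] at h0
  obtain ⟨i, hi⟩ := ha
  exact hi (congrFun (hind (fun i => (a i).map (residue O)) h0) i)

/-- **(S) Normalised representation.** Every `z ∈ K(ι x, ι θ)` is `(Σ a_i(x) θ^i) / d(x)` with
`d, a_i ∈ O[X]`, `d ≠ 0`, and not all of `d, a_i` zero modulo the maximal ideal. -/
theorem gqa_exists_normal_rep (x θ : LaurentSeries O) (Φ : Polynomial O[X]) (hΦ : Φ.Monic)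
    (hroot : Polynomial.eval₂ (aeval x : O[X] →ₐ[O] LaurentSeries O).toRingHom θ Φ = 0)
    (hind : ∀ a : Fin Φ.natDegree → (ResidueField O)[X],
      (∑ i, aeval (ModularCurve.coeffMap (residue O) x) (a i) *
        (ModularCurve.coeffMap (residue O) θ) ^ (i : ℕ) = 0) → a = 0)
    (z : LaurentSeries K)
    (hz : z ∈ IntermediateField.adjoin K
      {ModularCurve.coeffMap (algebraMap O K) x, ModularCurve.coeffMap (algebraMap O K) θ}) :
    ∃ (d : O[X]) (a : Fin Φ.natDegree → O[X]), d ≠ 0 ∧
      ModularCurve.coeffMap (algebraMap O K) (aeval x d) * z =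
        ModularCurve.coeffMap (algebraMap O K) (∑ i, aeval x (a i) * θ ^ (i : ℕ)) ∧
      (d.map (residue O) ≠ 0 ∨ ∃ i, (a i).map (residue O) ≠ 0) := by
  have hinjK : Function.Injective (algebraMap O K) := IsFractionRing.injective O K
  have hn : 0 < Φ.natDegree := by
    rcases Nat.eq_zero_or_pos Φ.natDegree with h0 | h
    · exfalso
      have h1 : Φ = 1 := Polynomial.eq_one_of_monic_natDegree_zero hΦ h0
      rw [h1, Polynomial.eval₂_one] at hroot
      exact one_ne_zero hroot
    · exact h
  have hxk := gq_transc_of_indep x θ hn hind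
  have hx := gqa_aeval_ne_zero x hxk
  obtain ⟨D, P, hD, hrep⟩ := gq_exists_rep (K := K) x θ hx Φ hΦ hroot z hz
  obtain ⟨c, D', P', hc0, hD'0, hDc, hPc, hnorm⟩ := gqa_normalize D hD P
  refine ⟨D', P', hD'0, ?_, hnorm⟩
  have hcK : algebraMap K (LaurentSeries K) (algebraMap O K c) ≠ 0 :=
    gq_const_ne_zero (K := K) c hc0 hinjK
  rw [gqa_iota_sum]
  have h1 : algebraMap K (LaurentSeries K) (algebraMap O K c) *
      (ModularCurve.coeffMap (algebraMap O K) (aeval x D') * z) =
      algebraMap K (LaurentSeries K) (algebraMap O K c) *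
        ∑ i, ModularCurve.coeffMap (algebraMap O K) (aeval x (P' i)) *
          (ModularCurve.coeffMap (algebraMap O K) θ) ^ (i : ℕ) := by
    rw [← mul_assoc, ← gq_coeffMap_algebraMap, ← map_mul, ← aeval_C (R := O) x c, ← map_mul,
      ← hDc, hrep, Finset.mul_sum]
    refine Finset.sum_congr rfl fun i _ => ?_
    rw [hPc i, map_mul, map_mul, aeval_C, mul_assoc]
  exact mul_left_cancel₀ hcK h1

end Structure

section Valuation

variable {O : Type*} [CommRing O] [IsDomain O] [ValuationRing O]
variable {K : Type*} [Field K] [Algebra O K] [IsFractionRing O K]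

/-- **(B) Bounded elements of `K(ι x, ι θ)`**: `z` is Gauss-bounded iff `d(x) z = Σ a_i(x) θ^i`
with `d̄ ≠ 0`. -/
theorem gqa_isBdd_iff (x θ : LaurentSeries O) (Φ : Polynomial O[X]) (hΦ : Φ.Monic)
    (hroot : Polynomial.eval₂ (aeval x : O[X] →ₐ[O] LaurentSeries O).toRingHom θ Φ = 0)
    (hind : ∀ a : Fin Φ.natDegree → (ResidueField O)[X],
      (∑ i, aeval (ModularCurve.coeffMap (residue O) x) (a i) *
        (ModularCurve.coeffMap (residue O) θ) ^ (i : ℕ) = 0) → a = 0)
    (z : LaurentSeries K)
    (hz : z ∈ IntermediateField.adjoin K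
      {ModularCurve.coeffMap (algebraMap O K) x, ModularCurve.coeffMap (algebraMap O K) θ}) :
    gq_IsBdd O K z ↔ ∃ (d : O[X]) (a : Fin Φ.natDegree → O[X]), d.map (residue O) ≠ 0 ∧
      ModularCurve.coeffMap (algebraMap O K) (aeval x d) * z =
        ModularCurve.coeffMap (algebraMap O K) (∑ i, aeval x (a i) * θ ^ (i : ℕ)) := by
  have hinjK : Function.Injective (algebraMap O K) := IsFractionRing.injective O K
  have hinj := gq_coeffMap_injective (K := K) hinjK
  have hn : 0 < Φ.natDegree := by
    rcases Nat.eq_zero_or_pos Φ.natDegree with h0 | h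
    · exfalso
      have h1 : Φ = 1 := Polynomial.eq_one_of_monic_natDegree_zero hΦ h0
      rw [h1, Polynomial.eval₂_one] at hroot
      exact one_ne_zero hroot
    · exact h
  have hxk := gq_transc_of_indep x θ hn hind
  constructor
  · rintro ⟨z1, z2, hz2, hzz⟩
    obtain ⟨d, a, -, hrel, hnorm⟩ := gqa_exists_normal_rep x θ Φ hΦ hroot hind z hz
    refine ⟨d, a, ?_, hrel⟩
    intro hd0
    have ha : ∃ i, (a i).map (residue O) ≠ 0 := hnorm.resolve_left (fun h => h hd0)
    have hN := gqa_red_sum_ne_zero x θ hind a ha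
    -- `N z2 = d(x) z1`
    have h1 : (∑ i, aeval x (a i) * θ ^ (i : ℕ)) * z2 = aeval x d * z1 := by
      apply hinj
      rw [map_mul, map_mul, ← hrel, ← hzz]
      ring
    have h2 := congrArg (ModularCurve.coeffMap (residue O)) h1
    rw [map_mul, map_mul, gq_red_aeval, hd0, map_zero, zero_mul] at h2
    exact mul_ne_zero hN hz2 h2
  · rintro ⟨d, a, hd, hrel⟩
    refine ⟨∑ i, aeval x (a i) * θ ^ (i : ℕ), aeval x d, ?_, ?_⟩
    · rw [gq_red_aeval]
      intro h0
      exact hd (hxk _ h0)
    · rw [mul_comm]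
      exact hrel

/-- **(V)** Every element of `K(ι x, ι θ)` or its inverse is Gauss-bounded. -/
theorem gqa_isBdd_or_inv (x θ : LaurentSeries O) (Φ : Polynomial O[X]) (hΦ : Φ.Monic)
    (hroot : Polynomial.eval₂ (aeval x : O[X] →ₐ[O] LaurentSeries O).toRingHom θ Φ = 0)
    (hind : ∀ a : Fin Φ.natDegree → (ResidueField O)[X],
      (∑ i, aeval (ModularCurve.coeffMap (residue O) x) (a i) *
        (ModularCurve.coeffMap (residue O) θ) ^ (i : ℕ) = 0) → a = 0)
    (z : LaurentSeries K)
    (hz : z ∈ IntermediateField.adjoin K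
      {ModularCurve.coeffMap (algebraMap O K) x, ModularCurve.coeffMap (algebraMap O K) θ}) :
    gq_IsBdd O K z ∨ gq_IsBdd O K z⁻¹ := by
  by_cases hz0 : z = 0
  · left
    rw [hz0]
    exact (gq_bddSubring O K).zero_mem
  obtain ⟨d, a, -, hrel, hnorm⟩ := gqa_exists_normal_rep x θ Φ hΦ hroot hind z hz
  by_cases hd0 : d.map (residue O) = 0
  · right
    have ha : ∃ i, (a i).map (residue O) ≠ 0 := hnorm.resolve_left (fun h => h hd0)
    refine ⟨aeval x d, ∑ i, aeval x (a i) * θ ^ (i : ℕ), gqa_red_sum_ne_zero x θ hind a ha, ?_⟩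
    rw [← hrel, mul_comm, mul_assoc, mul_inv_cancel₀ hz0, mul_one]
  · left
    exact (gqa_isBdd_iff x θ Φ hΦ hroot hind z hz).mpr ⟨d, a, hd0, hrel⟩

/-- The Gauss valuation ring of a subfield `E ⊆ K(ι x, ι θ)` over an arbitrary valuation
ring `O`. -/
noncomputable def gqa_valSub (x θ : LaurentSeries O) (Φ : Polynomial O[X]) (hΦ : Φ.Monic)
    (hroot : Polynomial.eval₂ (aeval x : O[X] →ₐ[O] LaurentSeries O).toRingHom θ Φ = 0)
    (hind : ∀ a : Fin Φ.natDegree → (ResidueField O)[X],
      (∑ i, aeval (ModularCurve.coeffMap (residue O) x) (a i) *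
        (ModularCurve.coeffMap (residue O) θ) ^ (i : ℕ) = 0) → a = 0)
    (E : IntermediateField K (LaurentSeries K))
    (hE : E ≤ IntermediateField.adjoin K
      {ModularCurve.coeffMap (algebraMap O K) x, ModularCurve.coeffMap (algebraMap O K) θ}) :
    ValuationSubring ↥E where
  toSubring := (gq_bddSubring O K).comap E.val.toRingHom
  mem_or_inv_mem' := by
    intro z
    rcases gqa_isBdd_or_inv x θ Φ hΦ hroot hind (z : LaurentSeries K) (hE z.2) with h | h
    · exact Or.inl h
    · refine Or.inr ?_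
      change gq_IsBdd O K ((z⁻¹ : ↥E) : LaurentSeries K)
      rwa [IntermediateField.coe_inv]

theorem gqa_mem_valSub (x θ : LaurentSeries O) (Φ : Polynomial O[X]) (hΦ : Φ.Monic)
    (hroot : Polynomial.eval₂ (aeval x : O[X] →ₐ[O] LaurentSeries O).toRingHom θ Φ = 0)
    (hind : ∀ a : Fin Φ.natDegree → (ResidueField O)[X],
      (∑ i, aeval (ModularCurve.coeffMap (residue O) x) (a i) *
        (ModularCurve.coeffMap (residue O) θ) ^ (i : ℕ) = 0) → a = 0)
    (E : IntermediateField K (LaurentSeries K))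
    (hE : E ≤ IntermediateField.adjoin K
      {ModularCurve.coeffMap (algebraMap O K) x, ModularCurve.coeffMap (algebraMap O K) θ})
    (z : ↥E) :
    z ∈ gqa_valSub x θ Φ hΦ hroot hind E hE ↔ gq_IsBdd O K (z : LaurentSeries K) := Iff.rfl

end Valuation

section Residue

variable {O : Type*} [CommRing O] [IsDomain O] [ValuationRing O]
variable {K : Type*} [Field K] [Algebra O K] [IsFractionRing O K]

/-- polynomial expressions in `x̄` lie in `k(x̄, θ̄)` -/
theorem gqa_aeval_mem_adjoin {k : Type*} [Field k] (xb θb : LaurentSeries k) (p : k[X]) :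
    aeval xb p ∈ IntermediateField.adjoin k {xb, θb} := by
  induction p using Polynomial.induction_on' with
  | add p q hp hq => rw [map_add]; exact add_mem hp hq
  | monomial n c =>
    rw [aeval_monomial]
    exact mul_mem (IntermediateField.algebraMap_mem _ _)
      (pow_mem (IntermediateField.subset_adjoin k _ (Set.mem_insert _ _)) n)

/-- **(R) The residue of a bounded element of `K(ι x, ι θ)` lies in `k(x̄, θ̄)`.** -/
theorem gqa_res_mem (x θ : LaurentSeries O) (Φ : Polynomial O[X]) (hΦ : Φ.Monic)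
    (hroot : Polynomial.eval₂ (aeval x : O[X] →ₐ[O] LaurentSeries O).toRingHom θ Φ = 0)
    (hind : ∀ a : Fin Φ.natDegree → (ResidueField O)[X],
      (∑ i, aeval (ModularCurve.coeffMap (residue O) x) (a i) *
        (ModularCurve.coeffMap (residue O) θ) ^ (i : ℕ) = 0) → a = 0)
    (z : LaurentSeries K)
    (hz : z ∈ IntermediateField.adjoin K
      {ModularCurve.coeffMap (algebraMap O K) x, ModularCurve.coeffMap (algebraMap O K) θ})
    (hb : gq_IsBdd O K z) :
    gq_res O K ⟨z, hb⟩ ∈ IntermediateField.adjoin (ResidueField O)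
      {ModularCurve.coeffMap (residue O) x, ModularCurve.coeffMap (residue O) θ} := by
  have hn : 0 < Φ.natDegree := by
    rcases Nat.eq_zero_or_pos Φ.natDegree with h0 | h
    · exfalso
      have h1 : Φ = 1 := Polynomial.eq_one_of_monic_natDegree_zero hΦ h0
      rw [h1, Polynomial.eval₂_one] at hroot
      exact one_ne_zero hroot
    · exact h
  have hxk := gq_transc_of_indep x θ hn hind
  obtain ⟨d, a, hd, hrel⟩ := (gqa_isBdd_iff x θ Φ hΦ hroot hind z hz).mp hb
  have hdx : ModularCurve.coeffMap (residue O) (aeval x d) ≠ 0 := by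
    rw [gq_red_aeval]
    intro h0
    exact hd (hxk _ h0)
  rw [gq_res_eq ⟨z, hb⟩ (z1 := ∑ i, aeval x (a i) * θ ^ (i : ℕ)) (z2 := aeval x d) hdx
    (by rw [mul_comm]; exact hrel), gqa_red_sum, gq_red_aeval]
  refine div_mem (sum_mem fun i _ => mul_mem (gqa_aeval_mem_adjoin _ _ _) (pow_mem ?_ _))
    (gqa_aeval_mem_adjoin _ _ _)
  exact IntermediateField.subset_adjoin _ _ (Set.mem_insert_of_mem _ rfl)

end Residue

end Fermat.Agent.JT3
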