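import Mathlib
import Fermat.Agent.JT3.Bridge.GaussValRing
import Fermat.Agent.JT3.Export.S28Sep
import Fermat.Agent.S28.Bridge.Generation
import Fermat.Agent.JT3.Inst.Defs

/-!
# JT3 bridge: the Gauss valuation ring and the reduction map on the modular function field

`(L, O)`: `O` any valuation subring of a field `L` of characteristic zero with residue
characteristic `ℓ ∤ N` (given as a ring homomorphism `ρ : ℤ_(ℓ) → O`). On `F = lg_F L N =
L(j(q^d) : d ∣ N) = L(j, j_N)` the Gauss-bounded functions form a valuation ring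
(`gqm_valSub`), and the residue of a bounded function lies in
`modularFunctionFieldFullC k N` (`gqm_res_mem_full`), giving a reduction homomorphism `gqm_red`.
-/

set_option autoImplicit false
set_option linter.style.haveILetI false
set_option linter.unusedSectionVars false

open IsLocalRing Polynomial ModularCurve

namespace Fermat.Agent.JT3

section ModEq

variable (d ℓ : ℕ) [NeZero d] [Fact ℓ.Prime] (hℓd : ¬ ℓ ∣ d)

/-- **the modular equation over any commutative ring under `ℤ_(ℓ)`.** -/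
theorem gqm_Phi_eval {S : Type*} [CommRing S] (ρ : ↥(GaloisRep.ratLocalizedAt ℓ) →+* S) :
    (vx_Phi d ℓ hℓd).eval₂ (Polynomial.eval₂RingHom
      ((HahnSeries.C : S →+* LaurentSeries S).comp ρ) (jqModC S)) (qExpand S d (jqModC S)) = 0 := by
  set R := ↥(GaloisRep.ratLocalizedAt ℓ)
  set Φ := vx_Phi d ℓ hℓd
  set Ψ : LaurentSeries R :=
    Φ.eval₂ (Polynomial.eval₂RingHom (HahnSeries.C : R →+* LaurentSeries R) (jqModC R))
      (qExpand R d (jqModC R)) with hΨ
  have hΨ0 : Ψ = 0 := by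
    apply jcr_coeffMap_injective (algebraMap R ℚ) (FaithfulSMul.algebraMap_injective R ℚ)
    rw [map_zero, hΨ, jcr_coeffMap_eval₂, coeffMap_qExpand, coeffMap_jqModC, jqModC_rat]
    exact vx_Phi_eval_rat d ℓ hℓd
  have := congrArg (coeffMap ρ) hΨ0
  rw [map_zero, hΨ, jcr_coeffMap_eval₂, coeffMap_qExpand, coeffMap_jqModC] at this
  exact this

/-- The modular polynomial over `S`. -/
noncomputable def gqm_Phi {S : Type*} [CommRing S] (ρ : ↥(GaloisRep.ratLocalizedAt ℓ) →+* S) :
    Polynomial S[X] :=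
  (vx_Phi d ℓ hℓd).map (Polynomial.mapRingHom ρ)

theorem gqm_Phi_monic {S : Type*} [CommRing S] (ρ : ↥(GaloisRep.ratLocalizedAt ℓ) →+* S) :
    (gqm_Phi d ℓ hℓd ρ).Monic :=
  (vx_Phi_monic d ℓ hℓd).map _

theorem gqm_Phi_natDegree {S : Type*} [CommRing S] [Nontrivial S]
    (ρ : ↥(GaloisRep.ratLocalizedAt ℓ) →+* S) :
    (gqm_Phi d ℓ hℓd ρ).natDegree = (vx_Phi d ℓ hℓd).natDegree :=
  (vx_Phi_monic d ℓ hℓd).natDegree_map _

/-- The modular equation in the shape of the Gauss bridge. -/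
theorem gqm_Phi_root {S : Type*} [CommRing S] (ρ : ↥(GaloisRep.ratLocalizedAt ℓ) →+* S) :
    Polynomial.eval₂ (aeval (jqModC S) : S[X] →ₐ[S] LaurentSeries S).toRingHom
      (qExpand S d (jqModC S)) (gqm_Phi d ℓ hℓd ρ) = 0 := by
  rw [gqm_Phi, Polynomial.eval₂_map]
  have h : (aeval (jqModC S) : S[X] →ₐ[S] LaurentSeries S).toRingHom.comp
      (Polynomial.mapRingHom ρ) =
      Polynomial.eval₂RingHom ((HahnSeries.C : S →+* LaurentSeries S).comp ρ) (jqModC S) := by
    refine Polynomial.ringHom_ext (fun r => ?_) ?_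
    · simp only [RingHom.comp_apply, Polynomial.coe_mapRingHom, Polynomial.map_C,
        Polynomial.coe_eval₂RingHom, Polynomial.eval₂_C]
      change aeval (jqModC S) (C (ρ r)) = _
      rw [aeval_C, gq_algebraMap_eq_single, HahnSeries.C_apply]
    · simp only [RingHom.comp_apply, Polynomial.coe_mapRingHom, Polynomial.map_X,
        Polynomial.coe_eval₂RingHom, Polynomial.eval₂_X]
      change aeval (jqModC S) X = _
      rw [aeval_X]
  rw [h]
  exact gqm_Phi_eval d ℓ hℓd ρ

end ModEq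

section Field

variable (L : Type*) [Field L] [CharZero L] (N : ℕ) [NeZero N]

/-- `coeffEmb L` maps `ℚ(S)` into `L(coeffEmb '' S)`. -/
theorem gqm_coeffEmb_mem_adjoin (S : Set (LaurentSeries ℚ)) (x : LaurentSeries ℚ)
    (hx : x ∈ IntermediateField.adjoin ℚ S) :
    coeffEmb L x ∈ IntermediateField.adjoin L (coeffEmb L '' S) := by
  induction hx using IntermediateField.adjoin_induction with
  | mem y hy => exact IntermediateField.subset_adjoin L _ ⟨y, hy, rfl⟩
  | algebraMap r =>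
    have : coeffEmb L (algebraMap ℚ (LaurentSeries ℚ) r)
        = algebraMap L (LaurentSeries L) (algebraMap ℚ L r) := by
      rw [coeffEmb, gq_algebraMap_eq_single, coeffMap_single, gq_algebraMap_eq_single]
    rw [this]
    exact IntermediateField.algebraMap_mem _ _
  | add x y _ _ hx hy => rw [map_add]; exact add_mem hx hy
  | inv x _ hx => rw [map_inv₀]; exact inv_mem hx
  | mul x y _ _ hx hy => rw [map_mul]; exact mul_mem hx hy

theorem gqm_coeffEmb_jqd (d : ℕ) [NeZero d] :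
    coeffEmb L (qExpand ℚ d jq) = qExpand L d (jqModC L) := by
  rw [coeffEmb, coeffMap_qExpand, ← jqModC_rat, coeffMap_jqModC]

/-- **`L(j(q^d) : d ∣ N) = L(j, j(q^N))`** in characteristic zero (S28's generation theorem,
base-changed). -/
theorem gqm_F_eq :
    lg_F L N = IntermediateField.adjoin L {jqModC L, qExpand L N (jqModC L)} := by
  apply le_antisymm
  · rw [lg_F, modularFunctionFieldFullC, IntermediateField.adjoin_le_iff]
    rintro _ ⟨d, hd, hdN, rfl⟩
    haveI := hd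
    have h1 := Fermat.Agent.S28.bd_functionFieldGeneration N d hdN hd
    have h2 := gqm_coeffEmb_mem_adjoin L _ _ h1
    rw [gqm_coeffEmb_jqd] at h2
    have himg : coeffEmb L '' {jq, qExpand ℚ N jq} =
        {jqModC L, qExpand L N (jqModC L)} := by
      rw [Set.image_pair, gqm_coeffEmb_jqd]
      congr 1
      have := gqm_coeffEmb_jqd L 1
      rwa [qExpand_one_apply, qExpand_one_apply] at this
    rw [himg] at h2
    exact h2
  · rw [IntermediateField.adjoin_le_iff]
    rintro x (rfl | rfl)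
    · exact jqModC_mem_full L N
    · exact jqModCd_mem_full L N dvd_rfl

end Field

section Main

variable {L : Type*} [Field L] [CharZero L] (O : ValuationSubring L) (ℓ : ℕ) [Fact ℓ.Prime]
  (N : ℕ) [NeZero N] (hℓN : ¬ ℓ ∣ N) [CharP (ResidueField ↥O) ℓ]
  (ρ : ↥(GaloisRep.ratLocalizedAt ℓ) →+* ↥O)

/-- (HC) for the reductions of `j, j_N ∈ O((q))`, in the shape of the Gauss bridge. -/
theorem gqm_hind :
    ∀ a : Fin (gqm_Phi N ℓ hℓN ρ).natDegree → (ResidueField ↥O)[X],
      (∑ i, aeval (coeffMap (residue ↥O) (jqModC ↥O)) (a i) *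
        (coeffMap (residue ↥O) (qExpand ↥O N (jqModC ↥O))) ^ (i : ℕ) = 0) → a = 0 := by
  have h := vx_polyIndep N ℓ hℓN (ResidueField ↥O)
  rw [← gqm_Phi_natDegree N ℓ hℓN ρ] at h
  rw [coeffMap_qExpand, coeffMap_jqModC]
  exact h

/-- `F_N = L(ι j, ι j_N)`. -/
theorem gqm_F_eq_iota :
    lg_F L N = IntermediateField.adjoin L
      {coeffMap (algebraMap ↥O L) (jqModC ↥O),
        coeffMap (algebraMap ↥O L) (qExpand ↥O N (jqModC ↥O))} := by
  rw [coeffMap_qExpand, coeffMap_jqModC]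
  exact gqm_F_eq L N

include hℓN ρ

/-- Every modular function of level `N` over `L`, or its inverse, is Gauss-bounded. -/
theorem gqm_isBdd_or_inv (z : LaurentSeries L) (hz : z ∈ lg_F L N) :
    gq_IsBdd ↥O L z ∨ gq_IsBdd ↥O L z⁻¹ := by
  rw [gqm_F_eq_iota O N] at hz
  exact gqa_isBdd_or_inv (jqModC ↥O) (qExpand ↥O N (jqModC ↥O)) (gqm_Phi N ℓ hℓN ρ)
    (gqm_Phi_monic N ℓ hℓN ρ) (gqm_Phi_root N ℓ hℓN ρ) (gqm_hind O ℓ N hℓN ρ) z hz

/-- **The residue of a Gauss-bounded modular function of level `N` is a modular function of level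
`N` over the residue field.** -/
theorem gqm_res_mem_full (z : LaurentSeries L) (hz : z ∈ lg_F L N) (hb : gq_IsBdd ↥O L z) :
    gq_res ↥O L ⟨z, hb⟩ ∈ modularFunctionFieldFullC (ResidueField ↥O) N := by
  rw [gqm_F_eq_iota O N] at hz
  have h := gqa_res_mem (jqModC ↥O) (qExpand ↥O N (jqModC ↥O)) (gqm_Phi N ℓ hℓN ρ)
    (gqm_Phi_monic N ℓ hℓN ρ) (gqm_Phi_root N ℓ hℓN ρ) (gqm_hind O ℓ N hℓN ρ) z hz hb
  rw [coeffMap_qExpand, coeffMap_jqModC] at h
  refine (IntermediateField.adjoin_le_iff.mpr ?_) h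
  rintro x (rfl | rfl)
  · exact jqModC_mem_full _ N
  · exact jqModCd_mem_full _ N dvd_rfl

/-- The structure of bounded modular functions: `d(j) z = Σ a_i(j) j_N^i` with `d̄ ≠ 0`. -/
theorem gqm_isBdd_iff (z : LaurentSeries L) (hz : z ∈ lg_F L N) :
    gq_IsBdd ↥O L z ↔ ∃ (d : (↥O)[X]) (a : Fin (gqm_Phi N ℓ hℓN ρ).natDegree → (↥O)[X]),
      d.map (residue ↥O) ≠ 0 ∧
      coeffMap (algebraMap ↥O L) (aeval (jqModC ↥O) d) * z =
        coeffMap (algebraMap ↥O L)
          (∑ i, aeval (jqModC ↥O) (a i) * (qExpand ↥O N (jqModC ↥O)) ^ (i : ℕ)) := by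
  rw [gqm_F_eq_iota O N] at hz
  exact gqa_isBdd_iff (jqModC ↥O) (qExpand ↥O N (jqModC ↥O)) (gqm_Phi N ℓ hℓN ρ)
    (gqm_Phi_monic N ℓ hℓN ρ) (gqm_Phi_root N ℓ hℓN ρ) (gqm_hind O ℓ N hℓN ρ) z hz

/-- **The Gauss valuation ring of the modular function field `F_N / L`.** -/
noncomputable def gqm_valSub : ValuationSubring ↥(lg_F L N) where
  toSubring := (gq_bddSubring ↥O L).comap (lg_F L N).val.toRingHom
  mem_or_inv_mem' := by
    intro z
    rcases gqm_isBdd_or_inv O ℓ N hℓN ρ (z : LaurentSeries L) z.2 with h | h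
    · exact Or.inl h
    · refine Or.inr ?_
      change gq_IsBdd ↥O L ((z⁻¹ : ↥(lg_F L N)) : LaurentSeries L)
      rwa [IntermediateField.coe_inv]

theorem gqm_mem_valSub (z : ↥(lg_F L N)) :
    z ∈ gqm_valSub O ℓ N hℓN ρ ↔ gq_IsBdd ↥O L (z : LaurentSeries L) := Iff.rfl

/-- **The reduction homomorphism** from the Gauss valuation ring of `F_N / L` to the modular
function field of level `N` over the residue field. -/
noncomputable def gqm_red :
    ↥(gqm_valSub O ℓ N hℓN ρ) →+* ↥(modularFunctionFieldFullC (ResidueField ↥O) N) :=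
  ((gq_res ↥O L).comp
    (Subring.inclusion (S := (gqm_valSub O ℓ N hℓN ρ).toSubring.map (lg_F L N).val.toRingHom)
      (T := gq_bddSubring ↥O L) (by
        rintro _ ⟨z, hz, rfl⟩
        exact hz))).comp
    ((lg_F L N).val.toRingHom.restrict (gqm_valSub O ℓ N hℓN ρ).toSubring
      ((gqm_valSub O ℓ N hℓN ρ).toSubring.map (lg_F L N).val.toRingHom)
      (fun z hz => ⟨z, hz, rfl⟩)) |>.codRestrict
    (modularFunctionFieldFullC (ResidueField ↥O) N).toSubfield.toSubring (fun z =>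
      gqm_res_mem_full O ℓ N hℓN ρ ((z : ↥(lg_F L N)) : LaurentSeries L) (z : ↥(lg_F L N)).2 z.2)

theorem gqm_red_coe (z : ↥(gqm_valSub O ℓ N hℓN ρ)) :
    ((gqm_red O ℓ N hℓN ρ z : ↥(modularFunctionFieldFullC (ResidueField ↥O) N)) :
      LaurentSeries (ResidueField ↥O)) =
      gq_res ↥O L ⟨((z : ↥(lg_F L N)) : LaurentSeries L), z.2⟩ := rfl

/-- The reduction of (the class of) a series with coefficients in `O` is its coefficientwise
reduction. -/
theorem gqm_red_iota (y : LaurentSeries ↥O) (h : coeffMap (algebraMap ↥O L) y ∈ lg_F L N) :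
    ((gqm_red O ℓ N hℓN ρ ⟨⟨coeffMap (algebraMap ↥O L) y, h⟩, gq_isBdd_iota y⟩ :
      ↥(modularFunctionFieldFullC (ResidueField ↥O) N)) : LaurentSeries (ResidueField ↥O)) =
      coeffMap (residue ↥O) y := by
  rw [gqm_red_coe]
  exact gq_res_iota y

/-- The reduction of `j(q^d)` is `j̃(q^d)`. -/
theorem gqm_red_jqd {d : ℕ} [NeZero d] (hd : d ∣ N) :
    ∃ hb : gq_IsBdd ↥O L (qExpand L d (jqModC L)),
      gqm_red O ℓ N hℓN ρ ⟨⟨qExpand L d (jqModC L), jqModCd_mem_full L N hd⟩, hb⟩ =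
        ⟨qExpand (ResidueField ↥O) d (jqModC (ResidueField ↥O)),
          jqModCd_mem_full (ResidueField ↥O) N hd⟩ := by
  have h1 : qExpand L d (jqModC L) = coeffMap (algebraMap ↥O L) (qExpand ↥O d (jqModC ↥O)) := by
    rw [coeffMap_qExpand, coeffMap_jqModC]
  have hb : gq_IsBdd ↥O L (qExpand L d (jqModC L)) := by
    rw [h1]
    exact gq_isBdd_iota _
  refine ⟨hb, ?_⟩
  apply Subtype.ext
  rw [gqm_red_coe]
  change gq_res ↥O L ⟨qExpand L d (jqModC L), hb⟩ = qExpand (ResidueField ↥O) d (jqModC _)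
  rw [gq_res_eq ⟨qExpand L d (jqModC L), hb⟩ (z1 := qExpand ↥O d (jqModC ↥O)) (z2 := 1)
    (by rw [map_one]; exact one_ne_zero) (by rw [map_one, mul_one]; exact h1),
    map_one, div_one, coeffMap_qExpand, coeffMap_jqModC]

/-- **The kernel of the reduction is the maximal ideal of the Gauss valuation ring.** -/
theorem gqm_red_eq_zero_iff (z : ↥(gqm_valSub O ℓ N hℓN ρ)) :
    gqm_red O ℓ N hℓN ρ z = 0 ↔ (z : ↥(lg_F L N)) ∈ (gqm_valSub O ℓ N hℓN ρ).nonunits := by
  have hcoe : gqm_red O ℓ N hℓN ρ z = 0 ↔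
      gq_res ↥O L ⟨((z : ↥(lg_F L N)) : LaurentSeries L), z.2⟩ = 0 := by
    rw [← gqm_red_coe]
    constructor
    · intro h
      rw [h]
      rfl
    · intro h
      exact Subtype.ext h
  rw [hcoe, ValuationSubring.mem_nonunits_iff_or]
  constructor
  · intro h0
    by_cases hz0 : (z : ↥(lg_F L N)) = 0
    · exact Or.inl hz0
    · refine Or.inr fun hinv => ?_
      have hinv' : gq_IsBdd ↥O L (((z : ↥(lg_F L N)) : LaurentSeries L))⁻¹ := by
        have : gq_IsBdd ↥O L (((z : ↥(lg_F L N))⁻¹ : ↥(lg_F L N)) : LaurentSeries L) := hinv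
        rwa [IntermediateField.coe_inv] at this
      have hz0' : ((z : ↥(lg_F L N)) : LaurentSeries L) ≠ 0 := fun h => hz0 (Subtype.ext h)
      exact gq_res_ne_zero_of_inv ⟨((z : ↥(lg_F L N)) : LaurentSeries L), z.2⟩ hinv' hz0' h0
  · rintro (h | h)
    · have : (⟨((z : ↥(lg_F L N)) : LaurentSeries L), z.2⟩ : ↥(gq_bddSubring ↥O L)) = 0 := by
        apply Subtype.ext
        change ((z : ↥(lg_F L N)) : LaurentSeries L) = 0
        rw [h]
        rfl
      rw [this, map_zero]
    · by_contra hne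
      apply h
      have := gq_isBdd_inv_of_res_ne_zero _ hne
      change gq_IsBdd ↥O L (((z : ↥(lg_F L N))⁻¹ : ↥(lg_F L N)) : LaurentSeries L)
      rwa [IntermediateField.coe_inv]

end Main

end Fermat.Agent.JT3
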